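import Mathlib
import Fermat.Prelude.Def_ModularCurve_HeckeModule
import Fermat.Agent.S54.helper91_Frobenius

/-!
# S37 [WIRE-1] (helper16): `SpecializationExists` from a reduction datum `ρ`

`RhoStatement N p ℓ hℓ A` : there is an additive map `ρ : J₀(N)(ℚ̄) → G` (`G` any abelian group;
NO Hecke structure and NO Galois structure on `G` is required) such that
* `ρ (t • x) = ρ x` for `t` in the inertia group of `A`,
* `ρ (σ² x - T_ℓ σ x + ℓ x) = 0` for every Frobenius `σ` at `A` (Eichler-Shimura on ALL points),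
* `ρ` is injective on the `p`-power torsion.

`s37_of_rho` : the frozen statement S37 follows (take `J' = J / K`,
`K = {x | ∀ T k, ρ (T • σ₀ ^ k • x) = 0}` for one Frobenius `σ₀`, `F` induced by `σ₀`).
-/

set_option autoImplicit false
set_option linter.style.haveILetI false

noncomputable section

open ModularCurve

namespace Fermat.Agent.S37.helper16

/-- **The reduction datum** at `(N, p, ℓ, A)`. -/
def RhoStatement (N p : ℕ) [NeZero N] (ℓ : ℕ) (hℓ : ℓ.Prime) (A : ValuationSubring (AlgebraicClosure ℚ)) : Prop :=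
  ∃ (G : Type) (_ : AddCommGroup G) (ρ : JZero N →+ G),
    (∀ t ∈ A.inertiaSubgroupIn ℚ, ∀ x : JZero N, ρ (t • x) = ρ x) ∧
    (∀ σ : AlgebraicClosure ℚ ≃ₐ[ℚ] AlgebraicClosure ℚ, A.IsFrobeniusAt σ ℓ → ∀ x : JZero N,
      ρ (σ • σ • x - heckeOperatorBar N ⟨ℓ, hℓ⟩ (σ • x) + ℓ • x) = 0) ∧
    (∀ x : JZero N, (∃ n : ℕ, p ^ n • x = 0) → ρ x = 0 → x = 0)

section Inertia

variable {A : ValuationSubring (AlgebraicClosure ℚ)}

theorem mem_decomposition_of_mem_inertia {t : AlgebraicClosure ℚ ≃ₐ[ℚ] AlgebraicClosure ℚ} (ht : t ∈ A.inertiaSubgroupIn ℚ) :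
    t ∈ A.decompositionSubgroup ℚ := by
  obtain ⟨τ, -, rfl⟩ := Subgroup.mem_map.mp ht
  exact τ.2

theorem conj_mem_inertia {σ t : AlgebraicClosure ℚ ≃ₐ[ℚ] AlgebraicClosure ℚ} (hσ : σ ∈ A.decompositionSubgroup ℚ)
    (ht : t ∈ A.inertiaSubgroupIn ℚ) : σ * t * σ⁻¹ ∈ A.inertiaSubgroupIn ℚ := by
  obtain ⟨τ, hτ, rfl⟩ := Subgroup.mem_map.mp ht
  refine Subgroup.mem_map.mpr ⟨⟨σ, hσ⟩ * τ * ⟨σ, hσ⟩⁻¹, ?_, rfl⟩
  have hn : (A.inertiaSubgroup ℚ).Normal := by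
    unfold ValuationSubring.inertiaSubgroup
    infer_instance
  exact hn.conj_mem τ hτ ⟨σ, hσ⟩

theorem pow_mem_decomposition {σ : AlgebraicClosure ℚ ≃ₐ[ℚ] AlgebraicClosure ℚ} (hσ : σ ∈ A.decompositionSubgroup ℚ) (k : ℕ) :
    σ ^ k ∈ A.decompositionSubgroup ℚ :=
  Subgroup.pow_mem _ hσ k

theorem inv_mul_mem_inertia_of_isFrobeniusAt {σ σ' : AlgebraicClosure ℚ ≃ₐ[ℚ] AlgebraicClosure ℚ} {ℓ : ℕ}
    (h : A.IsFrobeniusAt σ ℓ) (h' : A.IsFrobeniusAt σ' ℓ) :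
    σ⁻¹ * σ' ∈ A.inertiaSubgroupIn ℚ := by
  obtain ⟨hσ, hx⟩ := h
  obtain ⟨hσ', hx'⟩ := h'
  refine Subgroup.mem_map.mpr
    ⟨(⟨σ, hσ⟩ : A.decompositionSubgroup ℚ)⁻¹ * ⟨σ', hσ'⟩, ?_, rfl⟩
  unfold ValuationSubring.inertiaSubgroup
  rw [MonoidHom.mem_ker]
  ext x
  show ((⟨σ, hσ⟩ : A.decompositionSubgroup ℚ)⁻¹ * ⟨σ', hσ'⟩) • x = x
  rw [mul_smul, hx' x, ← hx x, inv_smul_smul]

end Inertia

section Abstract

variable {Γ : Type*} [Group Γ] {J : Type} [AddCommGroup J] [Module HeckeAlg J]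
  [DistribMulAction Γ J] [SMulCommClass Γ HeckeAlg J]

/-- the kernel `K = {x | ∀ T k, ρ (T • σ₀ ^ k • x) = 0}` -/
def kerSub {G : Type} [AddCommGroup G] (ρ : J →+ G) (σ₀ : Γ) : Submodule HeckeAlg J where
  carrier := {x | ∀ (T : HeckeAlg) (k : ℕ), ρ (T • (σ₀ ^ k • x)) = 0}
  zero_mem' := fun T k => by simp
  add_mem' := fun {x y} hx hy T k => by
    rw [smul_add, smul_add, map_add, hx T k, hy T k, add_zero]
  smul_mem' := fun T' x hx T k => by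
    rw [smul_comm (σ₀ ^ k) T' x, ← mul_smul]
    exact hx (T * T') k

theorem mem_kerSub {G : Type} [AddCommGroup G] (ρ : J →+ G) (σ₀ : Γ) (x : J) :
    x ∈ kerSub ρ σ₀ ↔ ∀ (T : HeckeAlg) (k : ℕ), ρ (T • (σ₀ ^ k • x)) = 0 := Iff.rfl

theorem rho_eq_zero_of_mem_kerSub {G : Type} [AddCommGroup G] (ρ : J →+ G) (σ₀ : Γ) {x : J}
    (hx : x ∈ kerSub ρ σ₀) : ρ x = 0 := by
  have := hx 1 0
  simpa using this

theorem smul_mem_kerSub {G : Type} [AddCommGroup G] (ρ : J →+ G) (σ₀ : Γ) {x : J}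
    (hx : x ∈ kerSub ρ σ₀) : σ₀ • x ∈ kerSub ρ σ₀ := fun T k => by
  have := hx T (k + 1)
  rwa [pow_succ, mul_smul] at this

theorem inertia_mem_kerSub {G : Type} [AddCommGroup G] (ρ : J →+ G) (σ₀ : Γ) (I : Set Γ)
    (hconj : ∀ (k : ℕ), ∀ t ∈ I, σ₀ ^ k * t * (σ₀ ^ k)⁻¹ ∈ I)
    (h1 : ∀ t ∈ I, ∀ x : J, ρ (t • x) = ρ x) {t : Γ} (ht : t ∈ I) (x : J) :
    t • x - x ∈ kerSub ρ σ₀ := by
  intro T k
  have hc := hconj k t ht
  have e : σ₀ ^ k • t • x = (σ₀ ^ k * t * (σ₀ ^ k)⁻¹) • (σ₀ ^ k • x) := by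
    rw [← mul_smul, ← mul_smul, inv_mul_cancel_right]
  rw [smul_sub, smul_sub, map_sub, e, ← smul_comm _ T, h1 _ hc, sub_self]

theorem quad_mem_kerSub {G : Type} [AddCommGroup G] (ρ : J →+ G) (σ₀ : Γ) (τ : HeckeAlg)
    (ℓ : ℕ) (h2 : ∀ x : J, ρ (σ₀ • σ₀ • x - τ • (σ₀ • x) + ℓ • x) = 0) (x : J) :
    σ₀ • σ₀ • x - τ • (σ₀ • x) + ℓ • x ∈ kerSub ρ σ₀ := by
  intro T k
  let L : J →+ J :=
    { toFun := fun z => T • (σ₀ ^ k • z)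
      map_zero' := by simp
      map_add' := fun a b => by rw [smul_add, smul_add] }
  have hL : ∀ z, L z = T • (σ₀ ^ k • z) := fun z => rfl
  have hL1 : ∀ z, L (σ₀ • z) = σ₀ • L z := fun z => by
    rw [hL, hL, smul_comm σ₀ T, ← mul_smul, ← mul_smul, ← pow_succ, ← pow_succ']
  have hL2 : ∀ z, L (τ • z) = τ • L z := fun z => by
    rw [hL, hL, smul_comm (σ₀ ^ k) τ, smul_comm T τ]
  have e : T • σ₀ ^ k • (σ₀ • σ₀ • x - τ • (σ₀ • x) + ℓ • x)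
      = σ₀ • σ₀ • L x - τ • (σ₀ • L x) + ℓ • L x := by
    rw [← hL, map_add, map_sub, map_nsmul, hL1, hL1, hL2, hL1]
  rw [e]
  exact h2 _

/-- the Frobenius as a linear endomorphism -/
def frobLin (σ₀ : Γ) : J →ₗ[HeckeAlg] J where
  toFun := fun x => σ₀ • x
  map_add' := fun x y => smul_add σ₀ x y
  map_smul' := fun T x => smul_comm σ₀ T x

theorem frobLin_apply (σ₀ : Γ) (x : J) : frobLin (J := J) σ₀ x = σ₀ • x := rfl

theorem kerSub_le_comap {G : Type} [AddCommGroup G] (ρ : J →+ G) (σ₀ : Γ) :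
    kerSub ρ σ₀ ≤ (kerSub ρ σ₀).comap (frobLin σ₀) :=
  fun _ hx => smul_mem_kerSub ρ σ₀ hx

/-- **Abstract form of [WIRE-1].** -/
theorem exists_specialization_of_rho {G : Type} [AddCommGroup G] (ρ : J →+ G) (σ₀ : Γ)
    (I Fr : Set Γ) (τ : HeckeAlg) (ℓ p : ℕ)
    (hconj : ∀ (k : ℕ), ∀ t ∈ I, σ₀ ^ k * t * (σ₀ ^ k)⁻¹ ∈ I)
    (hfr : ∀ σ ∈ Fr, σ₀⁻¹ * σ ∈ I)
    (h1 : ∀ t ∈ I, ∀ x : J, ρ (t • x) = ρ x)
    (h2 : ∀ x : J, ρ (σ₀ • σ₀ • x - τ • (σ₀ • x) + ℓ • x) = 0)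
    (h3 : ∀ x : J, (∃ n : ℕ, p ^ n • x = 0) → ρ x = 0 → x = 0) :
    ∃ (J' : Type) (_ : AddCommGroup J') (_ : Module HeckeAlg J') (sp : J →+ J')
      (F : J' →+ J'),
      (∀ (T : HeckeAlg) (x : J), sp (T • x) = T • sp x) ∧
      (∀ t ∈ I, ∀ x : J, sp (t • x) = sp x) ∧
      (∀ σ ∈ Fr, ∀ x : J, sp (σ • x) = F (sp x)) ∧
      (∀ x : J, (∃ n : ℕ, p ^ n • x = 0) → sp x = 0 → x = 0) ∧
      (∀ y : J', F (F y) - τ • F y + ℓ • y = 0) := by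
  set K := kerSub ρ σ₀ with hKdef
  have e0 : ∀ z : J, K.mkQ.toAddMonoidHom z = K.mkQ z := fun z => rfl
  have e1 : ∀ z : J, (K.mapQ K (frobLin σ₀) (kerSub_le_comap ρ σ₀)).toAddMonoidHom (K.mkQ z)
      = K.mkQ (σ₀ • z) := fun z => rfl
  refine ⟨J ⧸ K, inferInstance, inferInstance, K.mkQ.toAddMonoidHom,
    (K.mapQ K (frobLin σ₀) (kerSub_le_comap ρ σ₀)).toAddMonoidHom, ?_, ?_, ?_, ?_, ?_⟩
  · intro T x
    exact map_smul K.mkQ T x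
  · intro t ht x
    rw [e0, e0, ← sub_eq_zero, ← map_sub]
    exact (Submodule.Quotient.mk_eq_zero K).mpr (inertia_mem_kerSub ρ σ₀ I hconj h1 ht x)
  · intro σ hσ x
    rw [e0, e0, e1, ← sub_eq_zero, ← map_sub]
    refine (Submodule.Quotient.mk_eq_zero K).mpr ?_
    have ht := hfr σ hσ
    have e : σ • x - σ₀ • x = σ₀ • ((σ₀⁻¹ * σ) • x - x) := by
      rw [smul_sub, ← mul_smul, mul_inv_cancel_left]
    rw [e]
    exact smul_mem_kerSub ρ σ₀ (inertia_mem_kerSub ρ σ₀ I hconj h1 ht x)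
  · rintro x hx hsp
    have hxK : x ∈ K := (Submodule.Quotient.mk_eq_zero K).mp hsp
    exact h3 x hx (rho_eq_zero_of_mem_kerSub ρ σ₀ hxK)
  · intro y
    obtain ⟨x, rfl⟩ := K.mkQ_surjective y
    have e2 : ∀ z : J, τ • K.mkQ z = K.mkQ (τ • z) := fun z => (map_smul K.mkQ _ z).symm
    have e3 : ∀ z : J, (ℓ : ℕ) • K.mkQ z = K.mkQ ((ℓ : ℕ) • z) :=
      fun z => (map_nsmul K.mkQ ℓ z).symm
    rw [e1, e1, e2, e3, ← map_sub, ← map_add]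
    exact (Submodule.Quotient.mk_eq_zero K).mpr (quad_mem_kerSub ρ σ₀ τ ℓ h2 x)

end Abstract

section Main

variable (N p : ℕ) [NeZero N]

/-- **S37 from the reduction data.** -/
theorem s37_of_rho (hcomm : HeckeOperatorsCommuteBar N)
    (hρ : ∀ (ℓ : ℕ) (hℓ : ℓ.Prime), ¬ ℓ ∣ N * p → ∀ A : ValuationSubring (AlgebraicClosure ℚ),
      A.LiesOverPrime ℓ → RhoStatement N p ℓ hℓ A) :
    letI := heckeModuleBar N
    ∀ (_ : SMulCommClass (AlgebraicClosure ℚ ≃ₐ[ℚ] AlgebraicClosure ℚ) HeckeAlg (JZero N)),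
      SpecializationExists (K := ℚ) (L := AlgebraicClosure ℚ) N p (JZero N) := by
  letI := heckeModuleBar N
  intro hsc ℓ hℓ hℓNp A hA
  obtain ⟨G, instG, ρ, h1, h2, h3⟩ := hρ ℓ hℓ hℓNp A hA
  obtain ⟨σ₀, hσ₀⟩ := Fermat.Agent.S54.helper91.exists_isFrobeniusAt_of_liesOver A hℓ hA
  have hσ₀D : σ₀ ∈ A.decompositionSubgroup ℚ := hσ₀.mem_decompositionSubgroup
  have hT : ∀ x : JZero N, heckeGen ⟨ℓ, hℓ⟩ • x = heckeOperatorBar N ⟨ℓ, hℓ⟩ x :=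
    fun x => heckeModuleBar_heckeGen_smul hcomm ⟨ℓ, hℓ⟩ x
  obtain ⟨J', i1, i2, sp, F, k1, k2, k3, k4, k5⟩ :=
    exists_specialization_of_rho (Γ := AlgebraicClosure ℚ ≃ₐ[ℚ] AlgebraicClosure ℚ)
      (J := JZero N) ρ σ₀ (A.inertiaSubgroupIn ℚ : Set _)
      {σ | A.IsFrobeniusAt σ ℓ} (heckeGen ⟨ℓ, hℓ⟩) ℓ p
      (fun k t ht => conj_mem_inertia (pow_mem_decomposition hσ₀D k) ht)
      (fun σ hσ => inv_mul_mem_inertia_of_isFrobeniusAt hσ₀ hσ)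
      h1 (fun x => by rw [hT]; exact h2 σ₀ hσ₀ x) h3
  exact ⟨J', i1, i2, sp, F, ⟨k1, k2, k3, k4⟩, k5⟩

end Main

end Fermat.Agent.S37.helper16

end
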