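import Mathlib
import Fermat.Agent.S37.helper16_Wire
import Fermat.Agent.P2.helper29_Interface
import Fermat.Agent.P2.helper93_CoreWire
import Fermat.Agent.P3.helper58_HeckeInputs

/-!
# S37 (helper16, coordinator): INTERFACE of program S37 (BLUEPRINT S37 v1)

Target: the frozen statement S37 (`SpecializationExists` for `J₀(N)`), via
`helper16.s37_of_rho` (file `helper16_Wire`): it suffices to construct, for every prime
`ℓ ∤ N p` and every place `A` of `ℚ̄` over `ℓ`, the reduction datum `RhoStatement N p ℓ hℓ A`.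

The datum is `ρ = reductionModL A (N r) ∘ pullPic N r`, `r = 4` (`ℓ` odd) or `r = 9` (`ℓ = 2`):

* `pullPic N r : J₀(N) → J₀(N r)` : pull-back of divisor classes along
  `β_r : F_N → F_{N r}`, `f(q) ↦ f(q ^ r)` (the Prelude's `heckeBetaBar ℚ̄ N r`),
* `reductionModL A (N r)` : the Prelude's reduction of divisor classes at the GOOD level `N r`.

Packages (all statements below are `Prop`s; `M = N * r`):

* **[RD]**    `RedDivStatement M A`   : `ReductionInputsModL A M` (a reduction of places with the
  Rouché property) — from the P2 package statements at a good pair.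
* **[RIG-I]** `RigInertiaStatement N r A`, **[RIG-F]** `RigFrobStatement N r ℓ hℓ A` :
  `ρ ((t - 1) x) = 0` for inertia, `ρ ((σ² - T_ℓ σ + ℓ) x) = 0` for Frobenius, for ALL points `x`
  (rigidity: an additive map `Div(F_N) → Div(F̃_M)` which kills the principal divisors and is
  bounded on places kills the divisors of degree `0`).
* **[PINJ]**  `PullInjStatement N r`  : `pullPic N r` is injective on torsion (`r = 4, 9`).
* **[INJ-M]** : injectivity of `reductionModL A M` on prime-to-`ℓ` torsion = helper19's
  `s18_of_coreInj` at level `M` (P2-CORE).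
-/

set_option autoImplicit false

noncomputable section

open HahnSeries IntermediateField AlgebraicCurve ModularCurve
open Fermat.Agent.S18.helper19

namespace Fermat.Agent.S37.helper16

/-! ### The pull-back along `β_r` -/

section Pull

variable (N r : ℕ) [NeZero N] [NeZero r]

/-- `β_r : F_N → F_{N r}`, `f(q) ↦ f(q ^ r)` -/
abbrev betaR : FF N →ₐ[Kb] FF (N * r) := heckeBetaBar Kb N r

theorem betaR_integral : (betaR N r).toRingHom.IsIntegral :=
  (Fermat.Agent.P3.helper58.heckeInputsAlong_bar N r).snd.fst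

theorem hasPD_mul : HasPrincipalDivisors Kb (FF (N * r)) :=
  (Fermat.Agent.P3.helper58.heckeInputsAlong_bar N r).snd.snd.fst

theorem betaR_fundamental :
    haveI := hasPD_mul N r
    FundamentalIdentityAlong Kb (betaR N r) (betaR_integral N r) :=
  (Fermat.Agent.P3.helper58.heckeInputsAlong_bar N r).snd.snd.snd.snd.1

/-- pull-back of divisors along `β_r` -/
def pullDiv : Divisor Kb (FF N) →+ Divisor Kb (FF (N * r)) :=
  haveI := hasPD_mul N r
  Divisor.pullbackAlong (betaR N r) (betaR_integral N r)

theorem pullDiv_mem_degZero {D : Divisor Kb (FF N)}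
    (hD : D ∈ Divisor.degZero (K := Kb) (F := FF N)) :
    pullDiv N r D ∈ Divisor.degZero (K := Kb) (F := FF (N * r)) :=
  haveI := hasPD_mul N r
  Divisor.pullbackAlong_mem_degZero (betaR N r) (betaR_integral N r) (betaR_fundamental N r) hD

theorem pullDiv_mem_principal {D : Divisor Kb (FF N)}
    (hD : D ∈ Divisor.principal (K := Kb) (F := FF N)) :
    pullDiv N r D ∈ Divisor.principal (K := Kb) (F := FF (N * r)) :=
  haveI := hasPD_mul N r
  Divisor.isPrincipal_pullbackAlong (betaR N r) (betaR_integral N r) hD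

/-- pull-back of divisors of degree `0` along `β_r` -/
def pullDegZero : Divisor.degZero (K := Kb) (F := FF N) →+
    Divisor.degZero (K := Kb) (F := FF (N * r)) :=
  ((pullDiv N r).domRestrict (Divisor.degZero (K := Kb) (F := FF N))).codRestrict _
    (fun D => pullDiv_mem_degZero N r D.2)

@[simp]
theorem coe_pullDegZero (D : Divisor.degZero (K := Kb) (F := FF N)) :
    (pullDegZero N r D : Divisor Kb (FF (N * r))) = pullDiv N r (D : Divisor Kb (FF N)) :=
  rfl

/-- **pull-back of divisor classes** `J₀(N) → J₀(N r)` along `β_r` -/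
def pullPic : JZero N →+ JZero (N * r) :=
  QuotientAddGroup.map _ _ (pullDegZero N r) (by
    rintro ⟨D, hD0⟩ hD
    simp only [AddSubgroup.mem_addSubgroupOf] at hD ⊢
    exact pullDiv_mem_principal N r hD)

theorem pullPic_mk (D : Divisor.degZero (K := Kb) (F := FF N)) :
    pullPic N r (Pic0.mk D) = Pic0.mk (pullDegZero N r D) :=
  rfl

end Pull

/-! ### The package statements -/

/-- **[RD]** the reduction of places at level `M` (to be proved at good pairs). -/
def RedDivStatement (M : ℕ) (A : ValuationSubring Kb) : Prop :=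
  ReductionInputsModL A M

/-- **[RIG-I]** inertia acts trivially after pull-back and reduction, on ALL points. -/
def RigInertiaStatement (N r : ℕ) [NeZero N] [NeZero r] (A : ValuationSubring Kb) : Prop :=
  ReductionInputsModL A (N * r) →
    ∀ t ∈ A.inertiaSubgroupIn ℚ, ∀ x : JZero N,
      reductionModL A (N * r) (pullPic N r (t • x - x)) = 0

/-- **[RIG-F]** Eichler-Shimura after pull-back and reduction, on ALL points. -/
def RigFrobStatement (N r : ℕ) [NeZero N] [NeZero r] (ℓ : ℕ) (hℓ : ℓ.Prime)
    (A : ValuationSubring Kb) : Prop :=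
  ReductionInputsModL A (N * r) →
    ∀ σ : Kb ≃ₐ[ℚ] Kb, A.IsFrobeniusAt σ ℓ → ∀ x : JZero N,
      reductionModL A (N * r)
        (pullPic N r (σ • σ • x - heckeOperatorBar N ⟨ℓ, hℓ⟩ (σ • x) + ℓ • x)) = 0

/-- **[PINJ]** the pull-back along `β_r` is injective on torsion. -/
def PullInjStatement (N r : ℕ) [NeZero N] [NeZero r] : Prop :=
  ∀ (m : ℕ), m ≠ 0 → ∀ x : JZero N, m • x = 0 → pullPic N r x = 0 → x = 0

/-- **[INJ-M]** injectivity of the reduction on the prime-to-`ℓ` torsion at level `M`
(= the frozen statement S18 at level `M`). -/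
def RedInjStatement (M : ℕ) (ℓ : ℕ) (A : ValuationSubring Kb) : Prop :=
  ReductionInputsModL A M →
    ∀ (m : ℕ), ¬ ℓ ∣ m → ∀ z : JZero M, m • z = 0 → reductionModL A M z = 0 → z = 0

/-- **[RD-E]** Rouché for `A`-integral functions regular off infinity: a map `r` on places such
that the divisor of the reduction of an integral `Y ∈ L(n ∞)` with `red Y ≠ 0` is the image
under `r` of the divisor of `Y`. -/
def EffRedStatement (M : ℕ) [NeZero M] (A : ValuationSubring Kb) : Prop :=
  ∃ r : Place Kb (FF M) → Place (kA A) (FFb A M),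
    ∀ (n : ℤ) (Y : LaurentSeries A)
      (hL : Fermat.Agent.P2.helper29.InL (FF M) n (Fermat.Agent.P2.helper29.incl A Y))
      (hb : Fermat.Agent.P2.helper29.red A Y ∈ FFb A M),
      Fermat.Agent.P2.helper29.red A Y ≠ 0 →
      ∀ D : Divisor Kb (FF M),
        (∀ P, D P = P.ord (⟨Fermat.Agent.P2.helper29.incl A Y, hL.1⟩ : FF M)) →
        ∀ Q, Finsupp.mapDomain r D Q
          = Q.ord (⟨Fermat.Agent.P2.helper29.red A Y, hb⟩ : FFb A M)

/-! ### The assembly -/

/-- **[WIRE-2]** the reduction datum from the packages. -/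
theorem rho_of_packages (N p r : ℕ) [NeZero N] [NeZero r] (ℓ : ℕ) (hℓ : ℓ.Prime)
    (hℓp : ¬ ℓ ∣ p) (A : ValuationSubring Kb)
    (hRD : RedDivStatement (N * r) A) (hI : RigInertiaStatement N r A)
    (hF : RigFrobStatement N r ℓ hℓ A) (hP : PullInjStatement N r)
    (hM : RedInjStatement (N * r) ℓ A) : RhoStatement N p ℓ hℓ A := by
  have hp0 : p ≠ 0 := fun h => hℓp (h ▸ dvd_zero ℓ)
  refine ⟨JZeroC (kA A) (N * r), inferInstance,
    (reductionModL A (N * r)).comp (pullPic N r), ?_, ?_, ?_⟩
  · intro t ht x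
    have h := hI hRD t ht x
    rw [map_sub, map_sub, sub_eq_zero] at h
    exact h
  · intro σ hσ x
    exact hF hRD σ hσ x
  · rintro x ⟨n, hx⟩ hρ
    have hℓn : ¬ ℓ ∣ p ^ n := fun h => hℓp (hℓ.dvd_of_dvd_pow h)
    have h1 : p ^ n • pullPic N r x = 0 := by rw [← map_nsmul, hx, map_zero]
    have h2 := hM hRD (p ^ n) hℓn (pullPic N r x) h1 hρ
    exact hP (p ^ n) (pow_ne_zero n hp0) x hx h2

end Fermat.Agent.S37.helper16

end
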