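import Mathlib
import Fermat.Agent.T2.helper48_UOpDeg
import Fermat.Agent.S37.helper16_Defs

/-!
# S37 [PINJ] (helper39), part DEG: the degree of `F_{N r}` over `β_r F_N`

* `psi_mul_finrank_alpha` : `ψ(M) · [F_{M q} : α F_M] = ψ(M q)` for ALL `M`, `q`
  (tower law over `ℚ̄(j)`, helper93 + S24);
* `psi_mul_finrankAlong_beta` : the same for `β` (Fricke, helper48);
* `finrankAlong_betaR_four_lt`, `finrankAlong_betaR_nine_lt` : `[F_{N r} : β_r F_N] < 2 r` for
  `r = 4, 9`;
* `finiteAlong_betaR` : `F_{N r}` is finite over `β_r F_N`.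
-/

set_option autoImplicit false
set_option linter.unusedSectionVars false
set_option linter.style.haveILetI false

noncomputable section

open ModularCurve AlgebraicCurve IntermediateField
open scoped MatrixGroups

namespace Fermat.Agent.S37.helper39

open Fermat.Agent.S24 Fermat.Agent.P2.helper93 Fermat.Agent.T2.helper48
open Fermat.Agent.S18.helper19 Fermat.Agent.S37.helper16

variable (M q : ℕ) [NeZero M] [NeZero q]

/-- `ψ(M) · [F_{M q} : α F_M] = ψ(M q)`. -/
theorem psi_mul_finrank_alpha :
    ModularCurve.dedekindPsi M *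
        @Module.finrank (FN M) (FN (M * q)) _ _ (algebraAlong (heckeAlphaBar Kbar M q)).toModule
      = ModularCurve.dedekindPsi (M * q) := by
  have tower := finrank_tower_along (heckeAlphaBar Kbar M q) (xJ M)
  rw [alpha_xJ, helper77.an_finrank, helper77.an_finrank, helper37.card_quotient_Gamma0,
    helper37.card_quotient_Gamma0] at tower
  exact tower

/-- `ψ(M) · [F_{M q} : β F_M] = ψ(M q)`. -/
theorem psi_mul_finrankAlong_beta :
    ModularCurve.dedekindPsi M * finrankAlong Kb (betaR M q) = ModularCurve.dedekindPsi (M * q) := by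
  have h := psi_mul_finrank_alpha M q
  rw [← finrank_beta_eq_finrank_alpha M q] at h
  exact h

theorem finrankAlong_betaR_pos : 0 < finrankAlong Kb (betaR M q) := by
  have h := psi_mul_finrankAlong_beta M q
  have hpos : 0 < ModularCurve.dedekindPsi (M * q) :=
    helper37.dedekindPsi_pos (M * q) (Nat.mul_ne_zero (NeZero.ne M) (NeZero.ne q))
  rcases Nat.eq_zero_or_pos (finrankAlong Kb (betaR M q)) with h0 | h0
  · rw [h0, mul_zero] at h
    omega
  · exact h0

/-- `F_{M q}` is finite over `β_q F_M`. -/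
theorem finiteAlong_betaR : FiniteAlong Kb (betaR M q) := by
  exact @FiniteDimensional.of_finrank_pos (FF M) (FF (M * q)) _ _
    (algebraAlong (betaR M q)).toModule (finrankAlong_betaR_pos M q)

theorem psi_mul_four_le (N : ℕ) (hN : N ≠ 0) :
    ModularCurve.dedekindPsi (N * 4) ≤ 6 * ModularCurve.dedekindPsi N := by
  have h1 := helper37.dedekindPsi_mul_prime Nat.prime_two hN
  have h2 := helper37.dedekindPsi_mul_prime_of_dvd Nat.prime_two
    (Nat.mul_ne_zero hN two_ne_zero) (dvd_mul_left 2 N)
  have e : N * 4 = N * 2 * 2 := by ring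
  rw [e, h2, h1]
  split_ifs <;> nlinarith [ModularCurve.dedekindPsi N]

theorem psi_mul_nine_le (N : ℕ) (hN : N ≠ 0) :
    ModularCurve.dedekindPsi (N * 9) ≤ 12 * ModularCurve.dedekindPsi N := by
  have h1 := helper37.dedekindPsi_mul_prime Nat.prime_three hN
  have h2 := helper37.dedekindPsi_mul_prime_of_dvd Nat.prime_three
    (Nat.mul_ne_zero hN three_ne_zero) (dvd_mul_left 3 N)
  have e : N * 9 = N * 3 * 3 := by ring
  rw [e, h2, h1]
  split_ifs <;> nlinarith [ModularCurve.dedekindPsi N]

/-- `[F_{4N} : β₄ F_N] ≤ 6 < 8`. -/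
theorem finrankAlong_betaR_four_lt (N : ℕ) [NeZero N] :
    finrankAlong Kb (betaR N 4) < 2 * 4 := by
  have h := psi_mul_finrankAlong_beta N 4
  have h1 := psi_mul_four_le N (NeZero.ne N)
  have hpos := helper37.dedekindPsi_pos N (NeZero.ne N)
  rw [← h] at h1
  have h2 : finrankAlong Kb (betaR N 4) ≤ 6 := by
    by_contra hc
    push Not at hc
    nlinarith
  omega

/-- `[F_{9N} : β₉ F_N] ≤ 12 < 18`. -/
theorem finrankAlong_betaR_nine_lt (N : ℕ) [NeZero N] :
    finrankAlong Kb (betaR N 9) < 2 * 9 := by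
  have h := psi_mul_finrankAlong_beta N 9
  have h1 := psi_mul_nine_le N (NeZero.ne N)
  have hpos := helper37.dedekindPsi_pos N (NeZero.ne N)
  rw [← h] at h1
  have h2 : finrankAlong Kb (betaR N 9) ≤ 12 := by
    by_contra hc
    push Not at hc
    nlinarith
  omega

end Fermat.Agent.S37.helper39

end
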