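import Mathlib
import Fermat.Agent.P2.helper94_ESFormal
import Fermat.Agent.P2.helper29_Infty

/-!
# S37 [PINJ] (helper39), part ROT: rotation of Laurent series and `r`-periodic series

`K` a field, `ζ : Kˣ`, `rot ζ : K((q)) → K((q))`, `q ↦ ζ q` (helper94).

* `rot_algebraMap_const` : rotations fix the constants;
* `pow_order_eq_of_rot_eq` : `rot ζ x = c x`, `x ≠ 0` ⟹ `ζ ^ order x = c`;
* `zpow_order_eq_one_of_rot_eq` : `rot ζ x = x`, `x ≠ 0` ⟹ `ζ ^ order x = 1`;
* `rot_eq_self_of_pow` : `rot ζ (x ^ m) = x ^ m`, `ζ ^ order x = 1`, `K` contains a primitive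
  `m`-th root of unity ⟹ `rot ζ x = x`;
* `sum_eq_zero_of_order_injective` : a finite sum of Laurent series whose nonzero terms have
  pairwise distinct orders vanishes only if every term vanishes.
-/

set_option autoImplicit false

noncomputable section

open HahnSeries ModularCurve

namespace Fermat.Agent.S37.helper39

open Fermat.Agent.P2.helper94 Fermat.Agent.P2.helper29

variable {K : Type*} [Field K]

/-- rotations fix the constants -/
theorem rot_algebraMap_const (ζ : Kˣ) (c : K) :
    rot ζ (algebraMap K (LaurentSeries K) c) = algebraMap K (LaurentSeries K) c := by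
  ext n
  rw [rot_coeff, algebraMap_laurentSeries_eq_single]
  by_cases hn : n = 0
  · subst hn
    simp
  · rw [HahnSeries.coeff_single_of_ne hn, mul_zero]

theorem coeff_algebraMap_mul (c : K) (x : LaurentSeries K) (n : ℤ) :
    (algebraMap K (LaurentSeries K) c * x).coeff n = c * x.coeff n := by
  rw [algebraMap_laurentSeries_eq_single, HahnSeries.coeff_single_zero_mul]

/-- `rot ζ x = c x` with `x ≠ 0` forces `c = ζ ^ order x`. -/
theorem zpow_order_eq_of_rot_eq (ζ : Kˣ) {x : LaurentSeries K} (hx : x ≠ 0) (c : K)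
    (h : rot ζ x = algebraMap K (LaurentSeries K) c * x) :
    ((ζ ^ x.order : Kˣ) : K) = c := by
  have h1 := congrArg (fun y : LaurentSeries K => y.coeff x.order) h
  simp only [rot_coeff, coeff_algebraMap_mul] at h1
  exact mul_right_cancel₀ (fun h0 => hx (HahnSeries.coeff_order_eq_zero.mp h0)) h1

/-- `rot ζ x = x` with `x ≠ 0` forces `ζ ^ order x = 1`. -/
theorem zpow_order_eq_one_of_rot_eq (ζ : Kˣ) {x : LaurentSeries K} (hx : x ≠ 0)
    (h : rot ζ x = x) : ζ ^ x.order = 1 := by
  have h' : rot ζ x = algebraMap K (LaurentSeries K) 1 * x := by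
    rw [map_one, one_mul, h]
  have := zpow_order_eq_of_rot_eq ζ hx 1 h'
  exact Units.ext this

/-- If `x ^ m` is fixed by the rotation `ζ`, `ζ ^ order x = 1` and `K` contains a primitive
`m`-th root of unity, then `x` is fixed by the rotation. -/
theorem rot_eq_self_of_pow (ζ : Kˣ) {x : LaurentSeries K} (hx : x ≠ 0) {m : ℕ} (hm : m ≠ 0)
    {ξ : K} (hξ : IsPrimitiveRoot ξ m) (hpow : rot ζ (x ^ m) = x ^ m)
    (hord : ζ ^ x.order = 1) : rot ζ x = x := by
  have : NeZero m := ⟨hm⟩
  have hinj : Function.Injective (algebraMap K (LaurentSeries K)) :=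
    (algebraMap K (LaurentSeries K)).injective
  have hξ' : IsPrimitiveRoot (algebraMap K (LaurentSeries K) ξ) m :=
    hξ.map_of_injective hinj
  have hω : (rot ζ x * x⁻¹) ^ m = 1 := by
    rw [mul_pow, ← map_pow, hpow, inv_pow, mul_inv_cancel₀ (pow_ne_zero m hx)]
  obtain ⟨i, -, hi⟩ := hξ'.eq_pow_of_pow_eq_one hω
  have h1 : rot ζ x = algebraMap K (LaurentSeries K) (ξ ^ i) * x := by
    rw [map_pow, hi, mul_assoc, inv_mul_cancel₀ hx, mul_one]
  have h2 := zpow_order_eq_of_rot_eq ζ hx (ξ ^ i) h1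
  rw [hord, Units.val_one] at h2
  rw [h1, ← h2, map_one, one_mul]

/-- The elements fixed by a rotation by a primitive `r`-th root of unity have order divisible
by `r`. -/
theorem dvd_order_of_rot_eq {r : ℕ} {ζ : Kˣ} (hζ : IsPrimitiveRoot ζ r)
    {x : LaurentSeries K} (hx : x ≠ 0) (h : rot ζ x = x) : (r : ℤ) ∣ x.order :=
  (hζ.zpow_eq_one_iff_dvd _).mp (zpow_order_eq_one_of_rot_eq ζ hx h)

/-- A finite sum of Laurent series whose nonzero terms have pairwise distinct orders vanishes
only if every term vanishes. -/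
theorem eq_zero_of_sum_eq_zero_of_order_injective {ι : Type*} (s : Finset ι)
    (f : ι → LaurentSeries K)
    (hinj : ∀ i ∈ s, ∀ j ∈ s, f i ≠ 0 → f j ≠ 0 → (f i).order = (f j).order → i = j)
    (hsum : ∑ i ∈ s, f i = 0) : ∀ i ∈ s, f i = 0 := by
  classical
  by_contra hne
  push Not at hne
  obtain ⟨i₁, hi₁s, hi₁⟩ := hne
  set t := s.filter (fun i => f i ≠ 0) with ht
  have htne : t.Nonempty := ⟨i₁, by rw [ht, Finset.mem_filter]; exact ⟨hi₁s, hi₁⟩⟩
  obtain ⟨i₀, hi₀t, hmin⟩ := Finset.exists_min_image t (fun i => (f i).order) htne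
  have hi₀ : i₀ ∈ s ∧ f i₀ ≠ 0 := by rwa [ht, Finset.mem_filter] at hi₀t
  have hcoeff := congrArg (fun y : LaurentSeries K => y.coeff (f i₀).order) hsum
  simp only [HahnSeries.coeff_sum, HahnSeries.coeff_zero] at hcoeff
  rw [Finset.sum_eq_single_of_mem i₀ hi₀.1] at hcoeff
  · exact hi₀.2 (HahnSeries.coeff_order_eq_zero.mp hcoeff)
  · intro j hjs hji
    by_cases hj0 : f j = 0
    · rw [hj0, HahnSeries.coeff_zero]
    · have hjt : j ∈ t := by rw [ht, Finset.mem_filter]; exact ⟨hjs, hj0⟩
      have hle := hmin j hjt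
      have hne' : (f i₀).order ≠ (f j).order := fun h =>
        hji (hinj i₀ hi₀.1 j hjs hi₀.2 hj0 h).symm
      exact HahnSeries.coeff_eq_zero_of_lt_order (lt_of_le_of_ne hle hne')

end Fermat.Agent.S37.helper39

end
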