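import Mathlib
import Fermat.Agent.S37.helper39_PinjRot
import Fermat.Agent.S37.helper39_PinjDeg
import Fermat.Agent.S18.helper19_Wiring
import Fermat.Agent.P2.helper29_Infty
import Fermat.Agent.S24.helper82_FFBasic

/-!
# S37 [PINJ] (helper39): the pull-back along `β_r` is injective on torsion (`r = 4, 9`)

`pullInj_four N : PullInjStatement N 4`, `pullInj_nine N : PullInjStatement N 9`
(VERBATIM against `helper16_Defs`), from the general

`pullInj_of_finrank_lt : [F_{N r} : β_r F_N] < 2 r → PullInjStatement N r`.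

Proof.  `x = [Z]`, `m Z = div h`, `pullDiv Z = div G`.  Then `G ^ m = c · β h` (a function
without zeros is constant), `r ∣ ord_∞ G` (the ramification index of `β` at infinity is a
multiple of `r`), so `G` is fixed by the rotation `q ↦ ζ q`, `ζ` a primitive `r`-th root of
unity.  If `G ∉ β F_N`, the `2 r` elements `u ^ i`, `G u ^ i` (`i < r`, `u = 1 / j` of `q`-order
`1`) are linearly independent over `β F_N` (compare `q`-orders modulo `r`), contradicting the
degree bound.  Hence `G = β u₀`, `h = c⁻¹ u₀ ^ m` and `Z = div u₀`.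
-/

set_option autoImplicit false
set_option linter.unusedSectionVars false
set_option linter.style.haveILetI false

noncomputable section

open HahnSeries IntermediateField AlgebraicCurve ModularCurve

namespace Fermat.Agent.S37.helper39

open Fermat.Agent.S18.helper19 Fermat.Agent.S37.helper16
open Fermat.Agent.P2.helper29 Fermat.Agent.P2.helper94

/-! ### Generalities -/

section General

variable {K : Type*} [Field K]

theorem order_qExpand (r : ℕ) [NeZero r] (x : LaurentSeries K) :
    (qExpand K r x).order = r * x.order := by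
  rcases eq_or_ne x 0 with rfl | hx
  · simp
  · have hr : (0 : ℤ) < r := by exact_mod_cast Nat.pos_of_ne_zero (NeZero.ne r)
    apply order_eq_of_coeff
    · rw [qExpand_coeff_mul]
      exact fun h0 => hx (HahnSeries.coeff_order_eq_zero.mp h0)
    · intro k hk
      by_cases hd : (r : ℤ) ∣ k
      · obtain ⟨j, rfl⟩ := hd
        rw [qExpand_coeff_mul]
        exact HahnSeries.coeff_eq_zero_of_lt_order (lt_of_mul_lt_mul_left hk hr.le)
      · exact qExpand_coeff_of_not_dvd r x hd

variable {F F' : Type*} [Field F] [Field F'] [Algebra K F] [Algebra K F']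

theorem ord_pow_nat (v : Place K F) (f : F) (n : ℕ) : v.ord (f ^ n) = n * v.ord f := by
  have := v.ord_zpow f (n : ℤ)
  rwa [zpow_natCast] at this

theorem pullbackAlong_eq_ord [HasPrincipalDivisors K F'] (φ : F →ₐ[K] F')
    (hφ : φ.toRingHom.IsIntegral) {f : F} {D : Divisor K F}
    (hD : ∀ v : Place K F, D v = v.ord f) (w : Place K F') :
    Divisor.pullbackAlong φ hφ D w = w.ord (φ f) := by
  letI := algebraAlong φ
  haveI := isScalarTower_along φ
  haveI := isIntegral_along φ hφ
  exact Divisor.pullback_apply_eq_ord (F' := F') hD w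

/-- abstract form of "independent families have at most `finrank` elements", with the scalar
multiplication spelled out (avoids instance search at the point of use) -/
theorem card_le_finrank_of_indep {A B : Type*} [Field A] [Field B] [Algebra A B]
    [Module.Finite A B] {ι : Type*} [Fintype ι] (v : ι → B)
    (h : ∀ g : ι → A, ∑ i, algebraMap A B (g i) * v i = 0 → ∀ i, g i = 0) :
    Fintype.card ι ≤ Module.finrank A B := by
  have hli : LinearIndependent A v := by
    rw [Fintype.linearIndependent_iff]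
    intro g hg
    apply h g
    rw [← hg]
    exact Finset.sum_congr rfl fun i _ => (Algebra.smul_def _ _).symm
  exact hli.fintype_card_le_finrank

theorem exists_ord_eq_ramificationIndexAlong (φ : F →ₐ[K] F') (hφ : φ.toRingHom.IsIntegral)
    (w : Place K F') :
    ∃ f : F, f ≠ 0 ∧ w.ord (φ f) = Place.ramificationIndexAlong φ w := by
  letI := algebraAlong φ
  haveI := isScalarTower_along φ
  haveI := isIntegral_along φ hφ
  exact w.exists_ord_eq_ramificationIndex (F := F)

end General

/-! ### The modular case -/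

section Modular

variable (N r : ℕ) [NeZero N] [NeZero r]

theorem coe_betaR (f : FF N) :
    ((betaR N r f : FF (N * r)) : LaurentSeries Kb) = qExpand Kb r (f : LaurentSeries Kb) :=
  rfl

theorem betaR_injective : Function.Injective (betaR N r) :=
  (betaR N r).toRingHom.injective

/-- the ramification index of `β_r` at infinity is a multiple of `r` -/
theorem dvd_ramificationIndexAlong_infty :
    (r : ℤ) ∣ (Place.ramificationIndexAlong (betaR N r) (inftyBar (N * r)) : ℤ) := by
  obtain ⟨f, hf0, hf⟩ := exists_ord_eq_ramificationIndexAlong (betaR N r) (betaR_integral N r)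
    (inftyBar (N * r))
  have hβf : betaR N r f ≠ 0 := fun h => hf0 (betaR_injective N r (by rw [h, map_zero]))
  rw [isInfty_inftyBar (N * r) _ hβf, coe_betaR, order_qExpand] at hf
  exact ⟨_, hf.symm⟩

/-- **Core of [PINJ]**: a function of level `N r` fixed by the rotation by a primitive `r`-th
root of unity comes from level `N`, as soon as `[F_{N r} : β_r F_N] < 2 r`. -/
theorem exists_betaR_eq_of_rot (hd : finrankAlong Kb (betaR N r) < 2 * r) (ζ : Kbˣ)
    (hζ : IsPrimitiveRoot ζ r) (G : FF (N * r))
    (hG : rot ζ (G : LaurentSeries Kb) = (G : LaurentSeries Kb)) :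
    ∃ u : FF N, betaR N r u = G := by
  classical
  by_contra hne
  push Not at hne
  have hr : (0 : ℤ) < r := by exact_mod_cast Nat.pos_of_ne_zero (NeZero.ne r)
  have hζr : ζ ^ r = 1 := hζ.pow_eq_one
  set u : FF (N * r) := jInv (N * r) with hu
  have hu0 : u ≠ 0 := qUnif_ne_zero _ u (order_jInv (N * r))
  have hfix : ∀ a b : FF N, rot ζ ((betaR N r a + betaR N r b * G : FF (N * r)) :
      LaurentSeries Kb) = ((betaR N r a + betaR N r b * G : FF (N * r)) : LaurentSeries Kb) := by
    intro a b
    show rot ζ (qExpand Kb r (a : LaurentSeries Kb) +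
      qExpand Kb r (b : LaurentSeries Kb) * (G : LaurentSeries Kb)) = _
    rw [map_add, map_mul, rot_qExpand r ζ hζr, rot_qExpand r ζ hζr, hG]
    rfl
  -- the key independence statement
  have key : ∀ c : Fin r → FF (N * r),
      (∀ i, rot ζ ((c i : FF (N * r)) : LaurentSeries Kb) = (c i : LaurentSeries Kb)) →
      ∑ i, c i * u ^ (i : ℕ) = 0 → ∀ i, c i = 0 := by
    intro c hc hsum
    have hsum' : ∑ i ∈ (Finset.univ : Finset (Fin r)),
        ((c i * u ^ (i : ℕ) : FF (N * r)) : LaurentSeries Kb) = 0 := by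
      have := congrArg (fun z : FF (N * r) => (z : LaurentSeries Kb)) hsum
      simpa using this
    have hterm := eq_zero_of_sum_eq_zero_of_order_injective (Finset.univ : Finset (Fin r))
      (fun i => ((c i * u ^ (i : ℕ) : FF (N * r)) : LaurentSeries Kb)) ?_ hsum'
    · intro i
      have h1 := hterm i (Finset.mem_univ i)
      have h2 : c i * u ^ (i : ℕ) = 0 := Subtype.ext h1
      rcases mul_eq_zero.mp h2 with h3 | h3
      · exact h3
      · exact absurd h3 (pow_ne_zero _ hu0)
    · intro i _ j _ hi hj hij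
      have hci : c i ≠ 0 := by
        rintro h0
        apply hi
        show ((c i * u ^ (i : ℕ) : FF (N * r)) : LaurentSeries Kb) = 0
        rw [h0, zero_mul]; rfl
      have hcj : c j ≠ 0 := by
        rintro h0
        apply hj
        show ((c j * u ^ (j : ℕ) : FF (N * r)) : LaurentSeries Kb) = 0
        rw [h0, zero_mul]; rfl
      have hoi : ((c i * u ^ (i : ℕ) : FF (N * r)) : LaurentSeries Kb).order
          = (c i : LaurentSeries Kb).order + (i : ℕ) := by
        rw [order_coe_mul hci (pow_ne_zero _ hu0), order_coe_pow hu0, hu, order_jInv]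
        ring
      have hoj : ((c j * u ^ (j : ℕ) : FF (N * r)) : LaurentSeries Kb).order
          = (c j : LaurentSeries Kb).order + (j : ℕ) := by
        rw [order_coe_mul hcj (pow_ne_zero _ hu0), order_coe_pow hu0, hu, order_jInv]
        ring
      have hdi := dvd_order_of_rot_eq hζ (coe_ne_zero_of_ne_zero hci) (hc i)
      have hdj := dvd_order_of_rot_eq hζ (coe_ne_zero_of_ne_zero hcj) (hc j)
      have hij' : (c i : LaurentSeries Kb).order + (i : ℕ) = (c j : LaurentSeries Kb).order
          + (j : ℕ) := by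
        rw [← hoi, ← hoj]; exact hij
      have hdvd : (r : ℤ) ∣ ((i : ℕ) : ℤ) - ((j : ℕ) : ℤ) := by
        have h1 := dvd_sub hdj hdi
        have e : (c j : LaurentSeries Kb).order - (c i : LaurentSeries Kb).order
            = ((i : ℕ) : ℤ) - ((j : ℕ) : ℤ) := by linarith
        rwa [e] at h1
      have habs : |((i : ℕ) : ℤ) - ((j : ℕ) : ℤ)| < (r : ℤ) := by
        have hi' : ((i : ℕ) : ℤ) < r := by exact_mod_cast i.2
        have hj' : ((j : ℕ) : ℤ) < r := by exact_mod_cast j.2
        have hi0 : (0 : ℤ) ≤ ((i : ℕ) : ℤ) := Int.natCast_nonneg _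
        have hj0 : (0 : ℤ) ≤ ((j : ℕ) : ℤ) := Int.natCast_nonneg _
        rw [abs_lt]
        constructor <;> linarith
      have h0 := Int.eq_zero_of_abs_lt_dvd hdvd habs
      apply Fin.ext
      have : ((i : ℕ) : ℤ) = ((j : ℕ) : ℤ) := by linarith
      exact_mod_cast this
  -- linear independence of the `2 r` elements
  let v : Fin 2 × Fin r → FF (N * r) := fun ai =>
    (if ai.1 = 0 then (1 : FF (N * r)) else G) * u ^ (ai.2 : ℕ)
  have hcard := @card_le_finrank_of_indep (FF N) (FF (N * r)) _ _ (algebraAlong (betaR N r))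
    (finiteAlong_betaR N r) (Fin 2 × Fin r) _ v (by
    intro g hg
    have hg2 : ∑ ai : Fin 2 × Fin r, betaR N r (g ai) * v ai = 0 := hg
    rw [Fintype.sum_prod_type, Fin.sum_univ_two, ← Finset.sum_add_distrib] at hg2
    have hg' : ∑ i : Fin r, (betaR N r (g (0, i)) + betaR N r (g (1, i)) * G) * u ^ (i : ℕ)
        = 0 := by
      rw [← hg2]
      refine Finset.sum_congr rfl fun i _ => ?_
      simp only [v]
      rw [if_pos trivial, if_neg (by decide : ¬ ((1 : Fin 2) = 0))]
      ring
    have hz := key (fun i => betaR N r (g (0, i)) + betaR N r (g (1, i)) * G)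
      (fun i => hfix _ _) hg'
    have h1 : ∀ i : Fin r, g (1, i) = 0 := by
      intro i
      by_contra h1
      have hβ1 : betaR N r (g (1, i)) ≠ 0 :=
        fun h => h1 (betaR_injective N r (by rw [h, map_zero]))
      apply hne (-(g (0, i)) / g (1, i))
      rw [map_div₀, map_neg]
      have hzi : betaR N r (g (0, i)) + betaR N r (g (1, i)) * G = 0 := hz i
      field_simp
      linear_combination -hzi
    have h0 : ∀ i : Fin r, g (0, i) = 0 := by
      intro i
      have hzi : betaR N r (g (0, i)) + betaR N r (g (1, i)) * G = 0 := hz i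
      rw [h1 i, map_zero, zero_mul, add_zero] at hzi
      exact betaR_injective N r (by rw [hzi, map_zero])
    rintro ⟨a, i⟩
    fin_cases a
    · exact h0 i
    · exact h1 i)
  rw [Fintype.card_prod, Fintype.card_fin, Fintype.card_fin] at hcard
  have hd' : @Module.finrank (FF N) (FF (N * r)) _ _ (algebraAlong (betaR N r)).toModule
      < 2 * r := hd
  omega

/-- **[PINJ]**, general form. -/
theorem pullInj_of_finrank_lt (hd : finrankAlong Kb (betaR N r) < 2 * r) :
    PullInjStatement N r := by
  intro m hm x hmx hpx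
  obtain ⟨⟨Z, hZ⟩, rfl⟩ := Pic0.mk_surjective x
  haveI := hasPD_mul N r
  have hm' : (m : ℤ) ≠ 0 := Int.natCast_ne_zero.mpr hm
  have hr : (0 : ℤ) < r := by exact_mod_cast Nat.pos_of_ne_zero (NeZero.ne r)
  -- `m Z = div h`
  have hmZ : (m • Z) ∈ Divisor.principal (K := Kb) (F := FF N) := by
    have h1 : Pic0.mk (m • (⟨Z, hZ⟩ : Divisor.degZero (K := Kb) (F := FF N))) = 0 := hmx
    unfold Pic0.mk at h1
    rw [QuotientAddGroup.eq_zero_iff, AddSubgroup.mem_addSubgroupOf] at h1
    exact h1
  -- `pullDiv Z = div G`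
  have hpZ : pullDiv N r Z ∈ Divisor.principal (K := Kb) (F := FF (N * r)) := by
    rw [pullPic_mk] at hpx
    unfold Pic0.mk at hpx
    rw [QuotientAddGroup.eq_zero_iff, AddSubgroup.mem_addSubgroupOf] at hpx
    exact hpx
  obtain ⟨h, hh0, hh⟩ := hmZ
  obtain ⟨G, hG0, hG⟩ := hpZ
  have hβh : betaR N r h ≠ 0 := fun e => hh0 (betaR_injective N r (by rw [e, map_zero]))
  -- `G ^ m = c · β h`
  have hconst : ∀ w : Place Kb (FF (N * r)), w.ord (G ^ m * (betaR N r h)⁻¹) = 0 := by
    intro w
    rw [w.ord_mul (pow_ne_zero m hG0) (inv_ne_zero hβh), w.ord_inv, ord_pow_nat, ← hG w]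
    have h1 := pullbackAlong_eq_ord (betaR N r) (betaR_integral N r) hh w
    have h2 : Divisor.pullbackAlong (betaR N r) (betaR_integral N r) (m • Z) w
        = m * pullDiv N r Z w := by
      rw [map_nsmul]
      simp [pullDiv]
    rw [← h1, h2]
    ring
  obtain ⟨c, hc⟩ := const_of_ord_eq_zero (N * r) _ hconst
  have hGm : G ^ m = algebraMap Kb (FF (N * r)) c * betaR N r h := by
    rw [hc]
    field_simp
  have hc0 : c ≠ 0 := by
    rintro rfl
    rw [map_zero, zero_mul] at hGm
    exact pow_ne_zero m hG0 hGm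
  -- `r ∣ ord_∞ G`
  have hordG : (r : ℤ) ∣ (G : LaurentSeries Kb).order := by
    have h1 := hG (inftyBar (N * r))
    rw [isInfty_inftyBar (N * r) G hG0] at h1
    rw [← h1]
    show (r : ℤ) ∣ Divisor.pullbackAlong (betaR N r) (betaR_integral N r) Z (inftyBar (N * r))
    rw [Divisor.pullbackAlong_apply]
    exact Dvd.dvd.mul_right (dvd_ramificationIndexAlong_infty N r) _
  -- the rotation
  haveI : NeZero ((r : ℕ) : ℚ) := ⟨by exact_mod_cast NeZero.ne r⟩
  haveI : NeZero ((m : ℕ) : ℚ) := ⟨by exact_mod_cast hm⟩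
  obtain ⟨ζ₀, hζ₀⟩ := HasEnoughRootsOfUnity.exists_primitiveRoot Kb r
  obtain ⟨ξ, hξ⟩ := HasEnoughRootsOfUnity.exists_primitiveRoot Kb m
  have hζ₀u : IsUnit ζ₀ := hζ₀.isUnit (NeZero.ne r)
  obtain ⟨ζ, rfl⟩ := hζ₀u
  have hζ : IsPrimitiveRoot ζ r := IsPrimitiveRoot.coe_units_iff.mp hζ₀
  have hGL : (G : LaurentSeries Kb) ≠ 0 := coe_ne_zero_of_ne_zero hG0
  have hrot : rot ζ (G : LaurentSeries Kb) = (G : LaurentSeries Kb) := by
    refine rot_eq_self_of_pow ζ hGL hm hξ ?_ ((hζ.zpow_eq_one_iff_dvd _).mpr hordG)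
    have e : (G : LaurentSeries Kb) ^ m
        = algebraMap Kb (LaurentSeries Kb) c * qExpand Kb r (h : LaurentSeries Kb) := by
      have := congrArg (fun z : FF (N * r) => (z : LaurentSeries Kb)) hGm
      simpa using this
    rw [e, map_mul, rot_algebraMap_const, rot_qExpand r ζ hζ.pow_eq_one]
  obtain ⟨u₀, hu₀⟩ := exists_betaR_eq_of_rot N r hd ζ hζ G hrot
  -- descend
  have hu₀0 : u₀ ≠ 0 := by
    rintro rfl
    rw [map_zero] at hu₀
    exact hG0 hu₀.symm
  have hpow : u₀ ^ m = algebraMap Kb (FF N) c * h := by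
    apply betaR_injective N r
    rw [map_pow, hu₀, hGm, map_mul, AlgHom.commutes]
  unfold Pic0.mk
  rw [QuotientAddGroup.eq_zero_iff, AddSubgroup.mem_addSubgroupOf]
  refine ⟨u₀, hu₀0, fun v => ?_⟩
  show Z v = v.ord u₀
  have h1 : v.ord (u₀ ^ m) = v.ord (algebraMap Kb (FF N) c * h) := by rw [hpow]
  rw [ord_pow_nat, v.ord_mul (by simpa using hc0) hh0,
    Fermat.Agent.S24.helper82.ord_algebraMap, zero_add, ← hh v] at h1
  have h2 : (m : ℤ) * v.ord u₀ = (m : ℤ) * Z v := by
    rw [h1]
    simp
  exact (mul_left_cancel₀ hm' h2).symm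

/-- **[PINJ]** at `r = 4`. -/
theorem pullInj_four (N : ℕ) [NeZero N] : PullInjStatement N 4 :=
  pullInj_of_finrank_lt N 4 (finrankAlong_betaR_four_lt N)

/-- **[PINJ]** at `r = 9`. -/
theorem pullInj_nine (N : ℕ) [NeZero N] : PullInjStatement N 9 :=
  pullInj_of_finrank_lt N 9 (finrankAlong_betaR_nine_lt N)

end Modular

end Fermat.Agent.S37.helper39

end
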