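import Mathlib
import Fermat.Prelude.Def_AlgebraicCurve_Repartitions
import Fermat.Agent.P2.helper74_NonSpecial

/-!
# S37 [RD-E] part 1 (helper16): base divisors of linear systems

`F / K` a `RiemannSetting`.  For a nonzero subspace `W ≤ L(X)` the **base divisor**
`baseDiv W X` is the effective divisor `Q ↦ min {ord_Q y + X Q | y ∈ W ∖ 0}`:

* `le_L_sub_baseDiv`     : `W ≤ L(X - baseDiv W X)`;
* `exists_ord_eq_baseDiv`: the minimum is attained at every place;
* `baseDiv_eq_of`        : the characterization;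
* `baseDiv_mul_le`       : `baseDiv W₁₂ (X₁ + X₂) ≤ baseDiv W₁ X₁ + baseDiv W₂ X₂` if
  `W₁ · W₂ ⊆ W₁₂`;
* `degree_baseDiv_le`    : the degree bound coming from Riemann's theorem;
* `baseDiv_L`            : complete linear systems of large degree have no base points.
-/

set_option autoImplicit false

noncomputable section

namespace Fermat.Agent.S37.helper16

open AlgebraicCurve Fermat.Agent.P2.helper74

variable {K F : Type*} [Field K] [Field F] [Algebra K F]

/-- the set of values `ord_Q y + X Q`, `y ∈ W ∖ 0` (as natural numbers) -/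
def ordSet (W : Submodule K F) (X : Divisor K F) (Q : Place K F) : Set ℕ :=
  {m | ∃ y ∈ W, y ≠ 0 ∧ Q.ord y + X Q = (m : ℤ)}

/-- the minimum of `ord_Q y + X Q` over `y ∈ W ∖ 0` -/
def baseAt (W : Submodule K F) (X : Divisor K F) (Q : Place K F) : ℕ :=
  sInf (ordSet W X Q)

section BaseAt

variable {W : Submodule K F} {X : Divisor K F}

theorem ord_add_nonneg (hW : W ≤ riemannRochSpace X) {y : F} (hy : y ∈ W) (hy0 : y ≠ 0)
    (Q : Place K F) : 0 ≤ Q.ord y + X Q := by
  have := (mem_L_iff' hy0).mp (hW hy) Q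
  omega

theorem ordSet_nonempty (hW : W ≤ riemannRochSpace X) (hne : W ≠ ⊥) (Q : Place K F) :
    (ordSet W X Q).Nonempty := by
  obtain ⟨y, hy, hy0⟩ := Submodule.exists_mem_ne_zero_of_ne_bot hne
  refine ⟨(Q.ord y + X Q).toNat, y, hy, hy0, ?_⟩
  rw [Int.toNat_of_nonneg (ord_add_nonneg hW hy hy0 Q)]

theorem exists_eq_baseAt (hW : W ≤ riemannRochSpace X) (hne : W ≠ ⊥) (Q : Place K F) :
    ∃ y ∈ W, y ≠ 0 ∧ Q.ord y + X Q = (baseAt W X Q : ℤ) :=
  Nat.sInf_mem (ordSet_nonempty hW hne Q)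

theorem baseAt_le (hW : W ≤ riemannRochSpace X) {y : F} (hy : y ∈ W) (hy0 : y ≠ 0)
    (Q : Place K F) : (baseAt W X Q : ℤ) ≤ Q.ord y + X Q := by
  have h0 := ord_add_nonneg hW hy hy0 Q
  have hmem : (Q.ord y + X Q).toNat ∈ ordSet W X Q :=
    ⟨y, hy, hy0, (Int.toNat_of_nonneg h0).symm⟩
  have := Nat.sInf_le hmem
  calc (baseAt W X Q : ℤ) ≤ ((Q.ord y + X Q).toNat : ℤ) := by exact_mod_cast this
    _ = Q.ord y + X Q := Int.toNat_of_nonneg h0

/-- characterization of the minimum -/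
theorem baseAt_eq_of (hW : W ≤ riemannRochSpace X) (Q : Place K F) (b : ℕ)
    (hle : ∀ y ∈ W, y ≠ 0 → (b : ℤ) ≤ Q.ord y + X Q)
    (hex : ∃ y ∈ W, y ≠ 0 ∧ Q.ord y + X Q = (b : ℤ)) : baseAt W X Q = b := by
  obtain ⟨y, hy, hy0, he⟩ := hex
  have hne : W ≠ ⊥ := fun h => hy0 ((Submodule.mem_bot K).mp (h ▸ hy))
  apply le_antisymm
  · have := baseAt_le hW hy hy0 Q
    rw [he] at this
    exact_mod_cast this
  · obtain ⟨z, hz, hz0, hze⟩ := exists_eq_baseAt hW hne Q
    have := hle z hz hz0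
    rw [hze] at this
    exact_mod_cast this

end BaseAt

/-- the base divisor of `W ≤ L(X)` -/
def baseDiv (W : Submodule K F) (X : Divisor K F) : Divisor K F :=
  open Classical in
  if h : ∃ B : Divisor K F, ∀ Q, B Q = (baseAt W X Q : ℤ) then h.choose else 0

section BaseDiv

variable (hS : RiemannSetting K F) {W : Submodule K F} {X : Divisor K F}

theorem baseDiv_nonneg (W : Submodule K F) (X : Divisor K F) (Q : Place K F) :
    0 ≤ baseDiv W X Q := by
  unfold baseDiv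
  split_ifs with h
  · rw [h.choose_spec Q]
    exact Int.natCast_nonneg _
  · simp

include hS

theorem exists_baseDiv (hW : W ≤ riemannRochSpace X) (hne : W ≠ ⊥) :
    ∃ B : Divisor K F, ∀ Q, B Q = (baseAt W X Q : ℤ) := by
  classical
  obtain ⟨y, hy, hy0⟩ := Submodule.exists_mem_ne_zero_of_ne_bot hne
  obtain ⟨Y, hY, -⟩ := hS.principal.exists_divisor y hy0
  refine ⟨Finsupp.onFinset (Y.support ∪ X.support) (fun Q => (baseAt W X Q : ℤ)) ?_,
    fun Q => rfl⟩
  intro Q hQ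
  by_contra hmem
  rw [Finset.mem_union, not_or, Finsupp.notMem_support_iff, Finsupp.notMem_support_iff] at hmem
  have h1 := baseAt_le hW hy hy0 Q
  rw [← hY Q, hmem.1, hmem.2, add_zero] at h1
  have h2 : (baseAt W X Q : ℤ) = 0 := le_antisymm h1 (Int.natCast_nonneg _)
  exact hQ h2

theorem baseDiv_apply (hW : W ≤ riemannRochSpace X) (hne : W ≠ ⊥) (Q : Place K F) :
    baseDiv W X Q = (baseAt W X Q : ℤ) := by
  unfold baseDiv
  rw [dif_pos (exists_baseDiv hS hW hne)]
  exact (exists_baseDiv hS hW hne).choose_spec Q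

theorem le_L_sub_baseDiv (hW : W ≤ riemannRochSpace X) (hne : W ≠ ⊥) :
    W ≤ riemannRochSpace (X - baseDiv W X) := by
  intro y hy
  rcases eq_or_ne y 0 with rfl | hy0
  · exact Submodule.zero_mem _
  rw [mem_L_iff' hy0]
  intro Q
  rw [Finsupp.sub_apply, baseDiv_apply hS hW hne]
  have := baseAt_le hW hy hy0 Q
  omega

theorem exists_ord_eq_baseDiv (hW : W ≤ riemannRochSpace X) (hne : W ≠ ⊥) (Q : Place K F) :
    ∃ y ∈ W, y ≠ 0 ∧ Q.ord y + X Q = baseDiv W X Q := by
  rw [baseDiv_apply hS hW hne]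
  exact exists_eq_baseAt hW hne Q

/-- characterization of the base divisor -/
theorem baseDiv_eq_of (hW : W ≤ riemannRochSpace X) (B : Divisor K F)
    (hle : W ≤ riemannRochSpace (X - B))
    (hex : ∀ Q, ∃ y ∈ W, y ≠ 0 ∧ Q.ord y + X Q = B Q) : baseDiv W X = B := by
  obtain ⟨P₀⟩ := hS.nonempty
  obtain ⟨y₀, hy₀, hy₀0, -⟩ := hex P₀
  have hne : W ≠ ⊥ := fun h => hy₀0 ((Submodule.mem_bot K).mp (h ▸ hy₀))
  ext Q
  rw [baseDiv_apply hS hW hne]
  obtain ⟨y, hy, hy0, he⟩ := hex Q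
  have hB0 : 0 ≤ B Q := by
    rw [← he]
    exact ord_add_nonneg hW hy hy0 Q
  have hb := baseAt_eq_of hW Q (B Q).toNat (fun z hz hz0 => by
    rw [Int.toNat_of_nonneg hB0]
    have := (mem_L_iff' hz0).mp (hle hz) Q
    rw [Finsupp.sub_apply] at this
    omega) ⟨y, hy, hy0, by rw [Int.toNat_of_nonneg hB0]; exact he⟩
  rw [hb, Int.toNat_of_nonneg hB0]

/-- products: the base divisor of a system containing the products is at most the sum -/
theorem baseDiv_mul_le {W₁ W₂ W₁₂ : Submodule K F} {X₁ X₂ : Divisor K F}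
    (h₁ : W₁ ≤ riemannRochSpace X₁) (h₂ : W₂ ≤ riemannRochSpace X₂)
    (h₁₂ : W₁₂ ≤ riemannRochSpace (X₁ + X₂)) (hne₁ : W₁ ≠ ⊥) (hne₂ : W₂ ≠ ⊥)
    (hmul : ∀ y₁ ∈ W₁, ∀ y₂ ∈ W₂, y₁ * y₂ ∈ W₁₂) (Q : Place K F) :
    baseDiv W₁₂ (X₁ + X₂) Q ≤ baseDiv W₁ X₁ Q + baseDiv W₂ X₂ Q := by
  obtain ⟨y₁, hy₁, hy₁0, he₁⟩ := exists_ord_eq_baseDiv hS h₁ hne₁ Q
  obtain ⟨y₂, hy₂, hy₂0, he₂⟩ := exists_ord_eq_baseDiv hS h₂ hne₂ Q
  have hy := hmul y₁ hy₁ y₂ hy₂
  have hy0 : y₁ * y₂ ≠ 0 := mul_ne_zero hy₁0 hy₂0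
  have hne : W₁₂ ≠ ⊥ := fun h => hy0 ((Submodule.mem_bot K).mp (h ▸ hy))
  rw [baseDiv_apply hS h₁₂ hne]
  have := baseAt_le h₁₂ hy hy0 Q
  rw [Q.ord_mul hy₁0 hy₂0, Finsupp.add_apply] at this
  omega

variable {g : ℕ} {c : ℤ}
  (hc : ∀ D : Divisor K F, c ≤ Divisor.degree D → (ell D : ℤ) + g = Divisor.degree D + 1)

include hc

/-- the upper bound for `ℓ` in all degrees -/
theorem ell_add_le_max (Y : Divisor K F) : (ell Y : ℤ) + g ≤ max (Divisor.degree Y) c + 1 := by
  classical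
  by_cases h : c ≤ Divisor.degree Y
  · rw [hc Y h, max_eq_left h]
  · push Not at h
    obtain ⟨P₀⟩ := hS.nonempty
    set m : ℕ := (c - Divisor.degree Y).toNat with hm
    have hm' : (m : ℤ) = c - Divisor.degree Y := Int.toNat_of_nonneg (by omega)
    have hle : ∀ v, Y v ≤ (Y + Finsupp.single P₀ (m : ℤ)) v := by
      intro v
      rw [Finsupp.add_apply, Finsupp.single_apply]
      split_ifs <;> omega
    have h1 := ell_mono hS hle
    have hdeg : Divisor.degree (Y + Finsupp.single P₀ (m : ℤ)) = c := by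
      rw [map_add, Divisor.degree_single, hS.deg_one]
      push_cast
      omega
    have h2 := hc (Y + Finsupp.single P₀ (m : ℤ)) (by rw [hdeg])
    rw [hdeg] at h2
    have h3 : (ell Y : ℤ) ≤ ell (Y + Finsupp.single P₀ (m : ℤ)) := by exact_mod_cast h1
    rw [max_eq_right h.le]
    omega

/-- **degree bound**: if `dim W + g > c + 1` then `deg (baseDiv W X) ≤ deg X + 1 - g - dim W`. -/
theorem degree_baseDiv_le (hW : W ≤ riemannRochSpace X) (hne : W ≠ ⊥)
    (hbig : c + 1 < (Module.finrank K W : ℤ) + g) :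
    Divisor.degree (baseDiv W X) + Module.finrank K W + g ≤ Divisor.degree X + 1 := by
  have h1 := le_L_sub_baseDiv hS hW hne
  have := finiteDimensional_L hS (X - baseDiv W X)
  have h2 : Module.finrank K W ≤ ell (X - baseDiv W X) := Submodule.finrank_mono h1
  have h3 := ell_add_le_max hS hc (X - baseDiv W X)
  have h2' : (Module.finrank K W : ℤ) ≤ ell (X - baseDiv W X) := by exact_mod_cast h2
  rw [map_sub] at h3
  rcases le_total (Divisor.degree X - Divisor.degree (baseDiv W X)) c with h | h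
  · rw [max_eq_right h] at h3
    omega
  · rw [max_eq_left h] at h3
    omega

/-- complete linear systems of large degree have no base points -/
theorem baseDiv_L (X : Divisor K F) (hX : c + 1 ≤ Divisor.degree X) :
    baseDiv (riemannRochSpace X) X = 0 := by
  refine baseDiv_eq_of hS le_rfl 0 (by rw [sub_zero]) (fun Q => ?_)
  obtain ⟨f, hf0, hf, he⟩ := exists_mem_L_ord_eq hS hc hX Q
  exact ⟨f, hf, hf0, by rw [he, Finsupp.zero_apply]; omega⟩

end BaseDiv

/-- an effective divisor of degree `≤ 0` is zero -/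
theorem eq_zero_of_nonneg_of_degree_le (hS : RiemannSetting K F) {B : Divisor K F}
    (h0 : ∀ Q, 0 ≤ B Q) (hdeg : Divisor.degree B ≤ 0) : B = 0 := by
  ext Q
  rw [Finsupp.zero_apply]
  by_contra hne
  have hpos : 0 < B Q := lt_of_le_of_ne (h0 Q) (Ne.symm hne)
  have := degree_pos_of_pos hS.deg_one h0 hpos
  omega

/-- `B ≤ B'` with `deg B' ≤ deg B` implies `B = B'` -/
theorem eq_of_le_of_degree_le (hS : RiemannSetting K F) {B B' : Divisor K F}
    (hle : ∀ Q, B Q ≤ B' Q) (hdeg : Divisor.degree B' ≤ Divisor.degree B) : B = B' := by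
  have h := eq_zero_of_nonneg_of_degree_le hS (B := B' - B)
    (fun Q => by rw [Finsupp.sub_apply]; linarith [hle Q]) (by rw [map_sub]; linarith)
  exact (sub_eq_zero.mp h).symm

end Fermat.Agent.S37.helper16

end
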