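import Mathlib
import Fermat.Agent.P2.helper22_IdealStep

/-!
# S37 [RD-E] part 2 (helper16): the reduction of the Riemann-Roch lattices

For a divisor `X` on `F_M` with `X ≤ n ∞`, `redSub M A X` is the `k`-space of the reductions of
the `A`-integral elements of `L(X)`.

* `redSub_le`       : `redSub X ≤ L̄(n ∞̄)`                               (from [VAL-UE]);
* `finrank_redSub`  : `dim redSub X = ℓ(X)`                               (lattice count);
* `mul_mem_redSub`  : `redSub X₁ · redSub X₂ ⊆ redSub (X₁ + X₂)`;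
* `mem_redSub_sub_div_iff` : `redSub (X₀ - div f) = f̄ · redSub X₀` for an integral `f` regular
  off infinity with nonzero reduction `f̄`                                  (from [VAL-INT]).
-/

set_option autoImplicit false
set_option linter.style.haveILetI false
set_option linter.unusedSectionVars false

noncomputable section

namespace Fermat.Agent.S37.helper16

open HahnSeries IntermediateField AlgebraicCurve ModularCurve
open Fermat.Agent.S18.helper19 Fermat.Agent.P2.helper29 Fermat.Agent.P2.helper22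
open Fermat.Agent.S24

section Generic

variable {K F : Type*} [Field K] [Field F] [Algebra K F]

theorem mul_mem_L {X₁ X₂ : Divisor K F} {f₁ f₂ : F} (h₁ : f₁ ∈ riemannRochSpace X₁)
    (h₂ : f₂ ∈ riemannRochSpace X₂) : f₁ * f₂ ∈ riemannRochSpace (X₁ + X₂) := by
  rcases eq_or_ne f₁ 0 with rfl | h10
  · rw [zero_mul]; exact Submodule.zero_mem _
  rcases eq_or_ne f₂ 0 with rfl | h20
  · rw [mul_zero]; exact Submodule.zero_mem _
  rw [Fermat.Agent.P2.helper74.mem_L_iff' (mul_ne_zero h10 h20)]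
  intro v
  have a := (Fermat.Agent.P2.helper74.mem_L_iff' h10).mp h₁ v
  have b := (Fermat.Agent.P2.helper74.mem_L_iff' h20).mp h₂ v
  rw [v.ord_mul h10 h20, Finsupp.add_apply]
  omega

end Generic

section Modular

variable {M : ℕ} [NeZero M] {A : ValuationSubring Kb}

/-- shortcut instance (slow to find by synthesis) -/
local instance algebraFFb' : Algebra (kA A) (FFb A M) := SubalgebraClass.toAlgebra (FFb A M)

theorem red_smul (a : A) (Z : LaurentSeries A) :
    red A (a • Z) = IsLocalRing.residue A a • red A Z := by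
  ext m
  simp

theorem incl_smul (a : A) (Z : LaurentSeries A) :
    incl A (a • Z) = (a : Kb) • incl A Z :=
  Fermat.Agent.P2.helper74.coeffMap_subtype_smul A a Z

variable (M A) in
/-- the reductions of the integral elements of `L(X)` -/
def redSub (X : Divisor Kb (FF M)) : Submodule (kA A) (FFb A M) where
  carrier := {y | ∃ Z : LaurentSeries A,
    (∃ f ∈ riemannRochSpace X, (f : LaurentSeries Kb) = incl A Z) ∧
      red A Z = (y : LaurentSeries (kA A))}
  zero_mem' := ⟨0, ⟨0, Submodule.zero_mem _, by simp⟩, by simp⟩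
  add_mem' := by
    rintro y y' ⟨Z, ⟨f, hf, hfZ⟩, hZ⟩ ⟨Z', ⟨f', hf', hfZ'⟩, hZ'⟩
    refine ⟨Z + Z', ⟨f + f', Submodule.add_mem _ hf hf', ?_⟩, ?_⟩
    · rw [map_add, ← hfZ, ← hfZ']; rfl
    · rw [map_add, hZ, hZ']; rfl
  smul_mem' := by
    rintro c y ⟨Z, ⟨f, hf, hfZ⟩, hZ⟩
    obtain ⟨a, rfl⟩ := IsLocalRing.residue_surjective c
    refine ⟨a • Z, ⟨(a : Kb) • f, Submodule.smul_mem _ _ hf, ?_⟩, ?_⟩
    · rw [incl_smul, ← hfZ]
      exact coe_smul_eq _ _
    · rw [red_smul, hZ]
      exact (coe_smul_eq _ _).symm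

theorem mem_redSub {X : Divisor Kb (FF M)} {y : FFb A M} :
    y ∈ redSub M A X ↔ ∃ Z : LaurentSeries A,
      (∃ f ∈ riemannRochSpace X, (f : LaurentSeries Kb) = incl A Z) ∧
        red A Z = (y : LaurentSeries (kA A)) := Iff.rfl

variable {Pinf : Place Kb (FF M)} (hPinf : IsInfty Pinf)
  {Qinf : Place (kA A) (FFb A M)} (hQinf : IsInfty Qinf)

include hPinf in
theorem inL_of_mem_L {X : Divisor Kb (FF M)} {n : ℤ} (hX : ∀ v, X v ≤ Finsupp.single Pinf n v)
    {f : FF M} (hf : f ∈ riemannRochSpace X) : InL (FF M) n (f : LaurentSeries Kb) := by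
  rw [inL_iff_mem hPinf]
  exact ⟨f.2, Fermat.Agent.P2.helper74.L_mono hX hf⟩

include hPinf hQinf in
/-- `redSub X ≤ L̄(n ∞̄)` for `X ≤ n ∞` -/
theorem redSub_le (hReg : RegRedStatement M A) {X : Divisor Kb (FF M)} {n : ℤ}
    (hX : ∀ v, X v ≤ Finsupp.single Pinf n v) :
    redSub M A X ≤ riemannRochSpace (Finsupp.single Qinf n) := by
  rintro y ⟨Z, ⟨f, hf, hfZ⟩, hZ⟩
  have h1 : InL (FF M) n (incl A Z) := by
    rw [← hfZ]; exact inL_of_mem_L hPinf hX hf
  have h2 := hReg n Z h1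
  rw [inL_iff_mem hQinf] at h2
  obtain ⟨hmem, hL⟩ := h2
  have : (⟨red A Z, hmem⟩ : FFb A M) = y := Subtype.ext hZ
  rw [← this]
  exact hL

include hPinf in
/-- **lattice count**: `dim redSub X = ℓ(X)` for `X ≤ n ∞` -/
theorem finrank_redSub (hSc : ScaleStatement M A) (hInt : IntegralityStatement M A)
    (hReg : RegRedStatement M A) {X : Divisor Kb (FF M)} {n : ℤ}
    (hX : ∀ v, X v ≤ Finsupp.single Pinf n v) :
    Module.finrank (kA A) (redSub M A X) = Fermat.Agent.P2.helper74.ell X := by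
  classical
  have hS := riemannSetting_FF M
  haveI : FiniteDimensional Kb (riemannRochSpace X) :=
    Fermat.Agent.P2.helper74.finiteDimensional_L hS X
  set V : Submodule Kb (LaurentSeries Kb) := (riemannRochSpace X).map (valLin (FF M)) with hV
  have hVn : ∀ u ∈ V, ∃ n : ℤ, InL (FF M) n u := by
    rintro u ⟨f, hf, rfl⟩
    exact ⟨n, inL_of_mem_L hPinf hX hf⟩
  have H := scaled_of_regular hPinf hSc hInt hReg V hVn
  obtain ⟨Y, hYV, -, hspan, hred⟩ := Fermat.Agent.P2.helper74.exists_integral_basis A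
    (IsLocalRing.residue A) isUnit_of_residue_ne_zero V H
  have hli := Fermat.Agent.P2.helper74.linearIndependent_coeffMap_of_forall A
    (IsLocalRing.residue A) IsLocalRing.residue_surjective Y hred
  have hmemb : ∀ i, red A (Y i) ∈ FFb A M := fun i => by
    obtain ⟨n', hn'⟩ := hVn _ (hYV i)
    exact (hReg n' (Y i) hn').1
  set y : Fin (Module.finrank Kb V) → FFb A M := fun i => ⟨red A (Y i), hmemb i⟩ with hy
  have hliy : LinearIndependent (kA A) y :=
    LinearIndependent.of_comp (valLin (FFb A M)) hli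
  have hmem : ∀ i, y i ∈ redSub M A X := fun i => by
    obtain ⟨f, hf, hfY⟩ := hYV i
    exact ⟨Y i, ⟨f, hf, hfY⟩, rfl⟩
  have hle : redSub M A X ≤ Submodule.span (kA A) (Set.range y) := by
    rintro z ⟨Z, ⟨f, hf, hfZ⟩, hZ⟩
    have hZV : incl A Z ∈ V := ⟨f, hf, hfZ⟩
    obtain ⟨a, ha⟩ := hspan Z hZV
    have hz : z = ∑ i, IsLocalRing.residue A (a i) • y i := by
      apply Subtype.ext
      rw [← hZ, ha, map_sum]
      have : ((∑ i, IsLocalRing.residue A (a i) • y i : FFb A M) : LaurentSeries (kA A))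
          = ∑ i, IsLocalRing.residue A (a i) • (y i : LaurentSeries (kA A)) := by
        rw [← valLin_apply, map_sum]
        refine Finset.sum_congr rfl fun i _ => ?_
        rw [map_smul, valLin_apply]
      rw [this]
      refine Finset.sum_congr rfl fun i _ => ?_
      rw [red_smul]
    rw [hz]
    exact Submodule.sum_mem _ fun i _ =>
      Submodule.smul_mem _ _ (Submodule.subset_span ⟨i, rfl⟩)
  have hge : Submodule.span (kA A) (Set.range y) ≤ redSub M A X :=
    Submodule.span_le.mpr (by rintro _ ⟨i, rfl⟩; exact hmem i)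
  have heq : redSub M A X = Submodule.span (kA A) (Set.range y) := le_antisymm hle hge
  rw [heq, finrank_span_eq_card hliy, Fintype.card_fin, hV, finrank_map_valLin]
  rfl

/-- products -/
theorem mul_mem_redSub {X₁ X₂ : Divisor Kb (FF M)} {y₁ y₂ : FFb A M}
    (h₁ : y₁ ∈ redSub M A X₁) (h₂ : y₂ ∈ redSub M A X₂) :
    y₁ * y₂ ∈ redSub M A (X₁ + X₂) := by
  obtain ⟨Z₁, ⟨f₁, hf₁, hfZ₁⟩, hZ₁⟩ := h₁
  obtain ⟨Z₂, ⟨f₂, hf₂, hfZ₂⟩, hZ₂⟩ := h₂
  refine ⟨Z₁ * Z₂, ⟨f₁ * f₂, mul_mem_L hf₁ hf₂, ?_⟩, ?_⟩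
  · rw [map_mul, ← hfZ₁, ← hfZ₂]; rfl
  · rw [map_mul, hZ₁, hZ₂]; rfl

include hPinf in
/-- **division**: for an integral `Y` regular off infinity with nonzero reduction and divisor
`Df`, the integral elements of `L(X₀ - Df)` are the products of `Y` with the integral elements
of `L(X₀)`. -/
theorem mem_redSub_sub_div_iff (hInt : IntegralityStatement M A) (hReg : RegRedStatement M A)
    {Y : LaurentSeries A} {n₁ : ℤ} (hL : InL (FF M) n₁ (incl A Y)) (hY0 : red A Y ≠ 0)
    {Df : Divisor Kb (FF M)} (hDf : ∀ P, Df P = P.ord (⟨incl A Y, hL.1⟩ : FF M))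
    {X₀ : Divisor Kb (FF M)} {m : ℤ} (hX₀ : ∀ v, X₀ v ≤ Finsupp.single Pinf m v)
    (y : FFb A M) :
    y ∈ redSub M A (X₀ - Df) ↔
      ∃ u ∈ redSub M A X₀, y = (⟨red A Y, (hReg n₁ Y hL).1⟩ : FFb A M) * u := by
  have hgood : IsGood A M Y := ⟨hL.1, (hReg n₁ Y hL).1, hY0⟩
  have hf0 : (⟨incl A Y, hL.1⟩ : FF M) ≠ 0 := fun h0 =>
    isGood_incl_ne_zero hgood (congrArg Subtype.val h0)
  constructor
  · rintro ⟨Z, ⟨h, hh, hhZ⟩, hZ⟩
    -- `g = h / f ∈ L(X₀)`
    set f : FF M := ⟨incl A Y, hL.1⟩ with hf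
    have hg : h / f ∈ riemannRochSpace X₀ := by
      rcases eq_or_ne h 0 with rfl | hh0
      · rw [zero_div]; exact Submodule.zero_mem _
      rw [Fermat.Agent.P2.helper74.mem_L_iff' (div_ne_zero hh0 hf0)]
      intro v
      have := (Fermat.Agent.P2.helper74.mem_L_iff' hh0).mp hh v
      rw [Finsupp.sub_apply, hDf] at this
      rw [ord_div v hh0 hf0]
      omega
    have hgL : InL (FF M) m ((h / f : FF M) : LaurentSeries Kb) := inL_of_mem_L hPinf hX₀ hg
    have hgW : IsWInt A M ((h / f : FF M) : LaurentSeries Kb) := by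
      refine ⟨Z, Y, by rw [← hhZ]; exact h.2, hgood, ?_⟩
      rw [← hhZ]
      have : h = (h / f) * f := by field_simp
      exact congrArg Subtype.val this
    obtain ⟨U, hU⟩ := hInt m _ hgL hgW
    have hZU : Z = Y * U := by
      apply incl_injective
      rw [map_mul, hU, ← hhZ]
      have : h = f * (h / f) := by field_simp
      exact congrArg Subtype.val this
    have hUmem : red A U ∈ FFb A M := (hReg m U (by rw [hU]; exact hgL)).1
    refine ⟨⟨red A U, hUmem⟩, ⟨U, ⟨h / f, hg, hU.symm⟩, rfl⟩, ?_⟩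
    apply Subtype.ext
    rw [← hZ, hZU, map_mul]
    rfl
  · rintro ⟨u, ⟨U, ⟨g, hg, hgU⟩, hU⟩, rfl⟩
    set f : FF M := ⟨incl A Y, hL.1⟩ with hf
    refine ⟨Y * U, ⟨f * g, ?_, ?_⟩, ?_⟩
    · rcases eq_or_ne g 0 with rfl | hg0
      · rw [mul_zero]; exact Submodule.zero_mem _
      rw [Fermat.Agent.P2.helper74.mem_L_iff' (mul_ne_zero hf0 hg0)]
      intro v
      have := (Fermat.Agent.P2.helper74.mem_L_iff' hg0).mp hg v
      rw [Finsupp.sub_apply, hDf, v.ord_mul hf0 hg0]
      omega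
    · rw [map_mul, ← hgU]; rfl
    · rw [map_mul, hU]; rfl

end Modular

end Fermat.Agent.S37.helper16

end
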