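import Mathlib
import Fermat.Agent.S37.helper16_Base
import Fermat.Agent.S37.helper16_RedLat

/-!
# S37 [RD-E] part 3 (helper16): the reduction of effective divisors and of places

Setting: a level `M`, a place `A` of `ℚ̄`, the places at infinity of both function fields,
[VAL-SC], [VAL-INT], [VAL-UE] and Riemann's theorem on both sides WITH THE SAME GENUS.

For an effective divisor `D` on `F_M` and `n ≥ deg D + n₀` let `Bdiv D n` be the base divisor of
the reduction of the lattice `L(n ∞ - D)` inside `L̄(n ∞̄)`.  Then `deg (Bdiv D n) = deg D`,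
`Bdiv` is additive and independent of `n`, and `Bdiv (div₀ f) = div₀ f̄` for integral `f`
regular off infinity with `f̄ ≠ 0`.  The reduction of places `r` is defined by
`Bdiv (P) = (r P)`; Rouché's property for integral functions regular off infinity follows.
-/

set_option autoImplicit false
set_option linter.style.haveILetI false
set_option linter.unusedSectionVars false

noncomputable section

namespace Fermat.Agent.S37.helper16

open HahnSeries IntermediateField AlgebraicCurve ModularCurve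
open Fermat.Agent.S18.helper19 Fermat.Agent.P2.helper29 Fermat.Agent.P2.helper22
open Fermat.Agent.S24

section GenericPlace

variable {K F : Type*} [Field K] [Field F] [Algebra K F]

/-- a nonzero effective divisor has a place in its support -/
theorem exists_pos_of_degree_pos {B : Divisor K F} (h0 : ∀ Q, 0 ≤ B Q)
    (hdeg : 0 < Divisor.degree B) : ∃ Q, 0 < B Q := by
  by_contra h
  push Not at h
  have hB : B = 0 := by
    ext Q
    exact le_antisymm (h Q) (h0 Q)
  rw [hB, map_zero] at hdeg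
  exact lt_irrefl _ hdeg

/-- an effective divisor of degree `1` is a place -/
theorem exists_single_of_degree_one (hS : Fermat.Agent.P2.helper74.RiemannSetting K F)
    {B : Divisor K F} (h0 : ∀ Q, 0 ≤ B Q) (hdeg : Divisor.degree B = 1) :
    ∃ Q, B = Finsupp.single Q 1 := by
  classical
  obtain ⟨Q, hQ⟩ := exists_pos_of_degree_pos h0 (by rw [hdeg]; exact one_pos)
  refine ⟨Q, ?_⟩
  have h := eq_zero_of_nonneg_of_degree_le hS (B := B - Finsupp.single Q 1) (fun v => by
    rw [Finsupp.sub_apply, Finsupp.single_apply]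
    split_ifs with hv
    · subst hv; omega
    · have := h0 v; omega) (by rw [map_sub, hdeg, Divisor.degree_single, hS.deg_one]; simp)
  exact sub_eq_zero.mp h

end GenericPlace

section Modular

variable {M : ℕ} [NeZero M] {A : ValuationSubring Kb}

/-- shortcut instance (slow to find by synthesis) -/
local instance algebraFFb'' : Algebra (kA A) (FFb A M) := SubalgebraClass.toAlgebra (FFb A M)

/-- the data and hypotheses of the reduction of divisors -/
structure RedSetting (M : ℕ) [NeZero M] (A : ValuationSubring Kb) where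
  Pinf : Place Kb (FF M)
  hPinf : IsInfty Pinf
  Qinf : Place (kA A) (FFb A M)
  hQinf : IsInfty Qinf
  hSc : ScaleStatement M A
  hInt : IntegralityStatement M A
  hReg : RegRedStatement M A
  hSb : Fermat.Agent.P2.helper74.RiemannSetting (kA A) (FFb A M)
  g : ℕ
  c : ℤ
  hc : ∀ D : Divisor Kb (FF M), c ≤ Divisor.degree D →
    (Fermat.Agent.P2.helper74.ell D : ℤ) + g = Divisor.degree D + 1
  cb : ℤ
  hcb : ∀ D : Divisor (kA A) (FFb A M), cb ≤ Divisor.degree D →
    (Fermat.Agent.P2.helper74.ell D : ℤ) + g = Divisor.degree D + 1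

namespace RedSetting

variable (S : RedSetting M A)

/-- the bound `n₀` -/
def n₀ : ℤ := max (max S.c S.cb) 0 + S.g + 1

theorem c_lt_n₀ : S.c < S.n₀ := by
  unfold n₀
  have := le_max_left (max S.c S.cb) 0
  have := le_max_left S.c S.cb
  omega

theorem cb_lt_n₀ : S.cb < S.n₀ := by
  unfold n₀
  have := le_max_left (max S.c S.cb) 0
  have := le_max_right S.c S.cb
  omega

theorem g_lt_n₀ : (S.g : ℤ) < S.n₀ := by
  unfold n₀
  have := le_max_right (max S.c S.cb) 0
  omega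

theorem n₀_pos : 0 < S.n₀ := by
  have := S.g_lt_n₀
  omega

/-- the divisor `n ∞ - D` -/
def XD (D : Divisor Kb (FF M)) (n : ℤ) : Divisor Kb (FF M) := Finsupp.single S.Pinf n - D

theorem XD_le {D : Divisor Kb (FF M)} (hD : ∀ v, 0 ≤ D v) (n : ℤ) :
    ∀ v, S.XD D n v ≤ Finsupp.single S.Pinf n v := fun v => by
  rw [XD, Finsupp.sub_apply]
  linarith [hD v]

theorem degree_XD (D : Divisor Kb (FF M)) (n : ℤ) :
    Divisor.degree (S.XD D n) = n - Divisor.degree D := by
  rw [XD, map_sub, degree_single_of (riemannSetting_FF M)]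

theorem XD_add (D₁ D₂ : Divisor Kb (FF M)) (n₁ n₂ : ℤ) :
    S.XD D₁ n₁ + S.XD D₂ n₂ = S.XD (D₁ + D₂) (n₁ + n₂) := by
  unfold XD
  rw [Finsupp.single_add]
  abel

/-- the reduced lattice of `L(n ∞ - D)` -/
def W (D : Divisor Kb (FF M)) (n : ℤ) : Submodule (kA A) (FFb A M) := redSub M A (S.XD D n)

theorem W_le {D : Divisor Kb (FF M)} (hD : ∀ v, 0 ≤ D v) (n : ℤ) :
    S.W D n ≤ riemannRochSpace (Finsupp.single S.Qinf n) :=
  redSub_le S.hPinf S.hQinf S.hReg (S.XD_le hD n)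

theorem finrank_W {D : Divisor Kb (FF M)} (hD : ∀ v, 0 ≤ D v) {n : ℤ}
    (hn : Divisor.degree D + S.n₀ ≤ n) :
    (Module.finrank (kA A) (S.W D n) : ℤ) + S.g = n - Divisor.degree D + 1 := by
  unfold W
  rw [finrank_redSub S.hPinf S.hSc S.hInt S.hReg (S.XD_le hD n)]
  have := S.hc (S.XD D n) (by rw [S.degree_XD]; have := S.c_lt_n₀; omega)
  rw [S.degree_XD] at this
  exact this

theorem W_ne_bot {D : Divisor Kb (FF M)} (hD : ∀ v, 0 ≤ D v) {n : ℤ}
    (hn : Divisor.degree D + S.n₀ ≤ n) : S.W D n ≠ ⊥ := by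
  intro h
  have h1 := S.finrank_W hD hn
  rw [h, finrank_bot] at h1
  have := S.g_lt_n₀
  push_cast at h1
  omega

/-- the base divisor of the reduced lattice -/
def Bdiv (D : Divisor Kb (FF M)) (n : ℤ) : Divisor (kA A) (FFb A M) :=
  baseDiv (S.W D n) (Finsupp.single S.Qinf n)

theorem Bdiv_nonneg (D : Divisor Kb (FF M)) (n : ℤ) (Q : Place (kA A) (FFb A M)) :
    0 ≤ S.Bdiv D n Q := baseDiv_nonneg _ _ Q

/-- **(a)** `deg (Bdiv D n) ≤ deg D` -/
theorem degree_Bdiv_le {D : Divisor Kb (FF M)} (hD : ∀ v, 0 ≤ D v) {n : ℤ}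
    (hn : Divisor.degree D + S.n₀ ≤ n) :
    Divisor.degree (S.Bdiv D n) ≤ Divisor.degree D := by
  have h1 := S.finrank_W hD hn
  have h2 := degree_baseDiv_le S.hSb S.hcb (S.W_le hD n) (S.W_ne_bot hD hn)
    (by have := S.cb_lt_n₀; omega)
  rw [degree_single_of S.hSb] at h2
  unfold Bdiv
  omega


/-! ### (A4): the reduction of `L(m ∞)` is `L̄(m ∞̄)` -/

theorem redSub_single {m : ℤ} (hm : S.n₀ ≤ m) :
    redSub M A (Finsupp.single S.Pinf m) = riemannRochSpace (Finsupp.single S.Qinf m) := by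
  have hle : redSub M A (Finsupp.single S.Pinf m) ≤ riemannRochSpace (Finsupp.single S.Qinf m) :=
    redSub_le S.hPinf S.hQinf S.hReg (fun v => le_rfl)
  haveI := Fermat.Agent.P2.helper74.finiteDimensional_L S.hSb (Finsupp.single S.Qinf m)
  refine Submodule.eq_of_le_of_finrank_eq hle ?_
  have h1 := finrank_redSub S.hPinf S.hSc S.hInt S.hReg (X := Finsupp.single S.Pinf m) (n := m)
    (fun v => le_rfl)
  have h2 := S.hc (Finsupp.single S.Pinf m)
    (by rw [degree_single_of (riemannSetting_FF M)]; have := S.c_lt_n₀; omega)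
  have h3 := S.hcb (Finsupp.single S.Qinf m)
    (by rw [degree_single_of S.hSb]; have := S.cb_lt_n₀; omega)
  rw [degree_single_of (riemannSetting_FF M)] at h2
  rw [degree_single_of S.hSb] at h3
  rw [h1]
  have h4 : (Fermat.Agent.P2.helper74.ell (Finsupp.single S.Pinf m) : ℤ)
      = Fermat.Agent.P2.helper74.ell (Finsupp.single S.Qinf m) := by omega
  exact_mod_cast h4

/-! ### (Prop 5): the base divisor of `f̄ · L̄(m ∞̄)` -/

theorem baseDiv_of_good {Y : LaurentSeries A} {n₁ : ℤ} (hL : InL (FF M) n₁ (incl A Y))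
    (hY0 : red A Y ≠ 0)
    {Df : Divisor Kb (FF M)} (hDf : ∀ P, Df P = P.ord (⟨incl A Y, hL.1⟩ : FF M))
    {Dfb : Divisor (kA A) (FFb A M)}
    (hDfb : ∀ Q, Dfb Q = Q.ord (⟨red A Y, (S.hReg n₁ Y hL).1⟩ : FFb A M))
    {m : ℤ} (hm : S.n₀ ≤ m) :
    baseDiv (redSub M A (Finsupp.single S.Pinf m - Df)) (Finsupp.single S.Qinf (m + n₁))
      = Dfb + Finsupp.single S.Qinf n₁ := by
  classical
  have hgood : IsGood A M Y := ⟨hL.1, (S.hReg n₁ Y hL).1, hY0⟩
  have hf0 : (⟨incl A Y, hL.1⟩ : FF M) ≠ 0 := fun h0 =>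
    isGood_incl_ne_zero hgood (congrArg Subtype.val h0)
  have hfb0 : (⟨red A Y, (S.hReg n₁ Y hL).1⟩ : FFb A M) ≠ 0 := fun h0 =>
    hY0 (congrArg Subtype.val h0)
  have hfL : (⟨incl A Y, hL.1⟩ : FF M) ∈ riemannRochSpace (Finsupp.single S.Pinf n₁) := by
    obtain ⟨_, h⟩ := (inL_iff_mem S.hPinf n₁ (incl A Y)).mp hL
    exact h
  have hX : ∀ v, (Finsupp.single S.Pinf m - Df) v ≤ Finsupp.single S.Pinf (m + n₁) v := by
    intro v
    have := (Fermat.Agent.P2.helper74.mem_L_iff' hf0).mp hfL v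
    rw [Finsupp.sub_apply, hDf, Finsupp.single_add, Finsupp.add_apply]
    omega
  have hW := redSub_le S.hPinf S.hQinf S.hReg hX
  have hiff := fun y => mem_redSub_sub_div_iff S.hPinf S.hInt S.hReg hL hY0 hDf
    (X₀ := Finsupp.single S.Pinf m) (m := m) (fun v => le_rfl) y
  rw [Finsupp.single_add] at hW ⊢
  refine baseDiv_eq_of S.hSb hW _ ?_ ?_
  · intro y hy
    obtain ⟨u, hu, rfl⟩ := (hiff y).mp hy
    rw [S.redSub_single hm] at hu
    rcases eq_or_ne u 0 with rfl | hu0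
    · rw [mul_zero]; exact Submodule.zero_mem _
    rw [Fermat.Agent.P2.helper74.mem_L_iff' (mul_ne_zero hfb0 hu0)]
    intro Q
    have := (Fermat.Agent.P2.helper74.mem_L_iff' hu0).mp hu Q
    rw [Q.ord_mul hfb0 hu0, Finsupp.sub_apply, Finsupp.add_apply, Finsupp.add_apply, hDfb]
    omega
  · intro Q
    obtain ⟨u, hu0, hu, he⟩ := Fermat.Agent.P2.helper74.exists_mem_L_ord_eq S.hSb S.hcb
      (D := Finsupp.single S.Qinf m)
      (by rw [degree_single_of S.hSb]; have := S.cb_lt_n₀; omega) Q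
    refine ⟨_, (hiff _).mpr ⟨u, by rw [S.redSub_single hm]; exact hu, rfl⟩,
      mul_ne_zero hfb0 hu0, ?_⟩
    rw [Q.ord_mul hfb0 hu0, he, Finsupp.add_apply, Finsupp.add_apply, hDfb]
    omega

/-! ### (Prop 2): `deg (Bdiv D n) = deg D` -/

theorem degree_le_degree_Bdiv {D : Divisor Kb (FF M)} (hD : ∀ v, 0 ≤ D v) {n : ℤ}
    (hn : Divisor.degree D + S.n₀ ≤ n) :
    Divisor.degree D ≤ Divisor.degree (S.Bdiv D n) := by
  classical
  have hS := riemannSetting_FF M
  have hd0 : 0 ≤ Divisor.degree D := Fermat.Agent.P2.helper74.degree_nonneg hD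
  have hn0 := S.n₀_pos
  -- a nonzero element of `L(n ∞ - D)`
  have hell := S.hc (S.XD D n) (by rw [S.degree_XD]; have := S.c_lt_n₀; omega)
  rw [S.degree_XD] at hell
  have hpos : 0 < Fermat.Agent.P2.helper74.ell (S.XD D n) := by
    have := S.g_lt_n₀
    have : (0 : ℤ) < Fermat.Agent.P2.helper74.ell (S.XD D n) := by omega
    exact_mod_cast this
  obtain ⟨h, hh0, hh⟩ := Fermat.Agent.P2.helper74.exists_ne_zero_of_ell_pos hpos
  have hInL : InL (FF M) n (h : LaurentSeries Kb) := inL_of_mem_L S.hPinf (S.XD_le hD n) hh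
  have hh0' : (h : LaurentSeries Kb) ≠ 0 := fun h0 => hh0 (Subtype.ext h0)
  obtain ⟨c, Y, hc0, hincl, hgood, -⟩ :=
    exists_scaled_good S.hPinf S.hSc S.hInt S.hReg hInL hh0'
  have hL : InL (FF M) n (incl A Y) := by rw [hincl]; exact inL_smul S.hPinf hInL c
  have hfeq : (⟨incl A Y, hL.1⟩ : FF M) = c • h := Subtype.ext (by rw [coe_smul_eq]; exact hincl)
  have hfmem : (⟨incl A Y, hL.1⟩ : FF M) ∈ riemannRochSpace (S.XD D n) := by
    rw [hfeq]; exact Submodule.smul_mem _ _ hh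
  have hf0 : (⟨incl A Y, hL.1⟩ : FF M) ≠ 0 := fun h0 =>
    isGood_incl_ne_zero hgood (congrArg Subtype.val h0)
  have hfb0 : (⟨red A Y, (S.hReg n Y hL).1⟩ : FFb A M) ≠ 0 := fun h0 =>
    hgood.2.2 (congrArg Subtype.val h0)
  obtain ⟨Df, hDf, hDfdeg⟩ := hS.principal.exists_divisor _ hf0
  obtain ⟨Dfb, hDfb, hDfbdeg⟩ := S.hSb.principal.exists_divisor _ hfb0
  -- the complementary divisor
  set D' : Divisor Kb (FF M) := Df + Finsupp.single S.Pinf n - D with hD'
  have hD'0 : ∀ v, 0 ≤ D' v := by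
    intro v
    have := (Fermat.Agent.P2.helper74.mem_L_iff' hf0).mp hfmem v
    rw [XD, Finsupp.sub_apply] at this
    rw [hD', Finsupp.sub_apply, Finsupp.add_apply, hDf]
    omega
  have hD'deg : Divisor.degree D' = n - Divisor.degree D := by
    rw [hD', map_sub, map_add, hDfdeg, degree_single_of hS]
    ring
  set n' : ℤ := (n - Divisor.degree D) + S.n₀ with hn'
  have hn'le : Divisor.degree D' + S.n₀ ≤ n' := by rw [hD'deg]
  have hn'0 : S.n₀ ≤ n' := by omega
  clear_value n'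
  have hXeq : S.XD D n + S.XD D' n' = Finsupp.single S.Pinf n' - Df := by
    rw [XD, XD, hD']
    abel
  have hX : ∀ v, (Finsupp.single S.Pinf n' - Df) v ≤ Finsupp.single S.Pinf (n' + n) v := by
    intro v
    have hfL : (⟨incl A Y, hL.1⟩ : FF M) ∈ riemannRochSpace (Finsupp.single S.Pinf n) := by
      obtain ⟨_, h⟩ := (inL_iff_mem S.hPinf n (incl A Y)).mp hL
      exact h
    have := (Fermat.Agent.P2.helper74.mem_L_iff' hf0).mp hfL v
    rw [Finsupp.sub_apply, hDf, Finsupp.single_add, Finsupp.add_apply]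
    omega
  have h₁₂ := redSub_le S.hPinf S.hQinf S.hReg hX
  have hsingle : (Finsupp.single S.Qinf (n' + n) : Divisor (kA A) (FFb A M))
      = Finsupp.single S.Qinf n + Finsupp.single S.Qinf n' := by
    rw [← Finsupp.single_add, add_comm]
  rw [hsingle] at h₁₂
  have hmul : ∀ y₁ ∈ S.W D n, ∀ y₂ ∈ S.W D' n',
      y₁ * y₂ ∈ redSub M A (Finsupp.single S.Pinf n' - Df) := by
    intro y₁ hy₁ y₂ hy₂
    rw [← hXeq]
    exact mul_mem_redSub hy₁ hy₂
  have hle := baseDiv_mul_le S.hSb (S.W_le hD n) (S.W_le hD'0 n') h₁₂ (S.W_ne_bot hD hn)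
    (S.W_ne_bot hD'0 hn'le) hmul
  have hbase := S.baseDiv_of_good hL hgood.2.2 hDf hDfb hn'0
  rw [hsingle] at hbase
  rw [hbase] at hle
  have hdeg := Fermat.Agent.P2.helper74.degree_le_degree
    (D := Dfb + Finsupp.single S.Qinf n) (D' := S.Bdiv D n + S.Bdiv D' n') hle
  rw [map_add, map_add, hDfbdeg, degree_single_of S.hSb] at hdeg
  have h2 := S.degree_Bdiv_le hD'0 hn'le
  rw [hD'deg] at h2
  linarith

theorem degree_Bdiv {D : Divisor Kb (FF M)} (hD : ∀ v, 0 ≤ D v) {n : ℤ}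
    (hn : Divisor.degree D + S.n₀ ≤ n) :
    Divisor.degree (S.Bdiv D n) = Divisor.degree D :=
  le_antisymm (S.degree_Bdiv_le hD hn) (S.degree_le_degree_Bdiv hD hn)

/-! ### (Prop 3), (Prop 4): additivity, independence of `n` -/

theorem Bdiv_add {D₁ D₂ : Divisor Kb (FF M)} (hD₁ : ∀ v, 0 ≤ D₁ v) (hD₂ : ∀ v, 0 ≤ D₂ v)
    {n₁ n₂ : ℤ} (hn₁ : Divisor.degree D₁ + S.n₀ ≤ n₁) (hn₂ : Divisor.degree D₂ + S.n₀ ≤ n₂) :
    S.Bdiv (D₁ + D₂) (n₁ + n₂) = S.Bdiv D₁ n₁ + S.Bdiv D₂ n₂ := by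
  classical
  have hn0 := S.n₀_pos
  have hD : ∀ v, 0 ≤ (D₁ + D₂) v := fun v => by
    rw [Finsupp.add_apply]; linarith [hD₁ v, hD₂ v]
  have hn : Divisor.degree (D₁ + D₂) + S.n₀ ≤ n₁ + n₂ := by
    rw [map_add]; omega
  have h₁₂ := S.W_le hD (n₁ + n₂)
  rw [Finsupp.single_add] at h₁₂
  have hmul : ∀ y₁ ∈ S.W D₁ n₁, ∀ y₂ ∈ S.W D₂ n₂, y₁ * y₂ ∈ S.W (D₁ + D₂) (n₁ + n₂) := by
    intro y₁ hy₁ y₂ hy₂
    unfold W
    rw [← S.XD_add]
    exact mul_mem_redSub hy₁ hy₂
  have hle := baseDiv_mul_le S.hSb (S.W_le hD₁ n₁) (S.W_le hD₂ n₂) h₁₂ (S.W_ne_bot hD₁ hn₁)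
    (S.W_ne_bot hD₂ hn₂) hmul
  have hBeq : baseDiv (S.W (D₁ + D₂) (n₁ + n₂))
      (Finsupp.single S.Qinf n₁ + Finsupp.single S.Qinf n₂) = S.Bdiv (D₁ + D₂) (n₁ + n₂) := by
    unfold Bdiv
    rw [Finsupp.single_add]
  rw [hBeq] at hle
  refine eq_of_le_of_degree_le S.hSb hle ?_
  rw [map_add, S.degree_Bdiv hD₁ hn₁, S.degree_Bdiv hD₂ hn₂, S.degree_Bdiv hD hn, map_add]

theorem Bdiv_zero {n : ℤ} (hn : S.n₀ ≤ n) : S.Bdiv 0 n = 0 := by
  have h0 : ∀ v, 0 ≤ (0 : Divisor Kb (FF M)) v := fun v => le_rfl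
  refine eq_zero_of_nonneg_of_degree_le S.hSb (S.Bdiv_nonneg 0 n) ?_
  rw [S.degree_Bdiv h0 (by rw [map_zero]; omega), map_zero]

theorem Bdiv_indep {D : Divisor Kb (FF M)} (hD : ∀ v, 0 ≤ D v) {n n' : ℤ}
    (hn : Divisor.degree D + S.n₀ ≤ n) (hn' : Divisor.degree D + S.n₀ ≤ n') :
    S.Bdiv D n = S.Bdiv D n' := by
  have h0 : ∀ v, 0 ≤ (0 : Divisor Kb (FF M)) v := fun v => le_rfl
  have hd0 : 0 ≤ Divisor.degree D := Fermat.Agent.P2.helper74.degree_nonneg hD
  have hz : ∀ k : ℤ, S.n₀ ≤ k → Divisor.degree (0 : Divisor Kb (FF M)) + S.n₀ ≤ k := by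
    intro k hk; rw [map_zero]; omega
  have e1 := S.Bdiv_add hD h0 hn (hz n' (by omega))
  have e2 := S.Bdiv_add hD h0 hn' (hz n (by omega))
  rw [add_zero, S.Bdiv_zero (by omega), add_zero] at e1 e2
  rw [← e1, ← e2, add_comm]

/-- the reduction of effective divisors -/
def Eplus (D : Divisor Kb (FF M)) : Divisor (kA A) (FFb A M) :=
  S.Bdiv D (Divisor.degree D + S.n₀)

theorem Eplus_eq {D : Divisor Kb (FF M)} (hD : ∀ v, 0 ≤ D v) {n : ℤ}
    (hn : Divisor.degree D + S.n₀ ≤ n) : S.Eplus D = S.Bdiv D n :=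
  S.Bdiv_indep hD le_rfl hn

theorem Eplus_nonneg (D : Divisor Kb (FF M)) (Q : Place (kA A) (FFb A M)) :
    0 ≤ S.Eplus D Q := S.Bdiv_nonneg _ _ Q

theorem degree_Eplus {D : Divisor Kb (FF M)} (hD : ∀ v, 0 ≤ D v) :
    Divisor.degree (S.Eplus D) = Divisor.degree D :=
  S.degree_Bdiv hD le_rfl

theorem Eplus_add {D₁ D₂ : Divisor Kb (FF M)} (hD₁ : ∀ v, 0 ≤ D₁ v) (hD₂ : ∀ v, 0 ≤ D₂ v) :
    S.Eplus (D₁ + D₂) = S.Eplus D₁ + S.Eplus D₂ := by
  have hn0 := S.n₀_pos
  have hD : ∀ v, 0 ≤ (D₁ + D₂) v := fun v => by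
    rw [Finsupp.add_apply]; linarith [hD₁ v, hD₂ v]
  rw [S.Eplus_eq hD (n := (Divisor.degree D₁ + S.n₀) + (Divisor.degree D₂ + S.n₀))
    (by rw [map_add]; omega)]
  exact S.Bdiv_add hD₁ hD₂ le_rfl le_rfl

theorem Eplus_zero : S.Eplus 0 = 0 := by
  unfold Eplus
  exact S.Bdiv_zero (by rw [map_zero, zero_add])


/-! ### The reduction of places -/

omit S in
theorem single_nonneg (P : Place Kb (FF M)) {k : ℤ} (hk : 0 ≤ k) :
    ∀ v, 0 ≤ (Finsupp.single P k : Divisor Kb (FF M)) v := fun v => by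
  classical
  rw [Finsupp.single_apply]
  split_ifs <;> omega

theorem exists_place (P : Place Kb (FF M)) :
    ∃ Q, S.Eplus (Finsupp.single P 1) = Finsupp.single Q 1 :=
  exists_single_of_degree_one S.hSb (S.Eplus_nonneg _)
    (by rw [S.degree_Eplus (single_nonneg P zero_le_one),
      degree_single_of (riemannSetting_FF M)])

/-- the reduction of places -/
def rP (P : Place Kb (FF M)) : Place (kA A) (FFb A M) := (S.exists_place P).choose

theorem Eplus_single (P : Place Kb (FF M)) :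
    S.Eplus (Finsupp.single P 1) = Finsupp.single (S.rP P) 1 :=
  (S.exists_place P).choose_spec

theorem Eplus_eq_mapDomain_aux : ∀ (d : ℕ) (D : Divisor Kb (FF M)), (∀ v, 0 ≤ D v) →
    Divisor.degree D = d → S.Eplus D = Finsupp.mapDomain S.rP D := by
  classical
  have hS := riemannSetting_FF M
  intro d
  induction d with
  | zero =>
    intro D hD hdeg
    have : D = 0 := eq_zero_of_nonneg_of_degree_le hS hD (by rw [hdeg]; simp)
    rw [this, S.Eplus_zero, Finsupp.mapDomain_zero]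
  | succ d ih =>
    intro D hD hdeg
    obtain ⟨P, hP⟩ := exists_pos_of_degree_pos hD (by rw [hdeg]; positivity)
    have hD₁ : ∀ v, 0 ≤ (D - Finsupp.single P 1 : Divisor Kb (FF M)) v := fun v => by
      rw [Finsupp.sub_apply, Finsupp.single_apply]
      split_ifs with hv
      · subst hv; omega
      · have := hD v; omega
    have hdeg₁ : Divisor.degree (D - Finsupp.single P 1) = d := by
      rw [map_sub, hdeg, degree_single_of hS]
      push_cast
      ring
    have hsum : D = (D - Finsupp.single P 1) + Finsupp.single P 1 := by abel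
    rw [hsum, S.Eplus_add hD₁ (single_nonneg P zero_le_one), ih _ hD₁ hdeg₁, S.Eplus_single,
      Finsupp.mapDomain_add, Finsupp.mapDomain_single]

theorem Eplus_eq_mapDomain {D : Divisor Kb (FF M)} (hD : ∀ v, 0 ≤ D v) :
    S.Eplus D = Finsupp.mapDomain S.rP D := by
  have hd0 : 0 ≤ Divisor.degree D := Fermat.Agent.P2.helper74.degree_nonneg hD
  exact S.Eplus_eq_mapDomain_aux (Divisor.degree D).toNat D hD (Int.toNat_of_nonneg hd0).symm

/-! ### The place at infinity reduces to the place at infinity -/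

include S in
theorem inL_one : InL (FF M) 1 (incl A (1 : LaurentSeries A)) := by
  have hP := S.hPinf
  rw [inL_iff_mem hP]
  have h1 : incl A (1 : LaurentSeries A) ∈ FF M := by rw [map_one]; exact one_mem _
  refine ⟨h1, ?_⟩
  have : (⟨incl A (1 : LaurentSeries A), h1⟩ : FF M) = 1 := Subtype.ext (map_one _)
  rw [this]
  exact one_mem_L zero_le_one

theorem rP_Pinf : S.rP S.Pinf = S.Qinf := by
  classical
  have hS := riemannSetting_FF M
  have hL := S.inL_one
  have hY0 : red A (1 : LaurentSeries A) ≠ 0 := by rw [map_one]; exact one_ne_zero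
  have e1 : (⟨incl A (1 : LaurentSeries A), hL.1⟩ : FF M) = 1 := Subtype.ext (map_one _)
  have e2 : (⟨red A (1 : LaurentSeries A), (S.hReg 1 1 hL).1⟩ : FFb A M) = 1 :=
    Subtype.ext (map_one _)
  have hDf : ∀ P : Place Kb (FF M), (0 : Divisor Kb (FF M)) P
      = P.ord (⟨incl A (1 : LaurentSeries A), hL.1⟩ : FF M) := fun P => by
    rw [e1, Place.ord_one, Finsupp.zero_apply]
  have hDfb : ∀ Q : Place (kA A) (FFb A M), (0 : Divisor (kA A) (FFb A M)) Q
      = Q.ord (⟨red A (1 : LaurentSeries A), (S.hReg 1 1 hL).1⟩ : FFb A M) := fun Q => by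
    rw [e2, Place.ord_one, Finsupp.zero_apply]
  have hbase := S.baseDiv_of_good hL hY0 hDf hDfb (m := S.n₀) le_rfl
  rw [zero_add] at hbase
  have hE : S.Eplus (Finsupp.single S.Pinf 1) = Finsupp.single S.Qinf 1 := by
    rw [← hbase]
    unfold Eplus Bdiv W XD
    rw [degree_single_of hS]
    have hx : (Finsupp.single S.Pinf (1 + S.n₀) - Finsupp.single S.Pinf 1 : Divisor Kb (FF M))
        = Finsupp.single S.Pinf S.n₀ - 0 := by
      rw [Finsupp.single_add]
      abel
    rw [hx, add_comm (1 : ℤ) S.n₀]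
  rw [S.Eplus_single] at hE
  exact Finsupp.single_left_injective one_ne_zero hE

/-! ### Rouché -/

theorem rouche {n : ℤ} {Y : LaurentSeries A} (hL : InL (FF M) n (incl A Y))
    (hb : red A Y ∈ FFb A M) (hY0 : red A Y ≠ 0) (D : Divisor Kb (FF M))
    (hD : ∀ P, D P = P.ord (⟨incl A Y, hL.1⟩ : FF M)) (Q : Place (kA A) (FFb A M)) :
    Finsupp.mapDomain S.rP D Q = Q.ord (⟨red A Y, hb⟩ : FFb A M) := by
  classical
  have hS := riemannSetting_FF M
  have hn0 := S.n₀_pos
  have hgood : IsGood A M Y := ⟨hL.1, hb, hY0⟩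
  have hf0 : (⟨incl A Y, hL.1⟩ : FF M) ≠ 0 := fun h0 =>
    isGood_incl_ne_zero hgood (congrArg Subtype.val h0)
  have hfb0 : (⟨red A Y, hb⟩ : FFb A M) ≠ 0 := fun h0 => hY0 (congrArg Subtype.val h0)
  -- enlarge `n` to a nonnegative bound
  obtain ⟨n', hn'0, hnn'⟩ : ∃ n' : ℤ, 0 ≤ n' ∧ n ≤ n' := ⟨max n 0, le_max_right _ _, le_max_left _ _⟩
  have hfL : (⟨incl A Y, hL.1⟩ : FF M) ∈ riemannRochSpace (Finsupp.single S.Pinf n') := by
    obtain ⟨_, h⟩ := (inL_iff_mem S.hPinf n (incl A Y)).mp hL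
    refine Fermat.Agent.P2.helper74.L_mono (fun v => ?_) h
    rw [Finsupp.single_apply, Finsupp.single_apply]
    split_ifs <;> omega
  have hL' : InL (FF M) n' (incl A Y) := (inL_iff_mem S.hPinf n' (incl A Y)).mpr ⟨hL.1, hfL⟩
  -- the divisors
  obtain ⟨Df, hDf, hDfdeg⟩ := hS.principal.exists_divisor _ hf0
  have hDeq : D = Df := by
    ext P
    rw [hD, hDf]
  have hDdeg : Divisor.degree D = 0 := by rw [hDeq, hDfdeg]
  obtain ⟨Dfb, hDfb, -⟩ := S.hSb.principal.exists_divisor _ hfb0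
  -- the effective divisor `D + n' ∞`
  have hDp : ∀ v, 0 ≤ (D + Finsupp.single S.Pinf n') v := by
    intro v
    have := (Fermat.Agent.P2.helper74.mem_L_iff' hf0).mp hfL v
    rw [Finsupp.add_apply, hD]
    omega
  have hdegp : Divisor.degree (D + Finsupp.single S.Pinf n') = n' := by
    rw [map_add, hDdeg, degree_single_of hS, zero_add]
  have hbase := S.baseDiv_of_good hL' hY0 (Df := D) (fun P => hD P) (Dfb := Dfb)
    (fun Q => hDfb Q) (m := S.n₀) le_rfl
  have hE : S.Eplus (D + Finsupp.single S.Pinf n') = Dfb + Finsupp.single S.Qinf n' := by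
    rw [← hbase]
    unfold Eplus Bdiv W XD
    rw [hdegp]
    have hx : (Finsupp.single S.Pinf (n' + S.n₀) - (D + Finsupp.single S.Pinf n')
        : Divisor Kb (FF M)) = Finsupp.single S.Pinf S.n₀ - D := by
      rw [Finsupp.single_add]
      abel
    rw [hx, add_comm n' S.n₀]
  rw [S.Eplus_eq_mapDomain hDp, Finsupp.mapDomain_add, Finsupp.mapDomain_single, S.rP_Pinf]
    at hE
  have hfin : Finsupp.mapDomain S.rP D = Dfb := add_right_cancel hE
  rw [hfin, hDfb]

end RedSetting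

end Modular

end Fermat.Agent.S37.helper16

end
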