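import Mathlib
import Fermat.Agent.S37.helper16_Defs
import Fermat.Agent.S37.helper16_EffRed
import Fermat.Agent.P2.helper29_Final
import Fermat.Agent.P2.helper81_CuspReg
import Fermat.Agent.P2.helper43_TameBaseFinal

/-!
# S37 [RD-E] (helper16): `EffRedStatement M A` at good pairs, UNCONDITIONAL

* `effRed_of_setting` : a `RedSetting` gives the reduction of places with Rouché's property for
  integral functions regular off infinity;
* `effRed_of`         : from `PrimeToLevel`, [VAL-UE] and genus equality;
* `effRed`            : at good pairs, unconditional.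
-/

set_option autoImplicit false
set_option linter.style.haveILetI false
set_option linter.unusedSectionVars false

noncomputable section

namespace Fermat.Agent.S37.helper16

open HahnSeries IntermediateField AlgebraicCurve ModularCurve
open Fermat.Agent.S18.helper19 Fermat.Agent.P2.helper29 Fermat.Agent.P2.helper22
open Fermat.Agent.S24

variable {M : ℕ} [NeZero M] {A : ValuationSubring Kb}

theorem effRed_of_setting (S : RedSetting M A) : EffRedStatement M A :=
  ⟨S.rP, fun _ _ hL hb hY0 D hD Q => S.rouche hL hb hY0 D hD Q⟩

/-- the setting from the P2 packages -/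
theorem nonempty_redSetting (hPL : PrimeToLevel M A) (hReg : RegRedStatement M A)
    (hGen : GenusEqStatement M A) : Nonempty (RedSetting M A) := by
  obtain ⟨⟨Pinf, hPinf⟩, ⟨Qinf, hQinf⟩⟩ := inftyStatement M A
  obtain ⟨g, ⟨-, c, hc⟩, ⟨-, cb, hcb⟩⟩ := hGen
  exact ⟨{
    Pinf := Pinf
    hPinf := hPinf
    Qinf := Qinf
    hQinf := hQinf
    hSc := Fermat.Agent.P2.helper81.scaleStatement M A hPL
    hInt := Fermat.Agent.P2.helper81.integralityStatement M A hPL
    hReg := hReg
    hSb := Fermat.Agent.P2.helper95.riemannSetting_FFb M A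
    g := g
    c := c
    hc := hc
    cb := cb
    hcb := hcb }⟩

theorem effRed_of (hPL : PrimeToLevel M A) (hReg : RegRedStatement M A)
    (hGen : GenusEqStatement M A) : EffRedStatement M A := by
  obtain ⟨S⟩ := nonempty_redSetting hPL hReg hGen
  exact effRed_of_setting S

/-- genus equality at good pairs, unconditional -/
theorem genusEq_goodPair (h : GoodPair M A) : GenusEqStatement M A := by
  obtain ⟨hM, ℓ, hℓ, hℓM, hA⟩ := h
  have hPL : PrimeToLevel M A := ⟨ℓ, hℓ, hℓM, hA⟩
  exact genusEq_of_leaves hM hℓ hℓM hA (Fermat.Agent.P2.helper81.regRedStatement M A hPL)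
    (Fermat.Agent.P2.helper28.cuspBarStatement hPL)
    (Fermat.Agent.P2.helper43.tameBase M A ⟨hM, hPL⟩)

/-- **[RD-E]** at good pairs, UNCONDITIONAL. -/
theorem effRed (M : ℕ) [NeZero M] (A : ValuationSubring Kb) (h : GoodPair M A) :
    EffRedStatement M A :=
  effRed_of h.2 (Fermat.Agent.P2.helper81.regRedStatement M A h.2) (genusEq_goodPair h)

end Fermat.Agent.S37.helper16

end
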