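import Mathlib
import Fermat.Agent.S37.helper16_Defs
import Fermat.Agent.P2.helper22_IdealStep
import Fermat.Agent.P2.helper29_Infty
import Fermat.Agent.P2.helper74_RieInst
import Fermat.Agent.P2.helper81_ValInt
import Fermat.Agent.P2.helper81_ValScale
import Fermat.Agent.P2.helper95_FFlInst

/-!
# S37, package [RD-P] (helper61, task 810)

`redDiv_of_effRed : PrimeToLevel M A → EffRedStatement M A → RedDivStatement M A`.

* degrees: all places have degree `1` on both sides (`RiemannSetting.deg_one`);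
* Rouché for a general integral `y` with `red y ≠ 0`: choose a multiplier `q ≠ 0`, regular off
  infinity, killing the finite poles of `y` (Riemann's inequality, `helper22.exists_multiplier`),
  scale it to an integral series `Y₂` with `red Y₂ ≠ 0` (`[VAL-SC]` + `[VAL-INT]`), apply the
  hypothesis to `Y₂` and to `y Y₂` and subtract;
* `PrincipalGeneratedByIntegral` = `helper81.principalGeneratedByIntegral`.
-/

set_option autoImplicit false
set_option synthInstance.maxHeartbeats 400000

noncomputable section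

open HahnSeries IntermediateField AlgebraicCurve ModularCurve
open Fermat.Agent.S18.helper19 Fermat.Agent.P2.helper29

namespace Fermat.Agent.S37.helper61

open Fermat.Agent.S37.helper16 Fermat.Agent.P2

section Scaled

variable {M : ℕ} [NeZero M] {A : ValuationSubring Kb}

/-- **scaled integral representatives without `[VAL-UE]`**: a nonzero function regular off
infinity has a scalar multiple with an integral `q`-expansion whose reduction is a nonzero
element of the special fibre field. -/
theorem exists_scaled_integral {Pinf : Place Kb (FF M)} (hPinf : IsInfty Pinf)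
    (hSc : ScaleStatement M A) (hInt : IntegralityStatement M A)
    {n : ℤ} {f : LaurentSeries Kb} (hf : InL (FF M) n f) (hf0 : f ≠ 0) :
    ∃ (c : Kb) (Y : LaurentSeries A), c ≠ 0 ∧ incl A Y = c • f ∧ IsGood A M Y := by
  obtain ⟨c, Y₁, Y₂, hc, hY₁, hY₂, he⟩ := hSc f (helper22.inL_mem hf) hf0
  have hf' : InL (FF M) n (c⁻¹ • f) := helper22.inL_smul hPinf hf c⁻¹
  have he' : incl A Y₁ = (c⁻¹ • f) * incl A Y₂ := by
    rw [← helper22.algebraMap_mul_eq_smul, mul_assoc, ← he, ← mul_assoc, ← map_mul,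
      inv_mul_cancel₀ hc, map_one, one_mul]
  have hw : IsWInt A M (c⁻¹ • f) := ⟨Y₁, Y₂, hY₁.1, hY₂, he'⟩
  obtain ⟨Y, hY⟩ := hInt n _ hf' hw
  have hmul : Y * Y₂ = Y₁ := helper22.incl_injective (by rw [map_mul, hY, he'])
  have hred : red A Y * red A Y₂ = red A Y₁ := by rw [← map_mul, hmul]
  have hne : red A Y ≠ 0 := fun h0 => hY₁.2.2 (by rw [← hred, h0, zero_mul])
  have hfY : incl A Y ∈ FF M := by rw [hY]; exact helper22.inL_mem hf'
  have hmem : red A Y ∈ FFb A M := by
    have h1 : red A Y = red A Y₁ * (red A Y₂)⁻¹ := by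
      rw [← hred, mul_assoc, mul_inv_cancel₀ hY₂.2.2, mul_one]
    rw [h1]
    exact mul_mem hY₁.2.1 (inv_mem hY₂.2.1)
  exact ⟨c⁻¹, Y, inv_ne_zero hc, hY, ⟨hfY, hmem, hne⟩⟩

end Scaled

/-- **[RD-P]** the reduction inputs of the Prelude at level `M` from Rouché for the integral
functions regular off infinity. -/
theorem redDiv_of_effRed (M : ℕ) [NeZero M] (A : ValuationSubring Kb)
    (hP : PrimeToLevel M A) (hE : EffRedStatement M A) : RedDivStatement M A := by
  classical
  obtain ⟨r, hr⟩ := hE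
  have hS : helper74.RiemannSetting Kb (FF M) := helper74.riemannSetting_FF M
  have hSb : helper74.RiemannSetting (kA A) (FFb A M) := helper95.riemannSetting_FFb M A
  obtain ⟨g, hg⟩ := helper74.riemannStatement M
  obtain ⟨⟨Pinf, hPinf⟩, -⟩ := inftyStatement M A
  have hSc : ScaleStatement M A := helper81.scaleStatement M A hP
  have hInt : IntegralityStatement M A := helper81.integralityStatement M A hP
  have hPGI : PrincipalGeneratedByIntegral A (IsLocalRing.residue A) M := by
    obtain ⟨ℓ, hℓ, hℓM, hA⟩ := hP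
    have : Fact ℓ.Prime := ⟨hℓ⟩
    exact helper81.principalGeneratedByIntegral A hA M hℓM
  refine ⟨r, ⟨fun P => ?_, ?_⟩, hPGI⟩
  · rw [hSb.deg_one, hS.deg_one]
  · intro y hy hyk hne D hD Q
    -- the function `f = incl y`
    have hy0 : y ≠ 0 := by
      rintro rfl
      exact hne (map_zero _)
    have hf0L : incl A y ≠ 0 := fun h0 =>
      hy0 (helper22.incl_injective (by rw [h0, map_zero]))
    set f : FF M := ⟨incl A y, hy⟩ with hf
    have hf0 : f ≠ 0 := fun h0 => hf0L (congrArg Subtype.val h0)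
    -- the multiplier
    obtain ⟨q, hq0, hq⟩ := helper22.exists_multiplier hS hg.1 Pinf D
    have hq0L : (q : LaurentSeries Kb) ≠ 0 := fun h0 => hq0 (Subtype.ext h0)
    have hne_inf : ∀ P : Place Kb (FF M), ¬ IsInfty P → P ≠ Pinf := by
      rintro P hP rfl
      exact hP hPinf
    have hqL : InL (FF M) (-(q : LaurentSeries Kb).order) (q : LaurentSeries Kb) :=
      helper22.exists_inL_of_regular q.2 (fun P hP => (hq P (hne_inf P hP)).1)
    -- scaling
    obtain ⟨c, Y₂, hc, hY₂, hgood⟩ := exists_scaled_integral hPinf hSc hInt hqL hq0L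
    have hL₂ : InL (FF M) (-(q : LaurentSeries Kb).order) (incl A Y₂) := by
      rw [hY₂]
      exact helper22.inL_smul hPinf hqL c
    set q₂ : FF M := ⟨incl A Y₂, hL₂.1⟩ with hq₂
    have hq₂eq : q₂ = c • q := by
      apply Subtype.ext
      rw [helper22.coe_smul_eq]
      exact hY₂
    have hq₂0 : q₂ ≠ 0 := by
      rw [hq₂eq]
      exact smul_ne_zero hc hq0
    have hordq₂ : ∀ v : Place Kb (FF M), v.ord q₂ = v.ord q := by
      intro v
      rw [hq₂eq, helper22.ord_smul_eq v hc]
    -- the product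
    have hmem₃ : incl A (y * Y₂) ∈ FF M := by
      rw [map_mul]
      exact mul_mem hy hL₂.1
    have hprod : (⟨incl A (y * Y₂), hmem₃⟩ : FF M) = f * q₂ :=
      Subtype.ext (map_mul (incl A) y Y₂)
    have hreg₃ : ∀ P : Place Kb (FF M), ¬ IsInfty P →
        0 ≤ P.ord (⟨incl A (y * Y₂), hmem₃⟩ : FF M) := by
      intro P hP
      rw [hprod, P.ord_mul hf0 hq₂0, hordq₂, ← hD P]
      have := (hq P (hne_inf P hP)).2
      omega
    have hL₃ : InL (FF M) (-(incl A (y * Y₂)).order) (incl A (y * Y₂)) :=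
      helper22.exists_inL_of_regular hmem₃ hreg₃
    have hb₃ : red A (y * Y₂) ∈ FFb A M := by
      rw [map_mul]
      exact mul_mem hyk hgood.2.1
    have hne₃ : red A (y * Y₂) ≠ 0 := by
      rw [map_mul]
      exact mul_ne_zero hne hgood.2.2
    -- the divisors
    obtain ⟨D₂, hD₂, -⟩ := hS.principal.exists_divisor q₂ hq₂0
    have h2 := hr _ Y₂ hL₂ hgood.2.1 hgood.2.2 D₂ hD₂ Q
    have hD₃ : ∀ P : Place Kb (FF M),
        (D + D₂) P = P.ord (⟨incl A (y * Y₂), hL₃.1⟩ : FF M) := by
      intro P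
      rw [Finsupp.add_apply, hD P, hD₂ P]
      have : (⟨incl A (y * Y₂), hL₃.1⟩ : FF M) = f * q₂ := hprod
      rw [this, P.ord_mul hf0 hq₂0]
    have h3 := hr _ (y * Y₂) hL₃ hb₃ hne₃ (D + D₂) hD₃ Q
    rw [Finsupp.mapDomain_add, Finsupp.add_apply, h2] at h3
    have hprodb : (⟨red A (y * Y₂), hb₃⟩ : FFb A M) =
        (⟨red A y, hyk⟩ : FFb A M) * (⟨red A Y₂, hgood.2.1⟩ : FFb A M) :=
      Subtype.ext (map_mul (red A) y Y₂)
    have hyb0 : (⟨red A y, hyk⟩ : FFb A M) ≠ 0 := fun h0 => hne (congrArg Subtype.val h0)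
    have hY₂b0 : (⟨red A Y₂, hgood.2.1⟩ : FFb A M) ≠ 0 :=
      fun h0 => hgood.2.2 (congrArg Subtype.val h0)
    rw [hprodb, Q.ord_mul hyb0 hY₂b0] at h3
    exact add_right_cancel h3

end Fermat.Agent.S37.helper61
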