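import Mathlib
import Fermat.Agent.S37.helper16_EffRedFinal
import Fermat.Agent.S37.helper61_RedDivP
import Fermat.Agent.S37.helper39_PullInj
import Fermat.Agent.S18.helper19_Final
import Fermat.Agent.P2.helper29_Core3
import Fermat.Agent.P2.helper81_CuspReg

/-!
# S37 (helper16, coordinator): FINAL ASSEMBLY

All packages of BLUEPRINT S37 v1 except [RIG-INST] are unconditional:

* [RD]    `redDiv_goodPair`  : `RedDivStatement M A` at good pairs ([RD-E] + helper61's [RD-P]);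
* [PINJ]  helper39's `pullInj_four`, `pullInj_nine`;
* [INJ-M] `redInj_goodPair`  : helper19's `s18_of_coreInj` + P2-CORE.

`s37_of_rig` : the frozen statement S37 from `RigStatement N` (= [RIG-INST] at the auxiliary
levels `4 N` and `9 N`).
-/

set_option autoImplicit false
set_option linter.style.haveILetI false
set_option linter.unusedSectionVars false

noncomputable section

open HahnSeries IntermediateField AlgebraicCurve ModularCurve
open Fermat.Agent.S18.helper19 Fermat.Agent.P2.helper29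

namespace Fermat.Agent.S37.helper16

/-- **[RD]** at good pairs, unconditional. -/
theorem redDiv_goodPair (M : ℕ) [NeZero M] (A : ValuationSubring Kb) (h : GoodPair M A) :
    RedDivStatement M A :=
  Fermat.Agent.S37.helper61.redDiv_of_effRed M A h.2 (effRed M A h)

/-- **[INJ-M]** unconditional (P2-CORE + S18 endgame). -/
theorem redInj_of_liesOver (M : ℕ) [NeZero M] (ℓ : ℕ) (hℓ : ℓ.Prime) (hℓM : ¬ ℓ ∣ M)
    (A : ValuationSubring Kb) (hA : A.LiesOverPrime ℓ) : RedInjStatement M ℓ A := by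
  haveI : Fact ℓ.Prime := ⟨hℓ⟩
  intro h m hm z hmz hz
  exact s18_of_coreInj
    (coreInj_of_cuspReg
      (fun M _ A h => Fermat.Agent.P2.helper81.cuspRegStatement_of_goodPair M A h))
    M hℓM A hA h m hm z hmz hz

/-- **[RIG-INST]** at the auxiliary levels `N r`, `r ∈ {4, 9}`. -/
def RigStatement (N : ℕ) [NeZero N] : Prop :=
  ∀ (r : ℕ) [NeZero r], (r = 4 ∨ r = 9) → ∀ (ℓ : ℕ) (hℓ : ℓ.Prime), ¬ ℓ ∣ N * r →
    ∀ A : ValuationSubring Kb, A.LiesOverPrime ℓ →
      RigInertiaStatement N r A ∧ RigFrobStatement N r ℓ hℓ A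

/-- the reduction datum at the auxiliary level `N r` -/
theorem rho_of_rig_aux (N p r : ℕ) [NeZero N] [NeZero r] (hr : r = 4 ∨ r = 9)
    (hP : PullInjStatement N r) (hRig : RigStatement N)
    (ℓ : ℕ) (hℓ : ℓ.Prime) (hℓNp : ¬ ℓ ∣ N * p) (hℓr : ¬ ℓ ∣ r)
    (A : ValuationSubring Kb) (hA : A.LiesOverPrime ℓ) : RhoStatement N p ℓ hℓ A := by
  have hℓN : ¬ ℓ ∣ N := fun h => hℓNp (Dvd.dvd.mul_right h p)
  have hℓp : ¬ ℓ ∣ p := fun h => hℓNp (Dvd.dvd.mul_left h N)
  have hℓM : ¬ ℓ ∣ N * r := fun h => (hℓ.dvd_mul.mp h).elim hℓN hℓr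
  have hdiv : 4 ∣ N * r ∨ 9 ∣ N * r := by
    rcases hr with rfl | rfl
    · exact Or.inl (Dvd.intro_left N rfl)
    · exact Or.inr (Dvd.intro_left N rfl)
  have hG : GoodPair (N * r) A := ⟨hdiv, ℓ, hℓ, hℓM, hA⟩
  obtain ⟨hI, hF⟩ := hRig r hr ℓ hℓ hℓM A hA
  exact rho_of_packages N p r ℓ hℓ hℓp A (redDiv_goodPair (N * r) A hG) hI hF hP
    (redInj_of_liesOver (N * r) ℓ hℓ hℓM A hA)

/-- the reduction datum from [RIG-INST] -/
theorem rho_of_rig (N p : ℕ) [NeZero N] (hRig : RigStatement N)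
    (ℓ : ℕ) (hℓ : ℓ.Prime) (hℓNp : ¬ ℓ ∣ N * p)
    (A : ValuationSubring Kb) (hA : A.LiesOverPrime ℓ) : RhoStatement N p ℓ hℓ A := by
  by_cases h2 : ℓ = 2
  · -- `ℓ = 2`: auxiliary level `9 N`
    have hℓr : ¬ ℓ ∣ 9 := by
      rw [h2]; decide
    exact rho_of_rig_aux N p 9 (Or.inr rfl) (Fermat.Agent.S37.helper39.pullInj_nine N) hRig
      ℓ hℓ hℓNp hℓr A hA
  · -- `ℓ` odd: auxiliary level `4 N`
    have hℓr : ¬ ℓ ∣ 4 := by
      intro h
      have h4 : ℓ ∣ 2 ^ 2 := by simpa using h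
      have := hℓ.dvd_of_dvd_pow h4
      exact h2 ((Nat.prime_dvd_prime_iff_eq hℓ Nat.prime_two).mp this)
    exact rho_of_rig_aux N p 4 (Or.inl rfl) (Fermat.Agent.S37.helper39.pullInj_four N) hRig
      ℓ hℓ hℓNp hℓr A hA

/-- **S37 from [RIG-INST].** -/
theorem s37_of_rig (N p : ℕ) [NeZero N] (hcomm : HeckeOperatorsCommuteBar N)
    (hRig : RigStatement N) :
    letI := heckeModuleBar N
    ∀ (_ : SMulCommClass (AlgebraicClosure ℚ ≃ₐ[ℚ] AlgebraicClosure ℚ) HeckeAlg (JZero N)),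
      SpecializationExists (K := ℚ) (L := AlgebraicClosure ℚ) N p (JZero N) :=
  s37_of_rho N p hcomm (fun ℓ hℓ hℓNp A hA => rho_of_rig N p hRig ℓ hℓ hℓNp A hA)

end Fermat.Agent.S37.helper16

end
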