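import Mathlib
import Fermat.Agent.P2.helper74_NonSpecial

/-!
# S37 / [RIG-ABS] (helper77, task 811): the abstract RIGIDITY lemma

`F/K` a `RiemannSetting` satisfying Riemann's inequality with genus `g`.  An additive map
`Φ : Div(F) → Div(F')` which kills the principal divisors and is `ℓ¹`-bounded on places
(`∑_Q |Φ(P)(Q)| ≤ C` for every place `P`) vanishes on the divisors of degree `0`.

Proof: for `k ≥ 1` the divisor `k D + g P₀` has degree `g`, hence is linearly equivalent to an
effective divisor `E_k` of degree `g`; so `k Φ(D) = Φ(E_k) - g Φ(P₀)` has `ℓ¹`-norm `≤ 2 g C`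
for all `k`, which forces `Φ(D) = 0`.

* `l1 E`                : the `ℓ¹`-norm `∑ |E x|` of a finitely supported `ℤ`-valued function;
* `l1_map_le`           : `l1 (Φ E) ≤ l1 E * C` for an additive map bounded on the `single`s;
* `rigidity`            : the lemma, in the shape of BLUEPRINT S37 v1;
* `rigidity_of_eq`      : the same from the equality form of Riemann's theorem (`hc`);
* `rigidity_eq`         : comparison form: `Φ₁ = Φ₂` on the divisors of degree `0`.
-/

set_option autoImplicit false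

namespace Fermat.Agent.S37.helper77

open AlgebraicCurve Fermat.Agent.P2.helper74

/-! ### The `ℓ¹`-norm of a finitely supported integer-valued function -/

section l1

variable {α β : Type*}

/-- The `ℓ¹`-norm `∑ |E x|`. -/
def l1 (E : α →₀ ℤ) : ℕ := E.sum fun _ n => n.natAbs

theorem l1_def (E : α →₀ ℤ) : l1 E = E.sum fun _ n => n.natAbs := rfl

theorem l1_eq_sum_of_subset (E : α →₀ ℤ) {s : Finset α} (h : E.support ⊆ s) :
    l1 E = ∑ x ∈ s, (E x).natAbs :=
  Finsupp.sum_of_support_subset E h _ (fun _ _ => rfl)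

@[simp] theorem l1_zero : l1 (0 : α →₀ ℤ) = 0 := by simp [l1]

theorem l1_add_le (E₁ E₂ : α →₀ ℤ) : l1 (E₁ + E₂) ≤ l1 E₁ + l1 E₂ := by
  classical
  rw [l1_eq_sum_of_subset (E₁ + E₂) Finsupp.support_add,
    l1_eq_sum_of_subset E₁ Finset.subset_union_left,
    l1_eq_sum_of_subset E₂ (Finset.subset_union_right (s₁ := E₁.support)),
    ← Finset.sum_add_distrib]
  refine Finset.sum_le_sum fun x _ => ?_
  rw [Finsupp.add_apply]
  exact Int.natAbs_add_le _ _

theorem l1_zsmul (n : ℤ) (E : α →₀ ℤ) : l1 (n • E) = n.natAbs * l1 E := by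
  classical
  rw [l1_eq_sum_of_subset (n • E) Finsupp.support_smul, l1_eq_sum_of_subset E subset_rfl,
    Finset.mul_sum]
  refine Finset.sum_congr rfl fun x _ => ?_
  rw [Finsupp.smul_apply, smul_eq_mul, Int.natAbs_mul]

theorem l1_nsmul (n : ℕ) (E : α →₀ ℤ) : l1 (n • E) = n * l1 E := by
  have h : n • E = (n : ℤ) • E := (natCast_zsmul E n).symm
  rw [h, l1_zsmul, Int.natAbs_natCast]

theorem l1_neg (E : α →₀ ℤ) : l1 (-E) = l1 E := by
  have h : -E = (-1 : ℤ) • E := by simp
  rw [h, l1_zsmul]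
  simp

theorem l1_sub_le (E₁ E₂ : α →₀ ℤ) : l1 (E₁ - E₂) ≤ l1 E₁ + l1 E₂ := by
  rw [sub_eq_add_neg]
  exact (l1_add_le _ _).trans (by rw [l1_neg])

theorem l1_sum_le {ι : Type*} (s : Finset ι) (f : ι → α →₀ ℤ) :
    l1 (∑ i ∈ s, f i) ≤ ∑ i ∈ s, l1 (f i) := by
  classical
  induction s using Finset.induction_on with
  | empty => simp
  | insert a s ha ih =>
    rw [Finset.sum_insert ha, Finset.sum_insert ha]
    exact (l1_add_le _ _).trans (Nat.add_le_add_left ih _)

theorem l1_eq_zero_iff {E : α →₀ ℤ} : l1 E = 0 ↔ E = 0 := by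
  constructor
  · intro h
    rw [l1_def, Finsupp.sum, Finset.sum_eq_zero_iff] at h
    ext x
    by_contra hx
    have hx' : x ∈ E.support := Finsupp.mem_support_iff.2 hx
    exact hx (Int.natAbs_eq_zero.1 (h x hx'))
  · rintro rfl
    exact l1_zero

/-- An additive map which is `ℓ¹`-bounded by `C` on the `single x 1` is `ℓ¹`-Lipschitz with
constant `C`. -/
theorem l1_map_le (Φ : (α →₀ ℤ) →+ (β →₀ ℤ)) (C : ℕ)
    (hbdd : ∀ x : α, l1 (Φ (Finsupp.single x 1)) ≤ C) (E : α →₀ ℤ) :
    l1 (Φ E) ≤ l1 E * C := by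
  classical
  have hE : E = ∑ x ∈ E.support, (E x) • Finsupp.single x (1 : ℤ) := by
    conv_lhs => rw [← Finsupp.sum_single E]
    rw [Finsupp.sum]
    refine Finset.sum_congr rfl fun x _ => ?_
    rw [Finsupp.smul_single, smul_eq_mul, mul_one]
  have h1 : Φ E = ∑ x ∈ E.support, (E x) • Φ (Finsupp.single x (1 : ℤ)) := by
    conv_lhs => rw [hE]
    rw [map_sum]
    exact Finset.sum_congr rfl fun x _ => map_zsmul Φ _ _
  rw [h1, l1_eq_sum_of_subset E subset_rfl, Finset.sum_mul]
  refine (l1_sum_le _ _).trans (Finset.sum_le_sum fun x _ => ?_)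
  rw [l1_zsmul]
  exact Nat.mul_le_mul_left _ (hbdd x)

end l1

/-! ### Effective divisors -/

section Eff

variable {K F : Type*} [Field K] [Field F] [Algebra K F]

/-- The `ℓ¹`-norm of an effective divisor is its degree (all places of degree one). -/
theorem l1_eq_degree_of_nonneg (hdeg : ∀ v : Place K F, v.deg = 1) {E : Divisor K F}
    (hE : ∀ v, 0 ≤ E v) : (l1 E : ℤ) = Divisor.degree E := by
  rw [degree_eq_sum, l1_def, Finsupp.sum, Finsupp.sum, Nat.cast_sum]
  refine Finset.sum_congr rfl fun v _ => ?_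
  rw [hdeg v, Nat.cast_one, mul_one, Int.natCast_natAbs, abs_of_nonneg (hE v)]

end Eff

/-! ### Rigidity -/

section Rigidity

variable {K F : Type*} [Field K] [Field F] [Algebra K F]
variable {k F' : Type*} [Field k] [Field F'] [Algebra k F']

/-- **[RIG-ABS]**, `ℓ¹`-form. -/
theorem rigidity_l1 (hS : RiemannSetting K F) {g : ℕ}
    (hg : ∀ D : Divisor K F, Divisor.degree D + 1 ≤ (ell D : ℤ) + g)
    (Φ : Divisor K F →+ Divisor k F') (C : ℕ)
    (hprin : ∀ D ∈ Divisor.principal (K := K) (F := F), Φ D = 0)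
    (hbdd : ∀ P : Place K F, l1 (Φ (Finsupp.single P 1)) ≤ C)
    (D : Divisor K F) (hD : Divisor.degree D = 0) : Φ D = 0 := by
  classical
  obtain ⟨P₀⟩ := hS.nonempty
  -- the key estimate
  have key : ∀ n : ℕ, n * l1 (Φ D) ≤ 2 * (g * C) := by
    intro n
    set Dn : Divisor K F := n • D + g • Finsupp.single P₀ (1 : ℤ) with hDn
    have hdegn : Divisor.degree Dn = g := by
      rw [hDn, map_add, map_nsmul, map_nsmul, hD, Divisor.degree_single, hS.deg_one]
      simp
    have hell : 0 < ell Dn := by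
      have h1 := hg Dn
      rw [hdegn] at h1
      have : (0 : ℤ) < ell Dn := by linarith
      exact_mod_cast this
    obtain ⟨f, hf0, hf⟩ := exists_ne_zero_of_ell_pos hell
    have hf' := (mem_L_iff' hf0).mp hf
    obtain ⟨Z, hZ, hZdeg⟩ := hS.principal.exists_divisor f hf0
    have hZprin : Z ∈ Divisor.principal (K := K) (F := F) := ⟨f, hf0, hZ⟩
    -- the effective divisor
    set E : Divisor K F := Dn + Z with hE
    have hEnn : ∀ v, 0 ≤ E v := by
      intro v
      rw [hE, Finsupp.add_apply, hZ v]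
      linarith [hf' v]
    have hEdeg : Divisor.degree E = g := by
      rw [hE, map_add, hdegn, hZdeg, add_zero]
    have hEl1 : l1 E = g := by
      have := l1_eq_degree_of_nonneg hS.deg_one hEnn
      rw [hEdeg] at this
      exact_mod_cast this
    have hΦE : Φ E = n • Φ D + g • Φ (Finsupp.single P₀ (1 : ℤ)) := by
      rw [hE, map_add, hprin Z hZprin, add_zero, hDn, map_add, map_nsmul, map_nsmul]
    have h2 : n • Φ D = Φ E - g • Φ (Finsupp.single P₀ (1 : ℤ)) := by
      rw [hΦE, add_sub_cancel_right]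
    calc n * l1 (Φ D) = l1 (n • Φ D) := (l1_nsmul _ _).symm
      _ = l1 (Φ E - g • Φ (Finsupp.single P₀ (1 : ℤ))) := by rw [h2]
      _ ≤ l1 (Φ E) + l1 (g • Φ (Finsupp.single P₀ (1 : ℤ))) := l1_sub_le _ _
      _ ≤ l1 E * C + g * l1 (Φ (Finsupp.single P₀ (1 : ℤ))) := by
          rw [l1_nsmul]
          exact Nat.add_le_add_right (l1_map_le Φ C hbdd E) _
      _ ≤ g * C + g * C := by
          rw [hEl1]
          exact Nat.add_le_add_left (Nat.mul_le_mul_left _ (hbdd P₀)) _
      _ = 2 * (g * C) := by ring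
  -- conclusion
  rw [← l1_eq_zero_iff]
  by_contra hne
  have hpos : 1 ≤ l1 (Φ D) := Nat.one_le_iff_ne_zero.2 hne
  have h3 := key (2 * (g * C) + 1)
  have h4 : 2 * (g * C) + 1 ≤ (2 * (g * C) + 1) * l1 (Φ D) := Nat.le_mul_of_pos_right _ hpos
  omega

/-- **[RIG-ABS]** (BLUEPRINT S37 v1): an additive map `Φ : Div(F) → Div(F')` which kills the
principal divisors and is `ℓ¹`-bounded on places vanishes on the divisors of degree `0`. -/
theorem rigidity (hS : RiemannSetting K F) {g : ℕ}
    (hg : ∀ D : Divisor K F, Divisor.degree D + 1 ≤ (ell D : ℤ) + g)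
    (Φ : Divisor K F →+ Divisor k F') (C : ℕ)
    (hprin : ∀ D ∈ Divisor.principal (K := K) (F := F), Φ D = 0)
    (hbdd : ∀ P : Place K F, ((Φ (Finsupp.single P 1)).sum fun _ n => n.natAbs) ≤ C) :
    ∀ D : Divisor K F, Divisor.degree D = 0 → Φ D = 0 :=
  fun D hD => rigidity_l1 hS hg Φ C hprin hbdd D hD

/-- **[RIG-ABS]** from the equality form of Riemann's theorem. -/
theorem rigidity_of_eq (hS : RiemannSetting K F) {g : ℕ} {c : ℤ}
    (hc : ∀ D : Divisor K F, c ≤ Divisor.degree D → (ell D : ℤ) + g = Divisor.degree D + 1)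
    (Φ : Divisor K F →+ Divisor k F') (C : ℕ)
    (hprin : ∀ D ∈ Divisor.principal (K := K) (F := F), Φ D = 0)
    (hbdd : ∀ P : Place K F, ((Φ (Finsupp.single P 1)).sum fun _ n => n.natAbs) ≤ C) :
    ∀ D : Divisor K F, Divisor.degree D = 0 → Φ D = 0 :=
  rigidity hS (fun D => riemann_ineq_of_eq hS hc D) Φ C hprin hbdd

/-- Comparison form: two additive maps which agree on the principal divisors and are both
bounded on places agree on the divisors of degree `0`. -/
theorem rigidity_eq (hS : RiemannSetting K F) {g : ℕ}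
    (hg : ∀ D : Divisor K F, Divisor.degree D + 1 ≤ (ell D : ℤ) + g)
    (Φ₁ Φ₂ : Divisor K F →+ Divisor k F') (C₁ C₂ : ℕ)
    (hprin : ∀ D ∈ Divisor.principal (K := K) (F := F), Φ₁ D = Φ₂ D)
    (hbdd₁ : ∀ P : Place K F, ((Φ₁ (Finsupp.single P 1)).sum fun _ n => n.natAbs) ≤ C₁)
    (hbdd₂ : ∀ P : Place K F, ((Φ₂ (Finsupp.single P 1)).sum fun _ n => n.natAbs) ≤ C₂) :
    ∀ D : Divisor K F, Divisor.degree D = 0 → Φ₁ D = Φ₂ D := by
  intro D hD
  have h := rigidity_l1 hS hg (Φ₁ - Φ₂) (C₁ + C₂)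
    (fun D hD => by rw [AddMonoidHom.sub_apply, hprin D hD, sub_self])
    (fun P => by
      rw [AddMonoidHom.sub_apply]
      exact (l1_sub_le _ _).trans (Nat.add_le_add (hbdd₁ P) (hbdd₂ P))) D hD
  rw [AddMonoidHom.sub_apply] at h
  exact sub_eq_zero.1 h

end Rigidity

end Fermat.Agent.S37.helper77
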