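import Mathlib
import Fermat.Agent.S37.helper77_Rigidity

/-!
# S37 / [RIG-ABS], tools for the consumers (helper77)

`ℓ¹`-bounds for the building blocks of the maps `Φ` to which `rigidity` is applied:

* `l1_single`, `l1_mapDomain_le`, `l1_smul_eq` (Galois action on divisors);
* `l1_comp_le`       : bounded ∘ bounded is bounded (constants multiply);
* `l1_add_apply_le`, `l1_sub_apply_le`, `l1_nsmul_apply_le` : sums, differences, multiples of
  bounded additive maps are bounded;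
* `l1_le_of_nonneg_of_degree` : an effective divisor of degree `d` has `ℓ¹`-norm `d`;
* `rigidity_comp`    : `rigidity` for `Φ = Φ₂ ∘ Φ₁` with both factors bounded on places.
-/

set_option autoImplicit false

namespace Fermat.Agent.S37.helper77

open AlgebraicCurve Fermat.Agent.P2.helper74

section l1tools

variable {α β γ : Type*}

theorem l1_single (x : α) (n : ℤ) : l1 (Finsupp.single x n) = n.natAbs := by
  rw [l1_def, Finsupp.sum_single_index]
  rfl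

theorem l1_mapDomain_le (r : α → β) (E : α →₀ ℤ) : l1 (Finsupp.mapDomain r E) ≤ l1 E := by
  classical
  rw [Finsupp.mapDomain, Finsupp.sum]
  refine (l1_sum_le _ _).trans ?_
  rw [l1_eq_sum_of_subset E subset_rfl]
  exact Finset.sum_le_sum fun x _ => (l1_single _ _).le

/-- the additive map `mapDomain r` is bounded by `1` on the `single`s -/
theorem l1_mapDomain_single_le (r : α → β) (x : α) :
    l1 (Finsupp.mapDomain r (Finsupp.single x (1 : ℤ))) ≤ 1 := by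
  refine (l1_mapDomain_le r _).trans ?_
  rw [l1_single]
  rfl

/-- bounded ∘ bounded is bounded -/
theorem l1_comp_le (Φ₁ : (α →₀ ℤ) →+ (β →₀ ℤ)) (Φ₂ : (β →₀ ℤ) →+ (γ →₀ ℤ)) (C₁ C₂ : ℕ)
    (h₁ : ∀ x : α, l1 (Φ₁ (Finsupp.single x 1)) ≤ C₁)
    (h₂ : ∀ y : β, l1 (Φ₂ (Finsupp.single y 1)) ≤ C₂) (x : α) :
    l1 (Φ₂ (Φ₁ (Finsupp.single x 1))) ≤ C₁ * C₂ :=
  (l1_map_le Φ₂ C₂ h₂ _).trans (Nat.mul_le_mul_right _ (h₁ x))

theorem l1_add_apply_le (Φ₁ Φ₂ : (α →₀ ℤ) →+ (β →₀ ℤ)) (C₁ C₂ : ℕ)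
    (h₁ : ∀ x : α, l1 (Φ₁ (Finsupp.single x 1)) ≤ C₁)
    (h₂ : ∀ x : α, l1 (Φ₂ (Finsupp.single x 1)) ≤ C₂) (x : α) :
    l1 ((Φ₁ + Φ₂) (Finsupp.single x 1)) ≤ C₁ + C₂ := by
  rw [AddMonoidHom.add_apply]
  exact (l1_add_le _ _).trans (Nat.add_le_add (h₁ x) (h₂ x))

theorem l1_sub_apply_le (Φ₁ Φ₂ : (α →₀ ℤ) →+ (β →₀ ℤ)) (C₁ C₂ : ℕ)
    (h₁ : ∀ x : α, l1 (Φ₁ (Finsupp.single x 1)) ≤ C₁)
    (h₂ : ∀ x : α, l1 (Φ₂ (Finsupp.single x 1)) ≤ C₂) (x : α) :
    l1 ((Φ₁ - Φ₂) (Finsupp.single x 1)) ≤ C₁ + C₂ := by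
  rw [AddMonoidHom.sub_apply]
  exact (l1_sub_le _ _).trans (Nat.add_le_add (h₁ x) (h₂ x))

theorem l1_nsmul_apply_le (n : ℕ) (Φ : (α →₀ ℤ) →+ (β →₀ ℤ)) (C : ℕ)
    (h : ∀ x : α, l1 (Φ (Finsupp.single x 1)) ≤ C) (x : α) :
    l1 ((n • Φ) (Finsupp.single x 1)) ≤ n * C := by
  rw [AddMonoidHom.nsmul_apply, l1_nsmul]
  exact Nat.mul_le_mul_left _ (h x)

/-- the identity is bounded by `1` -/
theorem l1_id_single_le (x : α) :
    l1 ((AddMonoidHom.id (α →₀ ℤ)) (Finsupp.single x 1)) ≤ 1 := by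
  rw [AddMonoidHom.id_apply, l1_single]
  rfl

end l1tools

section divisors

variable {K F : Type*} [Field K] [Field F] [Algebra K F]

/-- an effective divisor of degree `d` has `ℓ¹`-norm `d` (all places of degree one) -/
theorem l1_le_of_nonneg_of_degree (hdeg : ∀ v : Place K F, v.deg = 1) {E : Divisor K F}
    (hE : ∀ v, 0 ≤ E v) {d : ℕ} (hd : Divisor.degree E = d) : l1 E = d := by
  have h := l1_eq_degree_of_nonneg hdeg hE
  rw [hd] at h
  exact_mod_cast h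

/-- the action of an automorphism on divisors preserves the `ℓ¹`-norm of a `single` -/
theorem l1_smul_single (σ : F ≃ₐ[K] F) (v : Place K F) (n : ℤ) :
    l1 (σ • (Finsupp.single v n : Divisor K F)) = n.natAbs := by
  rw [Divisor.smul_single, l1_single]

end divisors

section Rigidity

variable {K F : Type*} [Field K] [Field F] [Algebra K F]
variable {β : Type*}
variable {k F' : Type*} [Field k] [Field F'] [Algebra k F']

/-- **[RIG-ABS]** for a composite `Φ₂ ∘ Φ₁` with both factors bounded on the `single`s. -/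
theorem rigidity_comp (hS : RiemannSetting K F) {g : ℕ}
    (hg : ∀ D : Divisor K F, Divisor.degree D + 1 ≤ (ell D : ℤ) + g)
    (Φ₁ : Divisor K F →+ (β →₀ ℤ)) (Φ₂ : (β →₀ ℤ) →+ Divisor k F') (C₁ C₂ : ℕ)
    (hprin : ∀ D ∈ Divisor.principal (K := K) (F := F), Φ₂ (Φ₁ D) = 0)
    (h₁ : ∀ P : Place K F, l1 (Φ₁ (Finsupp.single P 1)) ≤ C₁)
    (h₂ : ∀ y : β, l1 (Φ₂ (Finsupp.single y 1)) ≤ C₂) :
    ∀ D : Divisor K F, Divisor.degree D = 0 → Φ₂ (Φ₁ D) = 0 := by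
  intro D hD
  have h := rigidity_l1 hS hg (Φ₂.comp Φ₁) (C₁ * C₂)
    (fun D hD => by rw [AddMonoidHom.comp_apply]; exact hprin D hD)
    (fun P => by
      rw [AddMonoidHom.comp_apply]
      exact l1_comp_le Φ₁ Φ₂ C₁ C₂ h₁ h₂ P) D hD
  rwa [AddMonoidHom.comp_apply] at h

end Rigidity

end Fermat.Agent.S37.helper77
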