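import Mathlib
import Fermat.Agent.S37.helper16_Defs
import Fermat.Agent.S37.helper77_RigidityTools
import Fermat.Agent.P2.helper81_ValScale
import Fermat.Agent.P2.helper74_RieInst

/-!
# S37 [RIG-INST] (helper16): the rigidity instances

For `ℓ ∤ N r` and a place `A` of `ℚ̄` over `ℓ`:

* `rigInertia` : `RigInertiaStatement N r A`,
* `rigFrob`    : `RigFrobStatement N r ℓ hℓ A`.

Both follow from helper77's rigidity lemma applied to
`Φ = mapDomain (reduction of places) ∘ pullDiv N r ∘ Ψ`, `Ψ = t - 1` resp.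
`Ψ = σ² - T_ℓ σ + ℓ` on `Div(F_N)`:

* `Φ` kills the principal divisors by the function calculus of helper93 (`Rep`, `IsRootDiv`,
  Eichler-Shimura congruence `Rep.hecke`), transported along `β_r`, and Rouché's property of
  the reduction of places;
* `Φ` is bounded on places.
-/

set_option autoImplicit false
set_option linter.style.haveILetI false
set_option linter.unusedSectionVars false
set_option synthInstance.maxHeartbeats 400000

noncomputable section

open HahnSeries IntermediateField AlgebraicCurve ModularCurve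
open Fermat.Agent.S18.helper19 Fermat.Agent.P2.helper29 Fermat.Agent.P2.helper93
open Fermat.Agent.S37.helper77

namespace Fermat.Agent.S37.helper16

/-! ### Transport of `Rep` along `β_r` -/

section RepTransport

variable {A : ValuationSubring Kb} (N r : ℕ) [NeZero N] [NeZero r]

theorem lifts_betaR {y : FF N} {yb : LaurentSeries (kA A)} (h : Lifts A N y yb) :
    Lifts A (N * r) (betaR N r y) (qExpand (kA A) r yb) := by
  obtain ⟨Y, e1, e2, hm, n0⟩ := h
  refine ⟨qExpand A r Y, ?_, ?_, ?_, ?_⟩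
  · rw [Fermat.Agent.P2.helper94.coeffMap_qExpand, e1]
    exact (coe_heckeBetaBar (L := Kb) (N := N) (ℓ := r) y).symm
  · rw [Fermat.Agent.P2.helper94.coeffMap_qExpand, e2]
  · exact full_degeneracyC_map_le (kA A) N r ⟨yb, hm, rfl⟩
  · intro h0
    exact n0 (Fermat.Agent.P2.helper94.qExpand_injective r (h0.trans (map_zero _).symm))

theorem rep_betaR {h : FF N} {a b : LaurentSeries (kA A)} (H : Rep A N h a b) :
    Rep A (N * r) (betaR N r h) (qExpand (kA A) r a) (qExpand (kA A) r b) := by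
  obtain ⟨c, y₁, y₂, hc, l₁, l₂, e⟩ := H
  refine ⟨c, betaR N r y₁, betaR N r y₂, hc, lifts_betaR N r l₁, lifts_betaR N r l₂, ?_⟩
  rw [← map_mul, ← e, map_mul, AlgHom.commutes]

/-- the pull-back of the divisor of `h` is the divisor of `β_r h` -/
theorem isRootDiv_pullDiv {D : Divisor Kb (FF N)} {h : FF N} (H : IsRootDiv 1 D h) :
    IsRootDiv 1 (pullDiv N r D) (betaR N r h) := by
  haveI := hasPD_mul N r
  refine ⟨(map_ne_zero _).mpr H.1, fun w => ?_⟩
  have h1 : pullDiv N r D w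
      = Place.ramificationIndexAlong (betaR N r) w
        * D (w.restrictAlong (betaR N r) (betaR_integral N r)) :=
    Divisor.pullbackAlong_apply (betaR N r) (betaR_integral N r) D w
  rw [h1, Place.ord_restrictAlong (betaR N r) (betaR_integral N r) w h, ← H.2]
  push_cast
  ring

end RepTransport

/-! ### Rouché for quotients with equal reductions -/

section Rouche

variable {A : ValuationSubring Kb} {M : ℕ} [NeZero M]

theorem mapDomain_eq_zero_of_rep {r : Place Kb (FF M) → Place (kA A) (FFb A M)}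
    (hr : IsPlaceReductionModL A M r) {h : FF M} {a : LaurentSeries (kA A)}
    (H : Rep A M h a a) {D : Divisor Kb (FF M)} (hD : IsRootDiv 1 D h) :
    Finsupp.mapDomain r D = 0 := by
  classical
  have hh0 := H.ne_zero
  obtain ⟨c, y₁, y₂, hc, l₁, l₂, e⟩ := H
  have hy₁ := l₁.ne_zero
  have hy₂ := l₂.ne_zero
  obtain ⟨Y₁, e1, e2, m1, n1⟩ := l₁
  obtain ⟨Y₂, e1', e2', m2, n2⟩ := l₂
  have hc' : algebraMap Kb (FF M) c ≠ 0 := (map_ne_zero _).mpr hc
  obtain ⟨D₁, hD₁, -⟩ := (hasPD M).exists_divisor y₁ hy₁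
  obtain ⟨D₂, hD₂, -⟩ := (hasPD M).exists_divisor y₂ hy₂
  have hDeq : D = D₁ - D₂ := by
    ext P
    have h1 := hD.2 P
    have h2 := congrArg P.ord e
    rw [P.ord_mul hc' hy₁, P.ord_mul hh0 hy₂,
      Fermat.Agent.S24.helper75.place_ord_algebraMap, zero_add] at h2
    rw [Finsupp.sub_apply, hD₁, hD₂]
    push_cast at h1
    omega
  have hk1 : coeffMap (IsLocalRing.residue A) Y₁ ∈ FFb A M := by rw [e2]; exact m1
  have hk2 : coeffMap (IsLocalRing.residue A) Y₂ ∈ FFb A M := by rw [e2']; exact m2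
  have h1 : ∀ Q, Finsupp.mapDomain r D₁ Q = Q.ord (⟨a, m1⟩ : FFb A M) := fun Q => by
    have hy : coeffMap A.subtype Y₁ ∈ FF M := by rw [e1]; exact y₁.2
    have hyy : (⟨coeffMap A.subtype Y₁, hy⟩ : FF M) = y₁ := Subtype.ext e1
    have := hr.2 Y₁ hy hk1 (by rw [e2]; exact n1) D₁ (fun P => by rw [hD₁, hyy]) Q
    rw [this]
    congr 1
    exact Subtype.ext e2
  have h2 : ∀ Q, Finsupp.mapDomain r D₂ Q = Q.ord (⟨a, m1⟩ : FFb A M) := fun Q => by
    have hy : coeffMap A.subtype Y₂ ∈ FF M := by rw [e1']; exact y₂.2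
    have hyy : (⟨coeffMap A.subtype Y₂, hy⟩ : FF M) = y₂ := Subtype.ext e1'
    have := hr.2 Y₂ hy hk2 (by rw [e2']; exact n2) D₂ (fun P => by rw [hD₂, hyy]) Q
    rw [this]
    congr 1
    exact Subtype.ext e2'
  rw [hDeq]
  have hsub : Finsupp.mapDomain r (D₁ - D₂) = Finsupp.mapDomain r D₁ - Finsupp.mapDomain r D₂ :=
    map_sub (Finsupp.mapDomain.addMonoidHom r) D₁ D₂
  rw [hsub]
  ext Q
  rw [Finsupp.sub_apply, h1, h2, sub_self, Finsupp.zero_apply]

end Rouche

/-! ### Bounds for pull-back and push-forward -/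

section Bounds

variable {K F F' : Type*} [Field K] [Field F] [Field F'] [Algebra K F] [Algebra K F']

theorem rig_single_nonneg (v : Place K F) (w : Place K F) :
    0 ≤ (Finsupp.single v (1 : ℤ) : Divisor K F) w := by
  classical
  rw [Finsupp.single_apply]
  split_ifs <;> norm_num

theorem l1_pullbackAlong_single [HasPrincipalDivisors K F'] (φ : F →ₐ[K] F')
    (hφ : φ.toRingHom.IsIntegral) (hFI : FundamentalIdentityAlong K φ hφ)
    (hdegF : ∀ v : Place K F, v.deg = 1) (hdegF' : ∀ w : Place K F', w.deg = 1)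
    (v : Place K F) :
    l1 (Divisor.pullbackAlong φ hφ (Finsupp.single v 1)) = finrankAlong K φ := by
  refine l1_le_of_nonneg_of_degree hdegF' (fun w => ?_) ?_
  · rw [Divisor.pullbackAlong_apply]
    exact mul_nonneg (Int.natCast_nonneg _) (rig_single_nonneg v _)
  · rw [Divisor.degree_pullbackAlong φ hφ hFI, Divisor.degree_single, hdegF]
    simp

theorem inertiaDegAlong_eq_one (φ : F →ₐ[K] F') (hφ : φ.toRingHom.IsIntegral)
    (hdegF' : ∀ w : Place K F', w.deg = 1) (w : Place K F') :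
    w.inertiaDegAlong φ hφ = 1 := by
  letI := algebraAlong φ
  haveI := isScalarTower_along φ
  haveI := isIntegral_along φ hφ
  have h : (w.restrict F).deg * w.inertiaDeg F = w.deg := w.deg_restrict_mul_inertiaDeg
  rw [hdegF' w] at h
  exact Nat.eq_one_of_mul_eq_one_left h

theorem l1_pushforwardAlong_single (φ : F →ₐ[K] F') (hφ : φ.toRingHom.IsIntegral)
    (hdegF' : ∀ w : Place K F', w.deg = 1) (w : Place K F') :
    l1 (Divisor.pushforwardAlong φ hφ (Finsupp.single w 1)) ≤ 1 := by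
  rw [Divisor.pushforwardAlong_single, l1_single, inertiaDegAlong_eq_one φ hφ hdegF' w]
  simp

end Bounds

/-! ### The operators on divisors -/

section Maps

variable (N r : ℕ) [NeZero N] [NeZero r]

/-- the Galois action on divisors, as an additive map -/
def galDiv (σ : Kb ≃ₐ[ℚ] Kb) : Divisor Kb (FF N) →+ Divisor Kb (FF N) :=
  DistribSMul.toAddMonoidHom (Divisor Kb (FF N))
    (arithmeticGalois (modularFunctionFieldFull N) σ)

omit [NeZero N] in
theorem galDiv_apply (σ : Kb ≃ₐ[ℚ] Kb) (D : Divisor Kb (FF N)) :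
    galDiv N σ D = arithmeticGalois (modularFunctionFieldFull N) σ • D := rfl

omit [NeZero N] in
theorem l1_galDiv_single (σ : Kb ≃ₐ[ℚ] Kb) (P : Place Kb (FF N)) :
    l1 (galDiv N σ (Finsupp.single P 1)) ≤ 1 := by
  rw [galDiv_apply, SemilinearAut.smul_single, l1_single]
  rfl

theorem alphaR_integral : (heckeAlphaBar Kb N r).toRingHom.IsIntegral :=
  (Fermat.Agent.P3.helper58.heckeInputsAlong_bar N r).fst

/-- the Hecke correspondence on divisors -/
def heckeDiv : Divisor Kb (FF N) →+ Divisor Kb (FF N) :=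
  haveI := hasPD_mul N r
  Divisor.correspondence (heckeBetaBar Kb N r) (heckeAlphaBar Kb N r) (betaR_integral N r)
    (alphaR_integral N r)

theorem deg_one_FF (M : ℕ) [NeZero M] (v : Place Kb (FF M)) : v.deg = 1 :=
  (Fermat.Agent.P2.helper74.riemannSetting_FF M).deg_one v

theorem l1_pullDiv_single (P : Place Kb (FF N)) :
    l1 (pullDiv N r (Finsupp.single P 1)) ≤ finrankAlong Kb (betaR N r) := by
  haveI := hasPD_mul N r
  exact (l1_pullbackAlong_single (betaR N r) (betaR_integral N r) (betaR_fundamental N r)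
    (deg_one_FF N) (deg_one_FF (N * r)) P).le

theorem l1_heckeDiv_single (P : Place Kb (FF N)) :
    l1 (heckeDiv N r (Finsupp.single P 1)) ≤ finrankAlong Kb (betaR N r) * 1 := by
  haveI := hasPD_mul N r
  exact l1_comp_le (Divisor.pullbackAlong (betaR N r) (betaR_integral N r))
    (Divisor.pushforwardAlong (heckeAlphaBar Kb N r) (alphaR_integral N r)) _ 1
    (fun v => (l1_pullbackAlong_single (betaR N r) (betaR_integral N r) (betaR_fundamental N r)
      (deg_one_FF N) (deg_one_FF (N * r)) v).le)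
    (fun w => l1_pushforwardAlong_single _ _ (deg_one_FF (N * r)) w) P

end Maps

/-! ### The principal divisors are killed -/

section Principal

variable (N r : ℕ) [NeZero N] [NeZero r] {A : ValuationSubring Kb} {ℓ : ℕ}

/-- every nonzero function is a constant times a quotient of two good integral series -/
theorem exists_rep (hℓ : ℓ.Prime) (hℓN : ¬ ℓ ∣ N) (hA : A.LiesOverPrime ℓ) (f : FF N)
    (hf : f ≠ 0) : ∃ a b : LaurentSeries (kA A), Rep A N f a b := by
  have hSc := Fermat.Agent.P2.helper81.scaleStatement N A ⟨ℓ, hℓ, hℓN, hA⟩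
  have hGQ : GoodQuotStatement N A := fun h hh => by
    obtain ⟨c, Y₁, Y₂, hc, g₁, g₂, e⟩ :=
      hSc (h : LaurentSeries Kb) h.2 (fun h0 => hh (Subtype.ext h0))
    exact ⟨c, Y₁, Y₂, hc, g₁, g₂, e⟩
  exact hGQ.rep f hf

theorem inertia_principal (hℓ : ℓ.Prime) (hℓN : ¬ ℓ ∣ N) (hA : A.LiesOverPrime ℓ)
    {rr : Place Kb (FF (N * r)) → Place (kA A) (FFb A (N * r))}
    (hr : IsPlaceReductionModL A (N * r) rr) {t : Kb ≃ₐ[ℚ] Kb}
    (ht : t ∈ A.inertiaSubgroupIn ℚ) {D : Divisor Kb (FF N)}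
    (hD : D ∈ Divisor.principal (K := Kb) (F := FF N)) :
    Finsupp.mapDomain rr (pullDiv N r (galDiv N t D - D)) = 0 := by
  obtain ⟨f, hf0, hDf⟩ := hD
  have H : IsRootDiv 1 D f := ⟨hf0, fun P => by rw [Nat.cast_one, one_mul, hDf]⟩
  have H' : IsRootDiv 1 (galDiv N t D) (galF N t f) :=
    H.smul (arithmeticGalois (modularFunctionFieldFull N) t)
  have H2 := H'.div H
  have H3 := isRootDiv_pullDiv N r H2
  obtain ⟨ht', hid⟩ := decK_eq_id_of_mem_inertia ht
  obtain ⟨a, b, R⟩ := exists_rep N hℓ hℓN hA f hf0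
  have R' := R.gal t ht'
  rw [hid, coeffMap_id, coeffMap_id] at R'
  have R2 := R'.div R
  rw [mul_comm b a] at R2
  exact mapDomain_eq_zero_of_rep hr (rep_betaR N r R2) H3

theorem frob_principal [NeZero ℓ] (hℓ : ℓ.Prime) (hℓN : ¬ ℓ ∣ N) (hA : A.LiesOverPrime ℓ)
    {rr : Place Kb (FF (N * r)) → Place (kA A) (FFb A (N * r))}
    (hr : IsPlaceReductionModL A (N * r) rr) {σ : Kb ≃ₐ[ℚ] Kb}
    (hF : A.IsFrobeniusAt σ ℓ) {D : Divisor Kb (FF N)}
    (hD : D ∈ Divisor.principal (K := Kb) (F := FF N)) :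
    Finsupp.mapDomain rr (pullDiv N r
      (galDiv N σ (galDiv N σ D) - heckeDiv N ℓ (galDiv N σ D) + ℓ • D)) = 0 := by
  haveI : Fact ℓ.Prime := ⟨hℓ⟩
  haveI : CharP (kA A) ℓ := charP_residueField hℓ hA
  obtain ⟨hα, hβ, hP, hfin, hFI, hN⟩ := Fermat.Agent.P3.helper58.heckeInputsAlong_bar N ℓ
  obtain ⟨f, hf0, hDf⟩ := hD
  have H : IsRootDiv 1 D f := ⟨hf0, fun P => by rw [Nat.cast_one, one_mul, hDf]⟩
  have H1 : IsRootDiv 1 (galDiv N σ D) (galF N σ f) :=
    H.smul (arithmeticGalois (modularFunctionFieldFull N) σ)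
  have H2 : IsRootDiv 1 (galDiv N σ (galDiv N σ D)) (galF N σ (galF N σ f)) :=
    H1.smul (arithmeticGalois (modularFunctionFieldFull N) σ)
  have H3 : IsRootDiv 1 (heckeDiv N ℓ (galDiv N σ D)) (heckeNorm N ℓ (galF N σ f)) :=
    H1.correspondence (heckeBetaBar Kb N ℓ) (heckeAlphaBar Kb N ℓ) hβ hα hfin hN
  have E4 : IsRootDiv 1
      (galDiv N σ (galDiv N σ D) - heckeDiv N ℓ (galDiv N σ D) + ℓ • D)
      (galF N σ (galF N σ f) / heckeNorm N ℓ (galF N σ f) * f ^ ℓ) :=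
    (H2.div H3).mul (H.pow ℓ)
  obtain ⟨hσ', hfr⟩ := decK_eq_frobenius_of_isFrobeniusAt (ℓ := ℓ) hF
  obtain ⟨a, b, R⟩ := exists_rep N hℓ hℓN hA f hf0
  have R1 := R.gal σ hσ'
  have R2 := R1.gal σ hσ'
  rw [hfr] at R1 R2
  have R3 := Rep.hecke ℓ hℓN hA R.mem_left R.mem_right R1
  have R4 := (R2.div R3).mul (R.pow ℓ)
  have hab : coeffMap (frobenius (kA A) ℓ) (coeffMap (frobenius (kA A) ℓ) a) *
        (b ^ ℓ * coeffMap (frobenius (kA A) ℓ) (coeffMap (frobenius (kA A) ℓ) b)) * a ^ ℓ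
      = coeffMap (frobenius (kA A) ℓ) (coeffMap (frobenius (kA A) ℓ) b) *
        (a ^ ℓ * coeffMap (frobenius (kA A) ℓ) (coeffMap (frobenius (kA A) ℓ) a)) * b ^ ℓ := by
    ring
  rw [hab] at R4
  exact mapDomain_eq_zero_of_rep hr (rep_betaR N r R4) (isRootDiv_pullDiv N r E4)

end Principal

/-! ### The rigidity instances -/

section Main

variable (N r : ℕ) [NeZero N] [NeZero r] {A : ValuationSubring Kb} {ℓ : ℕ}

/-- **[RIG-I]** on divisors of degree `0`. -/
theorem inertia_degZero (hℓ : ℓ.Prime) (hℓN : ¬ ℓ ∣ N) (hA : A.LiesOverPrime ℓ)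
    {rr : Place Kb (FF (N * r)) → Place (kA A) (FFb A (N * r))}
    (hr : IsPlaceReductionModL A (N * r) rr) {t : Kb ≃ₐ[ℚ] Kb}
    (ht : t ∈ A.inertiaSubgroupIn ℚ) (D : Divisor Kb (FF N)) (hD : Divisor.degree D = 0) :
    Finsupp.mapDomain rr (pullDiv N r (galDiv N t D - D)) = 0 := by
  obtain ⟨g, hg, -⟩ := Fermat.Agent.P2.helper74.riemannStatement N
  have hS := Fermat.Agent.P2.helper74.riemannSetting_FF N
  let Ψ : Divisor Kb (FF N) →+ Divisor Kb (FF N) := galDiv N t - AddMonoidHom.id _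
  let Φ₁ : Divisor Kb (FF N) →+ (Place Kb (FF (N * r)) →₀ ℤ) := (pullDiv N r).comp Ψ
  let Φ₂ : (Place Kb (FF (N * r)) →₀ ℤ) →+ Divisor (kA A) (FFb A (N * r)) :=
    Finsupp.mapDomain.addMonoidHom rr
  have hΨ : ∀ P : Place Kb (FF N), l1 (Ψ (Finsupp.single P 1)) ≤ 1 + 1 :=
    l1_sub_apply_le (galDiv N t) (AddMonoidHom.id _) 1 1 (l1_galDiv_single N t)
      l1_id_single_le
  have h₁ : ∀ P : Place Kb (FF N), l1 (Φ₁ (Finsupp.single P 1))
      ≤ (1 + 1) * finrankAlong Kb (betaR N r) :=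
    l1_comp_le Ψ (pullDiv N r) (1 + 1) _ hΨ (l1_pullDiv_single N r)
  have h₂ : ∀ y : Place Kb (FF (N * r)), l1 (Φ₂ (Finsupp.single y 1)) ≤ 1 :=
    fun y => l1_mapDomain_single_le rr y
  have hprin : ∀ E ∈ Divisor.principal (K := Kb) (F := FF N), Φ₂ (Φ₁ E) = 0 :=
    fun E hE => inertia_principal N r hℓ hℓN hA hr ht hE
  exact rigidity_comp hS hg Φ₁ Φ₂ _ 1 hprin h₁ h₂ D hD

/-- the operator `σ² - T_ℓ σ + ℓ` on divisors -/
def frobOp (ℓ : ℕ) [NeZero ℓ] (σ : Kb ≃ₐ[ℚ] Kb) : Divisor Kb (FF N) →+ Divisor Kb (FF N) :=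
  (galDiv N σ).comp (galDiv N σ) - (heckeDiv N ℓ).comp (galDiv N σ) + ℓ • AddMonoidHom.id _

theorem frobOp_apply (ℓ : ℕ) [NeZero ℓ] (σ : Kb ≃ₐ[ℚ] Kb) (D : Divisor Kb (FF N)) :
    frobOp N ℓ σ D
      = galDiv N σ (galDiv N σ D) - heckeDiv N ℓ (galDiv N σ D) + ℓ • D := rfl

theorem l1_frobOp_single (ℓ : ℕ) [NeZero ℓ] (σ : Kb ≃ₐ[ℚ] Kb) (P : Place Kb (FF N)) :
    l1 (frobOp N ℓ σ (Finsupp.single P 1))
      ≤ 1 * 1 + 1 * (finrankAlong Kb (betaR N ℓ) * 1) + ℓ * 1 := by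
  have h1 : l1 (galDiv N σ (galDiv N σ (Finsupp.single P 1))) ≤ 1 * 1 :=
    l1_comp_le (galDiv N σ) (galDiv N σ) 1 1 (l1_galDiv_single N σ) (l1_galDiv_single N σ) P
  have h2 : l1 (heckeDiv N ℓ (galDiv N σ (Finsupp.single P 1)))
      ≤ 1 * (finrankAlong Kb (betaR N ℓ) * 1) :=
    l1_comp_le (galDiv N σ) (heckeDiv N ℓ) 1 _ (l1_galDiv_single N σ)
      (l1_heckeDiv_single N ℓ) P
  have h3 : l1 (ℓ • (Finsupp.single P 1 : Divisor Kb (FF N))) ≤ ℓ * 1 := by
    rw [l1_nsmul, l1_single]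
    rfl
  rw [frobOp_apply]
  refine (l1_add_le _ _).trans (Nat.add_le_add ((l1_sub_le _ _).trans (Nat.add_le_add h1 h2)) h3)

/-- **[RIG-F]** on divisors of degree `0`. -/
theorem frob_degZero [NeZero ℓ] (hℓ : ℓ.Prime) (hℓN : ¬ ℓ ∣ N) (hA : A.LiesOverPrime ℓ)
    {rr : Place Kb (FF (N * r)) → Place (kA A) (FFb A (N * r))}
    (hr : IsPlaceReductionModL A (N * r) rr) {σ : Kb ≃ₐ[ℚ] Kb}
    (hF : A.IsFrobeniusAt σ ℓ) (D : Divisor Kb (FF N)) (hD : Divisor.degree D = 0) :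
    Finsupp.mapDomain rr (pullDiv N r
      (galDiv N σ (galDiv N σ D) - heckeDiv N ℓ (galDiv N σ D) + ℓ • D)) = 0 := by
  obtain ⟨g, hg, -⟩ := Fermat.Agent.P2.helper74.riemannStatement N
  have hS := Fermat.Agent.P2.helper74.riemannSetting_FF N
  let Φ₁ : Divisor Kb (FF N) →+ (Place Kb (FF (N * r)) →₀ ℤ) :=
    (pullDiv N r).comp (frobOp N ℓ σ)
  let Φ₂ : (Place Kb (FF (N * r)) →₀ ℤ) →+ Divisor (kA A) (FFb A (N * r)) :=
    Finsupp.mapDomain.addMonoidHom rr
  have h₁ : ∀ P : Place Kb (FF N), l1 (Φ₁ (Finsupp.single P 1))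
      ≤ (1 * 1 + 1 * (finrankAlong Kb (betaR N ℓ) * 1) + ℓ * 1)
        * finrankAlong Kb (betaR N r) :=
    l1_comp_le (frobOp N ℓ σ) (pullDiv N r) _ _ (l1_frobOp_single N ℓ σ)
      (l1_pullDiv_single N r)
  have h₂ : ∀ y : Place Kb (FF (N * r)), l1 (Φ₂ (Finsupp.single y 1)) ≤ 1 :=
    fun y => l1_mapDomain_single_le rr y
  have hprin : ∀ E ∈ Divisor.principal (K := Kb) (F := FF N), Φ₂ (Φ₁ E) = 0 :=
    fun E hE => frob_principal N r hℓ hℓN hA hr hF hE
  exact rigidity_comp hS hg Φ₁ Φ₂ _ 1 hprin h₁ h₂ D hD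

/-- the Hecke operator on classes is induced by the correspondence on divisors -/
theorem heckeOperatorBar_mk (hℓ : ℓ.Prime) [NeZero ℓ]
    (D : Divisor.degZero (K := Kb) (F := FF N)) :
    ∃ D' : Divisor.degZero (K := Kb) (F := FF N),
      heckeOperatorBar N ⟨ℓ, hℓ⟩ (Pic0.mk D) = Pic0.mk D' ∧
        (D' : Divisor Kb (FF N)) = heckeDiv N ℓ (D : Divisor Kb (FF N)) := by
  obtain ⟨hα, hβ, hP, hfin, hFI, hN⟩ := Fermat.Agent.P3.helper58.heckeInputsAlong_bar N ℓ
  haveI := hP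
  refine ⟨Pic0.degZeroCorrespondence (heckeBetaBar Kb N ℓ) (heckeAlphaBar Kb N ℓ) hβ hα hFI D,
    ?_, rfl⟩
  have e := heckeOperatorAlong_eq (L := Kb) (N := N) (ℓ := ℓ) hα hβ hFI hfin hN
  have e2 : heckeOperatorBar N ⟨ℓ, hℓ⟩ (Pic0.mk D)
      = heckeOperatorAlong Kb N ℓ (Pic0.mk D) := rfl
  rw [e2, e]
  rfl

/-- **[RIG-I]** -/
theorem rigInertia (hℓ : ℓ.Prime) (hℓM : ¬ ℓ ∣ N * r) (hA : A.LiesOverPrime ℓ) :
    RigInertiaStatement N r A := by
  intro hRD t ht x
  have hℓN : ¬ ℓ ∣ N := fun h => hℓM (Dvd.dvd.mul_right h r)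
  obtain ⟨D, rfl⟩ := Pic0.mk_surjective x
  have hr := isPlaceReductionModL_placeReductionModL hRD
  have key := inertia_degZero N r hℓ hℓN hA hr ht (D : Divisor Kb (FF N))
    (Divisor.mem_degZero.mp D.2)
  have e : t • (Pic0.mk D : JZero N) - Pic0.mk D
      = Pic0.mk (SemilinearAut.degZeroSMulHom
          (arithmeticGalois (modularFunctionFieldFull N) t) D - D) := rfl
  rw [e, pullPic_mk, reductionModL_mk hRD]
  have hz : reductionDegZeroAlong (placeReductionModL hRD) hr.1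
      (pullDegZero N r (SemilinearAut.degZeroSMulHom
          (arithmeticGalois (modularFunctionFieldFull N) t) D - D)) = 0 :=
    Subtype.ext key
  rw [hz]
  rfl

/-- **[RIG-F]** -/
theorem rigFrob (hℓ : ℓ.Prime) (hℓM : ¬ ℓ ∣ N * r) (hA : A.LiesOverPrime ℓ) :
    RigFrobStatement N r ℓ hℓ A := by
  intro hRD σ hF x
  haveI : NeZero ℓ := ⟨hℓ.ne_zero⟩
  have hℓN : ¬ ℓ ∣ N := fun h => hℓM (Dvd.dvd.mul_right h r)
  obtain ⟨D, rfl⟩ := Pic0.mk_surjective x
  have hr := isPlaceReductionModL_placeReductionModL hRD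
  have key := frob_degZero N r hℓ hℓN hA hr hF (D : Divisor Kb (FF N))
    (Divisor.mem_degZero.mp D.2)
  set g := arithmeticGalois (modularFunctionFieldFull N) σ with hg
  obtain ⟨D', hD', hD'c⟩ := heckeOperatorBar_mk N hℓ (SemilinearAut.degZeroSMulHom g D)
  have e1 : σ • (Pic0.mk D : JZero N) = Pic0.mk (SemilinearAut.degZeroSMulHom g D) := rfl
  have e2 : σ • (Pic0.mk (SemilinearAut.degZeroSMulHom g D) : JZero N)
      = Pic0.mk (SemilinearAut.degZeroSMulHom g (SemilinearAut.degZeroSMulHom g D)) := rfl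
  have e : σ • σ • (Pic0.mk D : JZero N) - heckeOperatorBar N ⟨ℓ, hℓ⟩ (σ • Pic0.mk D)
        + ℓ • Pic0.mk D
      = Pic0.mk (SemilinearAut.degZeroSMulHom g (SemilinearAut.degZeroSMulHom g D) - D'
          + ℓ • D) := by
    rw [e1, e2, hD']
    rfl
  rw [e, pullPic_mk, reductionModL_mk hRD]
  have hz : reductionDegZeroAlong (placeReductionModL hRD) hr.1
      (pullDegZero N r (SemilinearAut.degZeroSMulHom g (SemilinearAut.degZeroSMulHom g D) - D'
          + ℓ • D)) = 0 := by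
    apply Subtype.ext
    refine Eq.trans ?_ key
    show Finsupp.mapDomain (placeReductionModL hRD) (pullDiv N r
      (((SemilinearAut.degZeroSMulHom g (SemilinearAut.degZeroSMulHom g D) - D' + ℓ • D
        : Divisor.degZero (K := Kb) (F := FF N)) : Divisor Kb (FF N)))) = _
    rw [AddSubgroup.coe_add, AddSubgroup.coe_sub, AddSubgroup.coe_nsmul, hD'c]
    rfl
  rw [hz]
  rfl

end Main

end Fermat.Agent.S37.helper16

end
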