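import Mathlib
import Fermat.Agent.S37.helper16_Rig
import Fermat.Agent.S37.helper16_Final

/-!
# S37 (helper16): [RIG-INST] unconditional, and the frozen statement S37

* `rigStatement N : RigStatement N`;
* `s37 N p hcomm` : the frozen statement S37.
-/

set_option autoImplicit false

noncomputable section

open HahnSeries IntermediateField AlgebraicCurve ModularCurve
open Fermat.Agent.S18.helper19

namespace Fermat.Agent.S37.helper16

/-- **[RIG-INST]**, unconditional. -/
theorem rigStatement (N : ℕ) [NeZero N] : RigStatement N :=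
  fun r _ _ _ hℓ hℓM _ hA => ⟨rigInertia N r hℓ hℓM hA, rigFrob N r hℓ hℓM hA⟩

/-- **S37**, unconditional. -/
theorem s37 (N p : ℕ) [NeZero N] (hcomm : HeckeOperatorsCommuteBar N) :
    letI := heckeModuleBar N
    ∀ (_ : SMulCommClass (AlgebraicClosure ℚ ≃ₐ[ℚ] AlgebraicClosure ℚ) HeckeAlg (JZero N)),
      SpecializationExists (K := ℚ) (L := AlgebraicClosure ℚ) N p (JZero N) :=
  s37_of_rig N p hcomm (rigStatement N)

end Fermat.Agent.S37.helper16

end
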