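/-
S37 [RIG-INST], part 1 (helper56, task 812): transport of the `Rep` calculus along `β_r`,
divisors of functions under pull-back, and the reduction of the divisor of a function which is
a quotient of two good series with the same reduction.

* `qExpand_mem_fullC`      : `y ∈ F̃_N ⟹ y(q ^ r) ∈ F̃_{N r}`;
* `lifts_betaR`, `rep_betaR` : `Lifts` / `Rep` transported along `β_r`;
* `isRootDiv_pullDiv`      : `n • D = div h ⟹ n • pullDiv D = div (β_r h)`;
* `mapDomain_eq_zero_of_rep` : Rouché for quotients: if `D = div h` and `h` is a quotient of two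
  good series with the same reduction, the reduction of `D` is `0`;
* `pullbackAlong_nonneg`, `pushforwardAlong_nonneg`, `l1_pullbackAlong_single`,
  `l1_correspondence_single` : effectivity and `ℓ¹`-norms of pull-backs and correspondences.
-/
import Mathlib
import Fermat.Agent.S37.helper16_Defs
import Fermat.Agent.S37.helper77_RigidityTools

set_option autoImplicit false
set_option linter.unusedSectionVars false
set_option linter.unusedVariables false
set_option linter.style.haveILetI false

noncomputable section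

open HahnSeries IntermediateField AlgebraicCurve ModularCurve
open Fermat.Agent.S18.helper19 Fermat.Agent.P2.helper93 Fermat.Agent.S37.helper16
open Fermat.Agent.S37.helper77

namespace Fermat.Agent.S37.helper56

/-! ### `q ↦ q ^ r` on the special fibre fields -/

theorem qExpand_mem_fullC {k : Type*} [Field k] (N r : ℕ) [NeZero N] [NeZero r]
    {x : LaurentSeries k} (hx : x ∈ modularFunctionFieldFullC k N) :
    qExpand k r x ∈ modularFunctionFieldFullC k (N * r) := by
  unfold modularFunctionFieldFullC at hx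
  induction hx using IntermediateField.adjoin_induction with
  | mem x hx =>
    obtain ⟨d, hd0, hd, rfl⟩ := hx
    haveI := hd0
    haveI : NeZero (r * d) := ⟨mul_ne_zero (NeZero.ne r) (NeZero.ne d)⟩
    rw [qExpand_qExpand]
    exact jqModCd_mem_full k (N * r) (by rw [mul_comm r d]; exact Nat.mul_dvd_mul hd dvd_rfl)
  | algebraMap c =>
    rw [algebraMap_laurentSeries_eq_single, qExpand_single, mul_zero,
      ← algebraMap_laurentSeries_eq_single]
    exact (modularFunctionFieldFullC k (N * r)).algebraMap_mem _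
  | add x y _ _ hx hy => rw [map_add]; exact add_mem hx hy
  | inv x _ hx => rw [map_inv₀]; exact inv_mem hx
  | mul x y _ _ hx hy => rw [map_mul]; exact mul_mem hx hy

/-! ### Transport of `Lifts` and `Rep` along `β_r` -/

section Transport

variable {A : ValuationSubring Kb} (N r : ℕ) [NeZero N] [NeZero r]

theorem lifts_betaR {y : FF N} {yb : LaurentSeries (kA A)} (h : Lifts A N y yb) :
    Lifts A (N * r) (betaR N r y) (qExpand (kA A) r yb) := by
  obtain ⟨Y, e1, e2, hm, n0⟩ := h
  refine ⟨qExpand A r Y, ?_, ?_, qExpand_mem_fullC N r hm, ?_⟩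
  · rw [Fermat.Agent.P2.helper94.coeffMap_qExpand, e1]
    rfl
  · rw [Fermat.Agent.P2.helper94.coeffMap_qExpand, e2]
  · intro h0
    exact n0 (qExpand_injective r (h0.trans (map_zero _).symm))

theorem rep_betaR {h : FF N} {a b : LaurentSeries (kA A)} (H : Rep A N h a b) :
    Rep A (N * r) (betaR N r h) (qExpand (kA A) r a) (qExpand (kA A) r b) := by
  obtain ⟨c, y₁, y₂, hc, l₁, l₂, e⟩ := H
  refine ⟨c, betaR N r y₁, betaR N r y₂, hc, lifts_betaR N r l₁, lifts_betaR N r l₂, ?_⟩
  rw [← map_mul, ← e, map_mul, AlgHom.commutes]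

/-- pull-back of divisors of functions along `β_r` -/
theorem isRootDiv_pullDiv {n : ℕ} {D : Divisor Kb (FF N)} {h : FF N} (H : IsRootDiv n D h) :
    IsRootDiv n (pullDiv N r D) (betaR N r h) := by
  haveI := hasPD_mul N r
  refine ⟨(map_ne_zero (betaR N r)).mpr H.1, fun w => ?_⟩
  have h1 : pullDiv N r D w = Place.ramificationIndexAlong (betaR N r) w *
      D (w.restrictAlong (betaR N r) (betaR_integral N r)) :=
    Divisor.pullbackAlong_apply (betaR N r) (betaR_integral N r) D w
  rw [h1, Place.ord_restrictAlong (betaR N r) (betaR_integral N r) w h,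
    ← H.2 (w.restrictAlong (betaR N r) (betaR_integral N r))]
  ring

end Transport

/-! ### Rouché for quotients with the same reduction -/

section Rouche

variable {A : ValuationSubring Kb} {M : ℕ} [NeZero M]

theorem mapDomain_eq_zero_of_rep {rr : Place Kb (FF M) → Place (kA A) (FFb A M)}
    (hr : IsPlaceReductionModL A M rr) {D : Divisor Kb (FF M)} {h : FF M}
    {a : LaurentSeries (kA A)} (H : IsRootDiv 1 D h) (R : Rep A M h a a) :
    Finsupp.mapDomain rr D = 0 := by
  obtain ⟨c, y₁, y₂, hc, ⟨Y₁, e1, e2, m1, n1⟩, ⟨Y₂, e1', e2', m2, n2⟩, e⟩ := R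
  have g₁ : IsGood A M Y₁ := ⟨by rw [e1]; exact y₁.2, by rw [e2]; exact m1, by rw [e2]; exact n1⟩
  have g₂ : IsGood A M Y₂ :=
    ⟨by rw [e1']; exact y₂.2, by rw [e2']; exact m2, by rw [e2']; exact n2⟩
  have hy₁ : toF g₁ = y₁ := Subtype.ext e1
  have hy₂ : toF g₂ = y₂ := Subtype.ext e1'
  have hb : toFb g₁ = toFb g₂ := Subtype.ext (e2.trans e2'.symm)
  have hc' : algebraMap Kb (FF M) c ≠ 0 := (map_ne_zero _).mpr hc
  have hD : D = divOf (toF g₁) (toF_ne_zero g₁) - divOf (toF g₂) (toF_ne_zero g₂) := by
    ext P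
    rw [Finsupp.sub_apply, divOf_apply, divOf_apply, hy₁, hy₂]
    have h1 := H.2 P
    rw [Nat.cast_one, one_mul] at h1
    have h2 := congrArg P.ord e
    rw [P.ord_mul hc' (hy₁ ▸ toF_ne_zero g₁), P.ord_mul H.1 (hy₂ ▸ toF_ne_zero g₂),
      Fermat.Agent.S24.helper75.place_ord_algebraMap, zero_add] at h2
    rw [h1, h2]
    ring
  rw [hD, Finsupp.mapDomain_sub]
  ext Q
  rw [Finsupp.sub_apply, mapDomain_divOf_good hr g₁ Q, mapDomain_divOf_good hr g₂ Q, hb,
    sub_self]
  rfl

end Rouche

/-! ### Effectivity and `ℓ¹`-norms of pull-backs and correspondences -/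

section Effective

variable {K F F' : Type*} [Field K] [Field F] [Field F'] [Algebra K F] [Algebra K F']

theorem pullbackAlong_nonneg [HasPrincipalDivisors K F'] (φ : F →ₐ[K] F')
    (hφ : φ.toRingHom.IsIntegral) {D : Divisor K F} (hD : ∀ v, 0 ≤ D v) (w : Place K F') :
    0 ≤ Divisor.pullbackAlong φ hφ D w := by
  rw [Divisor.pullbackAlong_apply]
  exact mul_nonneg (Nat.cast_nonneg _) (hD _)

theorem pushforwardAlong_nonneg (φ : F →ₐ[K] F') (hφ : φ.toRingHom.IsIntegral)
    {E : Divisor K F'} (hE : ∀ w, 0 ≤ E w) (v : Place K F) :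
    0 ≤ Divisor.pushforwardAlong φ hφ E v := by
  classical
  have h1 : E = ∑ w ∈ E.support, Finsupp.single w (E w) := by
    conv_lhs => rw [← Finsupp.sum_single E]
    rfl
  rw [h1, map_sum, Finsupp.finsetSum_apply]
  refine Finset.sum_nonneg fun w _ => ?_
  rw [Divisor.pushforwardAlong_single, Finsupp.single_apply]
  split_ifs
  · exact mul_nonneg (hE w) (Nat.cast_nonneg _)
  · exact le_rfl

theorem single_one_nonneg {α : Type*} (x y : α) : 0 ≤ (Finsupp.single x (1 : ℤ)) y := by
  classical
  rw [Finsupp.single_apply]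
  split_ifs <;> simp

/-- the pull-back of a place of degree one has `ℓ¹`-norm `[F' : φ F]` -/
theorem l1_pullbackAlong_single [HasPrincipalDivisors K F'] (φ : F →ₐ[K] F')
    (hφ : φ.toRingHom.IsIntegral) (hFI : FundamentalIdentityAlong K φ hφ)
    (hdeg : ∀ v : Place K F, v.deg = 1) (hdeg' : ∀ w : Place K F', w.deg = 1) (v : Place K F) :
    l1 (Divisor.pullbackAlong φ hφ (Finsupp.single v 1)) = finrankAlong K φ := by
  refine l1_le_of_nonneg_of_degree hdeg'
    (pullbackAlong_nonneg φ hφ (single_one_nonneg v)) ?_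
  rw [Divisor.degree_pullbackAlong φ hφ hFI, Divisor.degree_single, hdeg v]
  simp

/-- the image of a place of degree one under a correspondence has `ℓ¹`-norm `[F' : φ F]` -/
theorem l1_correspondence_single [HasPrincipalDivisors K F'] (φ ψ : F →ₐ[K] F')
    (hφ : φ.toRingHom.IsIntegral) (hψ : ψ.toRingHom.IsIntegral)
    (hFI : FundamentalIdentityAlong K φ hφ)
    (hdeg : ∀ v : Place K F, v.deg = 1) (v : Place K F) :
    l1 (Divisor.correspondence φ ψ hφ hψ (Finsupp.single v 1)) = finrankAlong K φ := by
  refine l1_le_of_nonneg_of_degree hdeg (E := Divisor.correspondence φ ψ hφ hψ (Finsupp.single v 1))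
    (pushforwardAlong_nonneg ψ hψ (pullbackAlong_nonneg φ hφ (single_one_nonneg v))) ?_
  rw [Divisor.degree_correspondence φ ψ hφ hψ hFI, Divisor.degree_single, hdeg v]
  simp

theorem l1_smul_single_semilinear (g : SemilinearAut K F) (v : Place K F) :
    l1 (g • (Finsupp.single v (1 : ℤ) : Divisor K F)) = 1 := by
  rw [SemilinearAut.smul_single, l1_single]
  rfl

end Effective

end Fermat.Agent.S37.helper56
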