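/-
S37 [RIG-INST], part 2 (helper56, task 812): the rigidity statements.

* `rigInertia` : `RigInertiaStatement N r A`  (`helper16_Defs`), for `A` over a prime `ℓ ∤ N r`;
* `rigFrob`    : `RigFrobStatement N r ℓ hℓ A` (`helper16_Defs`), for `A` over `ℓ ∤ N r`.

Both are instances of the rigidity lemma `helper77.rigidity_l1` for the additive map
`Φ = (reduction of places) ∘ (pull-back along β_r) ∘ Ψ` on `Div(F_N)`, with `Ψ = t - 1` resp.
`Ψ = σ² - T_ℓ σ + ℓ`: `Φ` kills the principal divisors by the function calculus of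
`helper93.p2Core_of` (the function `Ψ f` is a quotient of two good series with the same
reduction), transported to level `N r` along `β_r`, and Rouché; and `Φ` is bounded on places.
-/
import Mathlib
import Fermat.Agent.S37.helper56_RigRep
import Fermat.Agent.P2.helper74_RieInst
import Fermat.Agent.P2.helper81_ValScale
import Fermat.Agent.P2.helper93_KummerWiring

set_option autoImplicit false
set_option linter.unusedSectionVars false
set_option linter.unusedVariables false
set_option linter.style.haveILetI false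

noncomputable section

open HahnSeries IntermediateField AlgebraicCurve ModularCurve
open Fermat.Agent.S18.helper19 Fermat.Agent.P2.helper93 Fermat.Agent.S37.helper16
open Fermat.Agent.S37.helper77

namespace Fermat.Agent.S37.helper56

/-! ### Inputs at level `N` -/

/-- (H-VAL') at every level prime to `ℓ`. -/
theorem goodQuot_of_liesOver (N : ℕ) [NeZero N] {ℓ : ℕ} (hℓ : ℓ.Prime) (hℓN : ¬ ℓ ∣ N)
    (A : ValuationSubring Kb) (hA : A.LiesOverPrime ℓ) : GoodQuotStatement N A :=
  goodQuotStatement_of_scale N A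
    (Fermat.Agent.P2.helper81.scaleStatement N A ⟨ℓ, hℓ, hℓN, hA⟩)

/-! ### The rigidity lemma for `Φ = red ∘ pull ∘ Ψ` -/

section Rig

variable (N r : ℕ) [NeZero N] [NeZero r] {A : ValuationSubring Kb}

theorem l1_pullDiv_single (P : Place Kb (FF N)) :
    l1 (pullDiv N r (Finsupp.single P 1)) = finrankAlong Kb (betaR N r) := by
  haveI : NeZero (N * r) := ⟨Nat.mul_ne_zero (NeZero.ne N) (NeZero.ne r)⟩
  haveI := hasPD_mul N r
  exact l1_pullbackAlong_single (betaR N r) (betaR_integral N r) (betaR_fundamental N r)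
    (Fermat.Agent.P2.helper74.riemannSetting_FF N).deg_one
    (Fermat.Agent.P2.helper74.riemannSetting_FF (N * r)).deg_one P

/-- **rigidity** for `Φ = (mapDomain rr) ∘ pullDiv ∘ Ψ`. -/
theorem mapDomain_pullDiv_eq_zero (rr : Place Kb (FF (N * r)) → Place (kA A) (FFb A (N * r)))
    (Ψ : Divisor Kb (FF N) →+ Divisor Kb (FF N)) (C : ℕ)
    (hΨ : ∀ P : Place Kb (FF N), l1 (Ψ (Finsupp.single P 1)) ≤ C)
    (hprin : ∀ D ∈ Divisor.principal (K := Kb) (F := FF N),
      Finsupp.mapDomain rr (pullDiv N r (Ψ D)) = 0)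
    (D : Divisor Kb (FF N)) (hD : Divisor.degree D = 0) :
    Finsupp.mapDomain rr (pullDiv N r (Ψ D)) = 0 := by
  obtain ⟨g, hg, -⟩ := Fermat.Agent.P2.helper74.riemannStatement N
  exact rigidity_l1 (Fermat.Agent.P2.helper74.riemannSetting_FF N) hg
    ((Finsupp.mapDomain.addMonoidHom rr).comp ((pullDiv N r).comp Ψ))
    (C * finrankAlong Kb (betaR N r)) hprin
    (fun P => (l1_mapDomain_le rr _).trans
      (l1_comp_le Ψ (pullDiv N r) C _ hΨ (fun y => (l1_pullDiv_single N r y).le) P)) D hD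

end Rig

/-! ### The operators `Ψ` -/

section Ops

variable {N : ℕ} [NeZero N]

/-- the action of a semilinear automorphism on divisors, as an additive map -/
def smulHom (g : SemilinearAut Kb (FF N)) : Divisor Kb (FF N) →+ Divisor Kb (FF N) :=
  DistribSMul.toAddMonoidHom (Divisor Kb (FF N)) g

@[simp]
theorem smulHom_apply (g : SemilinearAut Kb (FF N)) (D : Divisor Kb (FF N)) :
    smulHom g D = g • D := rfl

theorem l1_smulHom_single (g : SemilinearAut Kb (FF N)) (P : Place Kb (FF N)) :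
    l1 (smulHom g (Finsupp.single P 1)) ≤ 1 :=
  (l1_smul_single_semilinear g P).le

/-- `Ψ = g - 1` -/
def psiI (g : SemilinearAut Kb (FF N)) : Divisor Kb (FF N) →+ Divisor Kb (FF N) :=
  smulHom g - AddMonoidHom.id _

theorem psiI_apply (g : SemilinearAut Kb (FF N)) (D : Divisor Kb (FF N)) :
    psiI g D = g • D - D := rfl

theorem l1_psiI_single (g : SemilinearAut Kb (FF N)) (P : Place Kb (FF N)) :
    l1 (psiI g (Finsupp.single P 1)) ≤ 1 + 1 :=
  l1_sub_apply_le (smulHom g) (AddMonoidHom.id _) 1 1 (l1_smulHom_single g)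
    (fun x => l1_id_single_le x) P

/-- `Ψ = g² - T g + ℓ` -/
def psiF (g : SemilinearAut Kb (FF N)) (T : Divisor Kb (FF N) →+ Divisor Kb (FF N)) (ℓ : ℕ) :
    Divisor Kb (FF N) →+ Divisor Kb (FF N) :=
  (smulHom g).comp (smulHom g) - T.comp (smulHom g) + ℓ • AddMonoidHom.id _

theorem psiF_apply (g : SemilinearAut Kb (FF N)) (T : Divisor Kb (FF N) →+ Divisor Kb (FF N))
    (ℓ : ℕ) (D : Divisor Kb (FF N)) :
    psiF g T ℓ D = g • g • D - T (g • D) + ℓ • D := rfl

theorem l1_psiF_single (g : SemilinearAut Kb (FF N))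
    (T : Divisor Kb (FF N) →+ Divisor Kb (FF N)) (ℓ : ℕ) (C : ℕ)
    (hT : ∀ P : Place Kb (FF N), l1 (T (Finsupp.single P 1)) ≤ C) (P : Place Kb (FF N)) :
    l1 (psiF g T ℓ (Finsupp.single P 1)) ≤ 1 + C + ℓ := by
  rw [psiF_apply]
  refine (l1_add_le _ _).trans (Nat.add_le_add ((l1_sub_le _ _).trans (Nat.add_le_add ?_ ?_)) ?_)
  · rw [SemilinearAut.smul_single, SemilinearAut.smul_single, l1_single]
    rfl
  · rw [SemilinearAut.smul_single]
    exact hT _
  · rw [l1_nsmul, l1_single]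
    simp

end Ops

/-! ### [RIG-I] -/

section Inertia

variable (N r : ℕ) [NeZero N] [NeZero r]

/-- `Φ` kills the principal divisors, inertia case. -/
theorem inertia_principal {ℓ : ℕ} (hℓ : ℓ.Prime) (hℓN : ¬ ℓ ∣ N)
    (A : ValuationSubring Kb) (hA : A.LiesOverPrime ℓ)
    {rr : Place Kb (FF (N * r)) → Place (kA A) (FFb A (N * r))}
    (hr : IsPlaceReductionModL A (N * r) rr)
    (t : Kb ≃ₐ[ℚ] Kb) (ht : t ∈ A.inertiaSubgroupIn ℚ)
    (D : Divisor Kb (FF N)) (hD : D ∈ Divisor.principal (K := Kb) (F := FF N)) :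
    Finsupp.mapDomain rr
      (pullDiv N r (psiI (arithmeticGalois (modularFunctionFieldFull N) t) D)) = 0 := by
  haveI : NeZero (N * r) := ⟨Nat.mul_ne_zero (NeZero.ne N) (NeZero.ne r)⟩
  obtain ⟨f, hf, hDf⟩ := hD
  have H : IsRootDiv 1 D f := ⟨hf, fun P => by rw [Nat.cast_one, one_mul, hDf P]⟩
  have H' : IsRootDiv 1 (arithmeticGalois (modularFunctionFieldFull N) t • D) (galF N t f) :=
    H.smul (arithmeticGalois (modularFunctionFieldFull N) t)
  have H2 : IsRootDiv 1 (psiI (arithmeticGalois (modularFunctionFieldFull N) t) D)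
      (galF N t f / f) := by
    rw [psiI_apply]
    exact H'.div H
  obtain ⟨ht', hid⟩ := decK_eq_id_of_mem_inertia ht
  obtain ⟨a, b, R⟩ := (goodQuot_of_liesOver N hℓ hℓN A hA).rep f hf
  have R' := R.gal t ht'
  rw [hid, coeffMap_id, coeffMap_id] at R'
  have R2 := R'.div R
  rw [mul_comm b a] at R2
  exact mapDomain_eq_zero_of_rep hr (isRootDiv_pullDiv N r H2) (rep_betaR N r R2)

/-- **[RIG-I]** -/
theorem rigInertia {ℓ : ℕ} (hℓ : ℓ.Prime) (hℓM : ¬ ℓ ∣ N * r)
    (A : ValuationSubring Kb) (hA : A.LiesOverPrime ℓ) : RigInertiaStatement N r A := by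
  intro hRI t ht x
  have hℓN : ¬ ℓ ∣ N := fun h => hℓM (Dvd.dvd.mul_right h r)
  obtain ⟨D, rfl⟩ := Pic0.mk_surjective x
  have hr : IsPlaceReductionModL A (N * r) (placeReductionModL hRI) :=
    isPlaceReductionModL_placeReductionModL hRI
  have key := mapDomain_pullDiv_eq_zero N r (placeReductionModL hRI)
    (psiI (arithmeticGalois (modularFunctionFieldFull N) t)) (1 + 1)
    (l1_psiI_single _) (inertia_principal N r hℓ hℓN A hA hr t ht)
    (D : Divisor Kb (FF N)) (Divisor.mem_degZero.mp D.2)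
  have e1 : t • (Pic0.mk D : JZero N) - Pic0.mk D
      = Pic0.mk (SemilinearAut.degZeroSMulHom
          (arithmeticGalois (modularFunctionFieldFull N) t) D - D) := rfl
  rw [e1, pullPic_mk, reductionModL_mk hRI]
  have hE : reductionDegZeroAlong (placeReductionModL hRI) hr.1
      (pullDegZero N r (SemilinearAut.degZeroSMulHom
          (arithmeticGalois (modularFunctionFieldFull N) t) D - D)) = 0 := by
    apply Subtype.ext
    rw [coe_reductionDegZeroAlong, coe_pullDegZero]
    exact key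
  rw [hE]
  rfl

end Inertia

/-! ### [RIG-F] -/

section Frobenius

variable (N r : ℕ) [NeZero N] [NeZero r]

/-- `Φ` kills the principal divisors, Frobenius case. -/
theorem frob_principal (ℓ : ℕ) [NeZero ℓ] (hℓ : ℓ.Prime) (hℓN : ¬ ℓ ∣ N)
    (A : ValuationSubring Kb) (hA : A.LiesOverPrime ℓ)
    {rr : Place Kb (FF (N * r)) → Place (kA A) (FFb A (N * r))}
    (hr : IsPlaceReductionModL A (N * r) rr)
    (σ : Kb ≃ₐ[ℚ] Kb) (hF : A.IsFrobeniusAt σ ℓ)
    (hα : HeckeAlphaBarIntegral Kb N ℓ) (hβ : HeckeBetaBarIntegral Kb N ℓ)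
    [HasPrincipalDivisors Kb (FF (N * ℓ))]
    (hfin : FiniteAlong Kb (heckeAlphaBar Kb N ℓ))
    (hN : NormFormulaAlong Kb (heckeAlphaBar Kb N ℓ) hfin)
    (D : Divisor Kb (FF N)) (hD : D ∈ Divisor.principal (K := Kb) (F := FF N)) :
    Finsupp.mapDomain rr
      (pullDiv N r (psiF (arithmeticGalois (modularFunctionFieldFull N) σ)
        (Divisor.correspondence (heckeBetaBar Kb N ℓ) (heckeAlphaBar Kb N ℓ) hβ hα) ℓ D)) = 0 := by
  haveI : NeZero (N * r) := ⟨Nat.mul_ne_zero (NeZero.ne N) (NeZero.ne r)⟩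
  haveI : Fact ℓ.Prime := ⟨hℓ⟩
  haveI : CharP (kA A) ℓ := Fermat.Agent.P2.helper93.charP_residueField hℓ hA
  obtain ⟨f, hf, hDf⟩ := hD
  have H : IsRootDiv 1 D f := ⟨hf, fun P => by rw [Nat.cast_one, one_mul, hDf P]⟩
  have H1 : IsRootDiv 1 (arithmeticGalois (modularFunctionFieldFull N) σ • D) (galF N σ f) :=
    H.smul (arithmeticGalois (modularFunctionFieldFull N) σ)
  have H2 : IsRootDiv 1 (arithmeticGalois (modularFunctionFieldFull N) σ •
      arithmeticGalois (modularFunctionFieldFull N) σ • D) (galF N σ (galF N σ f)) :=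
    H1.smul (arithmeticGalois (modularFunctionFieldFull N) σ)
  have H3 : IsRootDiv 1
      (Divisor.correspondence (heckeBetaBar Kb N ℓ) (heckeAlphaBar Kb N ℓ) hβ hα
        (arithmeticGalois (modularFunctionFieldFull N) σ • D))
      (heckeNorm N ℓ (galF N σ f)) :=
    H1.correspondence (heckeBetaBar Kb N ℓ) (heckeAlphaBar Kb N ℓ) hβ hα hfin hN
  have H4 : IsRootDiv 1 (psiF (arithmeticGalois (modularFunctionFieldFull N) σ)
      (Divisor.correspondence (heckeBetaBar Kb N ℓ) (heckeAlphaBar Kb N ℓ) hβ hα) ℓ D)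
      (galF N σ (galF N σ f) / heckeNorm N ℓ (galF N σ f) * f ^ ℓ) := by
    rw [psiF_apply]
    exact (H2.div H3).mul (H.pow ℓ)
  obtain ⟨hσ', hfr⟩ := decK_eq_frobenius_of_isFrobeniusAt (ℓ := ℓ) hF
  obtain ⟨a, b, R⟩ := (goodQuot_of_liesOver N hℓ hℓN A hA).rep f hf
  have R1 := R.gal σ hσ'
  have R2 := R1.gal σ hσ'
  rw [hfr] at R1 R2
  have R3 := Rep.hecke ℓ hℓN hA R.mem_left R.mem_right R1
  have R4 := (R2.div R3).mul (R.pow ℓ)
  have hab : coeffMap (frobenius (kA A) ℓ) (coeffMap (frobenius (kA A) ℓ) a) *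
        (b ^ ℓ * coeffMap (frobenius (kA A) ℓ) (coeffMap (frobenius (kA A) ℓ) b)) * a ^ ℓ
      = coeffMap (frobenius (kA A) ℓ) (coeffMap (frobenius (kA A) ℓ) b) *
        (a ^ ℓ * coeffMap (frobenius (kA A) ℓ) (coeffMap (frobenius (kA A) ℓ) a)) * b ^ ℓ := by
    ring
  rw [hab] at R4
  exact mapDomain_eq_zero_of_rep hr (isRootDiv_pullDiv N r H4) (rep_betaR N r R4)

/-- **[RIG-F]** -/
theorem rigFrob {ℓ : ℕ} (hℓ : ℓ.Prime) (hℓM : ¬ ℓ ∣ N * r)
    (A : ValuationSubring Kb) (hA : A.LiesOverPrime ℓ) : RigFrobStatement N r ℓ hℓ A := by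
  intro hRI σ hF x
  haveI : NeZero ℓ := ⟨hℓ.ne_zero⟩
  have hℓN : ¬ ℓ ∣ N := fun h => hℓM (Dvd.dvd.mul_right h r)
  obtain ⟨hα, hβ, hP, hfin, hFI, hN⟩ := Fermat.Agent.P3.helper58.heckeInputsAlong_bar N ℓ
  haveI := hP
  obtain ⟨D, rfl⟩ := Pic0.mk_surjective x
  have hr : IsPlaceReductionModL A (N * r) (placeReductionModL hRI) :=
    isPlaceReductionModL_placeReductionModL hRI
  have key := mapDomain_pullDiv_eq_zero N r (placeReductionModL hRI)
    (psiF (arithmeticGalois (modularFunctionFieldFull N) σ)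
      (Divisor.correspondence (heckeBetaBar Kb N ℓ) (heckeAlphaBar Kb N ℓ) hβ hα) ℓ)
    (1 + finrankAlong Kb (heckeBetaBar Kb N ℓ) + ℓ)
    (l1_psiF_single _ _ ℓ _ (fun P => (l1_correspondence_single (heckeBetaBar Kb N ℓ)
      (heckeAlphaBar Kb N ℓ) hβ hα hFI
      (Fermat.Agent.P2.helper74.riemannSetting_FF N).deg_one P).le))
    (frob_principal N r ℓ hℓ hℓN A hA hr σ hF hα hβ hfin hN)
    (D : Divisor Kb (FF N)) (Divisor.mem_degZero.mp D.2)
  have e3 : ∀ D' : Divisor.degZero (K := Kb) (F := FF N),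
      heckeOperatorBar N ⟨ℓ, hℓ⟩ (Pic0.mk D') =
        Pic0.mk (Pic0.degZeroCorrespondence (heckeBetaBar Kb N ℓ) (heckeAlphaBar Kb N ℓ)
          hβ hα hFI D') := by
    intro D'
    have e := heckeOperatorAlong_eq (L := Kb) (N := N) (ℓ := ℓ) hα hβ hFI hfin hN
    have e2 : heckeOperatorBar N ⟨ℓ, hℓ⟩ (Pic0.mk D')
        = heckeOperatorAlong Kb N ℓ (Pic0.mk D') := rfl
    rw [e2, e]
    rfl
  have e1 : σ • (Pic0.mk D : JZero N)
      = Pic0.mk (SemilinearAut.degZeroSMulHom
          (arithmeticGalois (modularFunctionFieldFull N) σ) D) := rfl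
  have e2 : σ • (Pic0.mk (SemilinearAut.degZeroSMulHom
          (arithmeticGalois (modularFunctionFieldFull N) σ) D) : JZero N)
      = Pic0.mk (SemilinearAut.degZeroSMulHom
          (arithmeticGalois (modularFunctionFieldFull N) σ)
          (SemilinearAut.degZeroSMulHom
          (arithmeticGalois (modularFunctionFieldFull N) σ) D)) := rfl
  rw [e1, e2, e3]
  have e4 : (Pic0.mk (SemilinearAut.degZeroSMulHom
          (arithmeticGalois (modularFunctionFieldFull N) σ)
          (SemilinearAut.degZeroSMulHom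
          (arithmeticGalois (modularFunctionFieldFull N) σ) D)) : JZero N)
        - Pic0.mk (Pic0.degZeroCorrespondence (heckeBetaBar Kb N ℓ) (heckeAlphaBar Kb N ℓ)
          hβ hα hFI (SemilinearAut.degZeroSMulHom
          (arithmeticGalois (modularFunctionFieldFull N) σ) D))
        + ℓ • Pic0.mk D
      = Pic0.mk (SemilinearAut.degZeroSMulHom
          (arithmeticGalois (modularFunctionFieldFull N) σ)
          (SemilinearAut.degZeroSMulHom
          (arithmeticGalois (modularFunctionFieldFull N) σ) D)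
        - Pic0.degZeroCorrespondence (heckeBetaBar Kb N ℓ) (heckeAlphaBar Kb N ℓ)
          hβ hα hFI (SemilinearAut.degZeroSMulHom
          (arithmeticGalois (modularFunctionFieldFull N) σ) D)
        + ℓ • D) := rfl
  rw [e4, pullPic_mk, reductionModL_mk hRI]
  have hE : reductionDegZeroAlong (placeReductionModL hRI) hr.1
      (pullDegZero N r (SemilinearAut.degZeroSMulHom
          (arithmeticGalois (modularFunctionFieldFull N) σ)
          (SemilinearAut.degZeroSMulHom
          (arithmeticGalois (modularFunctionFieldFull N) σ) D)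
        - Pic0.degZeroCorrespondence (heckeBetaBar Kb N ℓ) (heckeAlphaBar Kb N ℓ)
          hβ hα hFI (SemilinearAut.degZeroSMulHom
          (arithmeticGalois (modularFunctionFieldFull N) σ) D)
        + ℓ • D)) = 0 := by
    apply Subtype.ext
    rw [coe_reductionDegZeroAlong, coe_pullDegZero]
    exact key
  rw [hE]
  rfl

end Frobenius

end Fermat.Agent.S37.helper56
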